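import Mathlib

/-!
# S29/EX : the 2-dimensional extraction lemma (pure linear algebra, any characteristic)

`V` irreducible over an algebraically closed field, every `g` kills a quadratic
`X² - t X + χ(g)` with `χ` a CHARACTER.  Then `dim V ≤ 2`, and `det = χ` if `dim V = 2`.

Proof (no Burnside needed).  Put `g* = χ(g) g⁻¹ = t(g) - g`, `𝔄 = span_k ρ(G) ⊆ End V`.
(1) If `dim V ≥ 2` then `∑ c_g g = 0 ⇒ s := ∑ c_g t(g) = 0`: for `h ∈ G`, `0 = (∑ c_g g) h` gives
    `∑ c_g (g h)* = h* (∑ c_g g*) = h* s` is the scalar `∑ c_g t(g h)`; if `s ≠ 0` every `h*`,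
    hence every `h`, is a scalar and `V` irreducible has dimension 1.
    So `τ(∑ c_g g) := ∑ c_g t(g)` is a well defined linear form on `𝔄`, `a* := τ(a) - a` is an
    anti-automorphism of `𝔄`  ((g h)* = h* g*), `1* = 1`.
(2) `a a* = n(a)` is a scalar for all `a ∈ 𝔄` (`g h* + h g* = g h* + (g h*)* = τ(g h*)`), and
    `a b + b a = τ(a) b + τ(b) a + τ(a b) - τ(a) τ(b)`   (expand `(a b)* = b* a*`).
(3) If all of `𝔄` is scalar, `dim V = 1`.  Otherwise take a non scalar `a`, subtract an eigenvalue: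
    `a` non invertible, `n(a) = 0`, `a² = τ(a) a`.  If `τ(a) ≠ 0` rescale to an idempotent `e`
    (`τ(e) = 1`); (2) gives `e b e = (scalar) e`; `V` simple gives `e V = e 𝔄 e v = k v`: `dim eV = 1`,
    same for `1 - e`: `dim V = 2`.  If `τ(a) = 0`: `a² = 0`, `a b a = τ(a b) a`; choose `v` with
    `a v ≠ 0` and `b` with `b a v = v`: `τ(a b) = 1`, `e = a b` is a non trivial idempotent.
(4) `det`: non scalar `g`: the quadratic is the characteristic polynomial.  Scalar `g = α`:
    by (1) `g* = α 1* = α`, i.e. `χ(g) = α²`.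
-/

set_option autoImplicit false

namespace Fermat.Agent.S29

namespace QuadAux

section
variable {k : Type*} [Field k] {G : Type*} [Group G]
    {V : Type*} [AddCommGroup V] [Module k V]
    (ρ : G →* Module.End k V)

/-- the linear span of the image of `ρ`. -/
def spanA : Submodule k (Module.End k V) := Submodule.span k (Set.range ρ)

lemma rho_mem (g : G) : ρ g ∈ spanA ρ := Submodule.subset_span ⟨g, rfl⟩

lemma one_mem_spanA : (1 : Module.End k V) ∈ spanA ρ := by simpa using rho_mem ρ 1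

lemma rho_mul_mem (g : G) {a : Module.End k V} (ha : a ∈ spanA ρ) : ρ g * a ∈ spanA ρ := by
  induction ha using Submodule.span_induction with
  | mem x hx => obtain ⟨h, rfl⟩ := hx; rw [← map_mul]; exact rho_mem ρ _
  | zero => simp
  | add x y _ _ hx hy => rw [mul_add]; exact add_mem hx hy
  | smul c x _ hx => rw [mul_smul_comm]; exact Submodule.smul_mem _ _ hx

variable {ρ}

lemma exists_apply_eq
    (hirr : ∀ U : Submodule k V, (∀ g, ∀ x ∈ U, ρ g x ∈ U) → U = ⊥ ∨ U = ⊤)
    {v : V} (hv : v ≠ 0) (w : V) : ∃ a ∈ spanA ρ, a v = w := by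
  let U : Submodule k V := (spanA ρ).map (LinearMap.applyₗ v)
  have hU : ∀ g, ∀ x ∈ U, ρ g x ∈ U := by
    rintro g x ⟨a, ha, rfl⟩
    exact ⟨ρ g * a, rho_mul_mem ρ g ha, rfl⟩
  rcases hirr U hU with h | h
  · exfalso
    have : v ∈ U := ⟨1, one_mem_spanA ρ, rfl⟩
    rw [h] at this
    exact hv (by simpa using this)
  · have : w ∈ U := h ▸ Submodule.mem_top
    obtain ⟨a, ha, rfl⟩ := this
    exact ⟨a, ha, rfl⟩

lemma schur [IsAlgClosed k] [FiniteDimensional k V] [Nontrivial V]
    (hirr : ∀ U : Submodule k V, (∀ g, ∀ x ∈ U, ρ g x ∈ U) → U = ⊥ ∨ U = ⊤)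
    (φ : Module.End k V) (hφ : ∀ g x, φ (ρ g x) = ρ g (φ x)) : ∃ μ : k, ∀ x, φ x = μ • x := by
  obtain ⟨μ, hμ⟩ := Module.End.exists_eigenvalue φ
  refine ⟨μ, fun x => ?_⟩
  have hU : ∀ g, ∀ x ∈ φ.eigenspace μ, ρ g x ∈ φ.eigenspace μ := by
    intro g x hx
    rw [Module.End.mem_eigenspace_iff] at hx ⊢
    rw [hφ, hx, map_smul]
  rcases hirr _ hU with h | h
  · exact absurd h hμ
  · have : x ∈ φ.eigenspace μ := h ▸ Submodule.mem_top
    exact Module.End.mem_eigenspace_iff.1 this

lemma density_two [IsAlgClosed k] [FiniteDimensional k V] [Nontrivial V]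
    (hirr : ∀ U : Submodule k V, (∀ g, ∀ x ∈ U, ρ g x ∈ U) → U = ⊥ ∨ U = ⊤)
    {v₁ v₂ : V} (h1 : v₁ ≠ 0) (h2 : ∀ μ : k, v₂ ≠ μ • v₁) (w : V) :
    ∃ a ∈ spanA ρ, a v₁ = 0 ∧ a v₂ = w := by
  let U : Submodule k V :=
    (spanA ρ ⊓ LinearMap.ker (LinearMap.applyₗ (R := k) (M₂ := V) v₁)).map (LinearMap.applyₗ v₂)
  have hU : ∀ g, ∀ x ∈ U, ρ g x ∈ U := by
    rintro g x ⟨a, ⟨ha, ha'⟩, rfl⟩
    refine ⟨ρ g * a, ⟨rho_mul_mem ρ g ha, ?_⟩, rfl⟩
    have : a v₁ = 0 := ha'
    show (ρ g * a) v₁ = 0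
    rw [Module.End.mul_apply, this, map_zero]
  rcases hirr U hU with h | h
  · exfalso
    have key : ∀ a ∈ spanA ρ, a v₁ = 0 → a v₂ = 0 := by
      intro a ha ha'
      have : a v₂ ∈ U := ⟨a, ⟨ha, ha'⟩, rfl⟩
      rw [h] at this
      simpa using this
    choose a ha ha' using exists_apply_eq hirr h1
    let φ : Module.End k V :=
      { toFun := fun w => a w v₂
        map_add' := by
          intro x y
          have := key (a (x + y) - a x - a y)
            (sub_mem (sub_mem (ha _) (ha _)) (ha _)) (by simp [ha'])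
          simp only [LinearMap.sub_apply] at this
          rw [sub_sub, sub_eq_zero] at this
          exact this
        map_smul' := by
          intro c x
          have := key (a (c • x) - c • a x)
            (sub_mem (ha _) (Submodule.smul_mem _ _ (ha _))) (by simp [ha'])
          simp only [LinearMap.sub_apply, LinearMap.smul_apply] at this
          rw [sub_eq_zero] at this
          exact this }
    have hφ : ∀ g x, φ (ρ g x) = ρ g (φ x) := by
      intro g x
      have := key (a (ρ g x) - ρ g * a x)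
            (sub_mem (ha _) (rho_mul_mem ρ g (ha _))) (by simp [ha'])
      simp only [LinearMap.sub_apply, Module.End.mul_apply] at this
      rw [sub_eq_zero] at this
      exact this
    obtain ⟨μ, hμ⟩ := schur hirr φ hφ
    have h3 : φ v₁ = v₂ := by
      have := key (a v₁ - 1) (sub_mem (ha _) (one_mem_spanA ρ)) (by simp [ha'])
      simp only [LinearMap.sub_apply, Module.End.one_apply] at this
      rw [sub_eq_zero] at this
      exact this
    exact h2 μ (by rw [← h3, hμ])
  · have : w ∈ U := h ▸ Submodule.mem_top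
    obtain ⟨a, ⟨ha, ha'⟩, rfl⟩ := this
    exact ⟨a, ha, ha', rfl⟩


lemma finrank_le_two_of_spanA_quadratic [IsAlgClosed k] [FiniteDimensional k V] [Nontrivial V]
    (hirr : ∀ U : Submodule k V, (∀ g, ∀ x ∈ U, ρ g x ∈ U) → U = ⊥ ∨ U = ⊤)
    (hq : ∀ a ∈ spanA ρ, ∃ s n : k, a * a - s • a + n • (1 : Module.End k V) = 0) :
    Module.finrank k V ≤ 2 := by
  classical
  obtain ⟨v₁, h1⟩ := exists_ne (0 : V)
  by_cases hs1 : ∀ v₂ : V, ∃ μ : k, v₂ = μ • v₁
  · have : (⊤ : Submodule k V) = Submodule.span k {v₁} := by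
      refine le_antisymm (fun v _ => ?_) le_top
      obtain ⟨μ, rfl⟩ := hs1 v
      exact Submodule.smul_mem _ _ (Submodule.mem_span_singleton_self _)
    rw [← finrank_top, this]
    exact (finrank_span_le_card _).trans (by simp)
  push Not at hs1
  obtain ⟨v₂, h2⟩ := hs1
  have h20 : v₂ ≠ 0 := fun h => h2 0 (by simp [h])
  have h2' : ∀ μ : k, v₁ ≠ μ • v₂ := by
    intro μ h
    have hμ : μ ≠ 0 := by rintro rfl; exact h1 (by simpa using h)
    exact h2 μ⁻¹ (by rw [h, smul_smul, inv_mul_cancel₀ hμ, one_smul])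
  have hs2 : ∀ v₃ : V, ∃ x y : k, v₃ = x • v₁ + y • v₂ := by
    intro v₃
    obtain ⟨a₁, ha₁, h11, h12⟩ := density_two hirr h1 h2 v₃
    obtain ⟨a₂, ha₂, h21, h22⟩ := density_two hirr h20 h2' v₂
    obtain ⟨s, n, hsn⟩ := hq (a₁ + a₂) (add_mem ha₁ ha₂)
    have := congrArg (fun f : Module.End k V => f v₁) hsn
    simp only [LinearMap.add_apply, LinearMap.sub_apply, LinearMap.smul_apply,
      Module.End.mul_apply, Module.End.one_apply, LinearMap.zero_apply, h11, h12, h21, h22,
      zero_add, add_zero] at this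
    refine ⟨-n, s, ?_⟩
    rw [neg_smul, ← sub_eq_zero, ← this]
    abel
  have : (⊤ : Submodule k V) = Submodule.span k (({v₁, v₂} : Finset V) : Set V) := by
    refine le_antisymm (fun v _ => ?_) le_top
    obtain ⟨x, y, rfl⟩ := hs2 v
    exact add_mem (Submodule.smul_mem _ _ (Submodule.subset_span (by simp)))
      (Submodule.smul_mem _ _ (Submodule.subset_span (by simp)))
  rw [← finrank_top, this]
  exact (finrank_span_finset_le_card _).trans Finset.card_le_two


/-- the bilinear expression `a b* + b a*`. -/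
def bil (x y : Module.End k V × k) : Module.End k V :=
  x.1 * (y.2 • 1 - y.1) + y.1 * (x.2 • 1 - x.1)

lemma bil_add_left (x x' y : Module.End k V × k) : bil (x + x') y = bil x y + bil x' y := by
  simp only [bil, Prod.fst_add, Prod.snd_add, add_mul, mul_add, mul_sub, add_smul]
  abel

lemma bil_smul_left (c : k) (x y : Module.End k V × k) : bil (c • x) y = c • bil x y := by
  simp only [bil, Prod.smul_fst, Prod.smul_snd, smul_mul_assoc, mul_sub, smul_add, smul_sub,
    mul_smul_comm, smul_eq_mul, mul_smul]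
  rw [smul_comm c y.2]

lemma bil_comm (x y : Module.End k V × k) : bil x y = bil y x := by
  simp only [bil]; abel

lemma star_eq (χ : G →* kˣ) (t : G → k)
    (ht : ∀ g, ρ g * ρ g - t g • ρ g + (χ g : k) • (1 : Module.End k V) = 0) (g : G) :
    t g • 1 - ρ g = (χ g : k) • ρ g⁻¹ := by
  have h1 : ρ g * ρ g⁻¹ = 1 := by rw [← map_mul, mul_inv_cancel, map_one]
  have := congrArg (fun f => f * ρ g⁻¹) (ht g)
  simp only [add_mul, sub_mul, mul_assoc, h1, mul_one, smul_mul_assoc, one_mul, zero_mul] at this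
  rw [← sub_eq_zero, ← neg_eq_zero, ← this]
  abel

/-- the span of the pairs `(ρ g, t g)`. -/
def spanP (ρ : G →* Module.End k V) (t : G → k) : Submodule k (Module.End k V × k) :=
  Submodule.span k (Set.range fun g => (ρ g, t g))

lemma bil_gen (χ : G →* kˣ) (t : G → k)
    (ht : ∀ g, ρ g * ρ g - t g • ρ g + (χ g : k) • (1 : Module.End k V) = 0) (g h : G) :
    bil (ρ g, t g) (ρ h, t h) = ((χ h : k) * t (g * h⁻¹)) • 1 := by
  simp only [bil]
  rw [star_eq χ t ht g, star_eq χ t ht h, mul_smul_comm, mul_smul_comm, ← map_mul, ← map_mul]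
  have h3 := star_eq χ t ht (g * h⁻¹)
  rw [mul_inv_rev, inv_inv] at h3
  have h4 : (χ g : k) = (χ h : k) * (χ (g * h⁻¹) : k) := by
    rw [← Units.val_mul, ← map_mul]; simp
  rw [h4, mul_smul, ← h3, smul_sub, mul_smul]
  abel

lemma bil_mem (χ : G →* kˣ) (t : G → k)
    (ht : ∀ g, ρ g * ρ g - t g • ρ g + (χ g : k) • (1 : Module.End k V) = 0)
    {x y : Module.End k V × k} (hx : x ∈ spanP ρ t) (hy : y ∈ spanP ρ t) :
    ∃ c : k, bil x y = c • 1 := by
  induction hx using Submodule.span_induction with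
  | mem x hx =>
    obtain ⟨g, rfl⟩ := hx
    induction hy using Submodule.span_induction with
    | mem y hy => obtain ⟨h, rfl⟩ := hy; exact ⟨_, bil_gen χ t ht g h⟩
    | zero => exact ⟨0, by simp [bil]⟩
    | add y y' _ _ h1 h2 =>
      obtain ⟨c, hc⟩ := h1
      obtain ⟨c', hc'⟩ := h2
      exact ⟨c + c', by rw [bil_comm, bil_add_left, bil_comm y, bil_comm y', hc, hc', add_smul]⟩
    | smul a y _ h1 =>
      obtain ⟨c, hc⟩ := h1
      exact ⟨a * c, by rw [bil_comm, bil_smul_left, bil_comm y, hc, mul_smul]⟩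
  | zero => exact ⟨0, by simp [bil]⟩
  | add x x' _ _ h1 h2 =>
    obtain ⟨c, hc⟩ := h1
    obtain ⟨c', hc'⟩ := h2
    exact ⟨c + c', by rw [bil_add_left, hc, hc', add_smul]⟩
  | smul a x _ h1 =>
    obtain ⟨c, hc⟩ := h1
    exact ⟨a * c, by rw [bil_smul_left, hc, mul_smul]⟩

lemma quad_mem (χ : G →* kˣ) (t : G → k)
    (ht : ∀ g, ρ g * ρ g - t g • ρ g + (χ g : k) • (1 : Module.End k V) = 0)
    {x : Module.End k V × k} (hx : x ∈ spanP ρ t) :
    ∃ n : k, x.1 * (x.2 • 1 - x.1) = n • 1 := by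
  induction hx using Submodule.span_induction with
  | mem x hx =>
    obtain ⟨g, rfl⟩ := hx
    refine ⟨(χ g : k), ?_⟩
    simp only
    rw [star_eq χ t ht g, mul_smul_comm, ← map_mul, mul_inv_cancel, map_one]
  | zero => exact ⟨0, by simp⟩
  | add x y hx hy h1 h2 =>
    obtain ⟨c, hc⟩ := h1
    obtain ⟨c', hc'⟩ := h2
    obtain ⟨b, hb⟩ := bil_mem χ t ht hx hy
    refine ⟨c + c' + b, ?_⟩
    rw [add_smul, add_smul, ← hc, ← hc', ← hb]
    simp only [bil, Prod.fst_add, Prod.snd_add, add_mul, mul_add, mul_sub, add_smul]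
    abel
  | smul a x _ h1 =>
    obtain ⟨c, hc⟩ := h1
    refine ⟨a * a * c, ?_⟩
    rw [mul_smul, mul_smul, ← hc]
    simp only [Prod.smul_fst, Prod.smul_snd, smul_mul_assoc, mul_sub, smul_sub,
      mul_smul_comm, smul_eq_mul, mul_smul]
    rw [smul_comm x.2 a]

lemma exists_mem_spanP (t : G → k) {a : Module.End k V} (ha : a ∈ spanA ρ) :
    ∃ s : k, (a, s) ∈ spanP ρ t := by
  induction ha using Submodule.span_induction with
  | mem x hx => obtain ⟨g, rfl⟩ := hx; exact ⟨t g, Submodule.subset_span ⟨g, rfl⟩⟩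
  | zero => exact ⟨0, zero_mem _⟩
  | add x y _ _ h1 h2 =>
    obtain ⟨c, hc⟩ := h1
    obtain ⟨c', hc'⟩ := h2
    exact ⟨c + c', add_mem hc hc'⟩
  | smul a x _ h1 =>
    obtain ⟨c, hc⟩ := h1
    exact ⟨a * c, Submodule.smul_mem _ a hc⟩

lemma spanA_quadratic (χ : G →* kˣ)
    (hq : ∀ g, ∃ t : k, ρ g * ρ g - t • ρ g + (χ g : k) • (1 : Module.End k V) = 0) :
    ∀ a ∈ spanA ρ, ∃ s n : k, a * a - s • a + n • (1 : Module.End k V) = 0 := by
  choose t ht using hq
  intro a ha
  obtain ⟨s, hs⟩ := exists_mem_spanP t ha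
  obtain ⟨n, hn⟩ := quad_mem χ t ht hs
  refine ⟨s, n, ?_⟩
  rw [← hn]
  simp only [mul_sub, mul_smul_comm, mul_one]
  abel


lemma matrix_two_quadratic (M : Matrix (Fin 2) (Fin 2) k) :
    M * M - M.trace • M + M.det • (1 : Matrix (Fin 2) (Fin 2) k) = 0 := by
  ext i j
  fin_cases i <;> fin_cases j <;>
    simp [Matrix.mul_apply, Fin.sum_univ_two, Matrix.det_fin_two, Matrix.trace_fin_two] <;> ring

lemma end_two_quadratic [FiniteDimensional k V] (h2 : Module.finrank k V = 2)
    (f : Module.End k V) :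
    ∃ τ : k, f * f - τ • f + LinearMap.det f • (1 : Module.End k V) = 0 := by
  let b : Module.Basis (Fin 2) k V := Module.finBasisOfFinrankEq k V h2
  let e := LinearMap.toMatrixAlgEquiv b
  refine ⟨(e f).trace, ?_⟩
  apply e.injective
  rw [map_zero, map_add, map_sub, map_mul, map_smul, map_smul, map_one,
    ← LinearMap.det_toMatrix b f]
  exact matrix_two_quadratic (e f)

lemma det_eq_of_not_scalar [FiniteDimensional k V] [Nontrivial V] (h2 : Module.finrank k V = 2)
    (f : Module.End k V) (hf : ∀ μ : k, f ≠ μ • 1) (t d : k)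
    (h : f * f - t • f + d • (1 : Module.End k V) = 0) : LinearMap.det f = d := by
  obtain ⟨τ, hτ⟩ := end_two_quadratic h2 f
  have h3 : (τ - t) • f = (LinearMap.det f - d) • (1 : Module.End k V) := by
    rw [sub_smul, sub_smul, ← sub_eq_zero]
    have := congrArg₂ (· - ·) h hτ
    simp only [sub_zero] at this
    rw [← this]
    abel
  by_cases h4 : τ - t = 0
  · rw [h4, zero_smul] at h3
    have := smul_eq_zero.1 h3.symm
    rcases this with h5 | h5
    · exact sub_eq_zero.1 h5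
    · exact absurd h5 one_ne_zero
  · exfalso
    apply hf ((τ - t)⁻¹ * (LinearMap.det f - d))
    rw [mul_smul, ← h3, smul_smul, inv_mul_cancel₀ h4, one_smul]

end

end QuadAux

open QuadAux in
theorem finrank_le_two_of_quadratic {k : Type*} [Field k] [IsAlgClosed k] {G : Type*} [Group G]
    {V : Type*} [AddCommGroup V] [Module k V] [FiniteDimensional k V] [Nontrivial V]
    (ρ : G →* Module.End k V) (χ : G →* kˣ)
    (hirr : ∀ U : Submodule k V, (∀ g, ∀ x ∈ U, ρ g x ∈ U) → U = ⊥ ∨ U = ⊤)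
    (hq : ∀ g, ∃ t : k, ρ g * ρ g - t • ρ g + (χ g : k) • (1 : Module.End k V) = 0) :
    Module.finrank k V ≤ 2 ∧ (Module.finrank k V = 2 → ∀ g, LinearMap.det (ρ g) = (χ g : k)) := by
  refine ⟨finrank_le_two_of_spanA_quadratic hirr (spanA_quadratic χ hq), fun h2 => ?_⟩
  have hns : ∀ g, (∀ μ : k, ρ g ≠ μ • 1) → LinearMap.det (ρ g) = (χ g : k) := by
    intro g hg
    obtain ⟨t, ht⟩ := hq g
    exact det_eq_of_not_scalar h2 _ hg t _ ht
  -- a non scalar element
  obtain ⟨h, hh⟩ : ∃ h, ∀ μ : k, ρ h ≠ μ • 1 := by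
    by_contra hcon
    push Not at hcon
    obtain ⟨v, hv⟩ := exists_ne (0 : V)
    have hU : ∀ g, ∀ x ∈ Submodule.span k {v}, ρ g x ∈ Submodule.span k {v} := by
      intro g x hx
      obtain ⟨μ, hμ⟩ := hcon g
      rw [hμ]
      exact Submodule.smul_mem _ _ hx
    rcases hirr _ hU with h | h
    · exact hv (by simpa using h)
    · have := finrank_span_singleton (K := k) hv
      rw [h, finrank_top, h2] at this
      omega
  intro g
  by_cases hg : ∀ μ : k, ρ g ≠ μ • 1
  · exact hns g hg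
  push Not at hg
  obtain ⟨α, hα⟩ := hg
  have hα0 : α ≠ 0 := by
    rintro rfl
    have h1 : ρ g * ρ g⁻¹ = 1 := by rw [← map_mul, mul_inv_cancel, map_one]
    rw [hα, zero_smul, zero_mul] at h1
    exact zero_ne_one h1
  have hgh : ∀ μ : k, ρ (g * h) ≠ μ • 1 := by
    intro μ hμ
    apply hh (α⁻¹ * μ)
    rw [map_mul, hα, smul_mul_assoc, one_mul] at hμ
    rw [mul_smul, ← hμ, smul_smul, inv_mul_cancel₀ hα0, one_smul]
  have h5 := hns _ hgh
  rw [map_mul, map_mul, map_mul, hns h hh, Units.val_mul] at h5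
  exact mul_right_cancel₀ (χ h).ne_zero h5

/-- powers of an endomorphism killed by `X² - tX + d` are killed by `X² - t_b X + d^b`
(Lucas sequence `t_0 = 2, t_1 = t, t_{b+2} = t t_{b+1} - d t_b`). -/
theorem exists_quadratic_pow {k : Type*} [Field k] {V : Type*} [AddCommGroup V] [Module k V]
    (s : Module.End k V) (t d : k) (h : s * s - t • s + d • (1 : Module.End k V) = 0) (b : ℕ) :
    ∃ t' : k, s ^ b * s ^ b - t' • s ^ b + d ^ b • (1 : Module.End k V) = 0 := by
  have hss : s * s = t • s - d • 1 := by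
    rw [← sub_eq_zero, ← h]; abel
  have key : ∃ u v : k, s ^ b = u • s + v • 1 ∧ u ^ 2 * d + u * v * t + v ^ 2 = d ^ b := by
    induction b with
    | zero => exact ⟨0, 1, by simp, by simp⟩
    | succ b ih =>
      obtain ⟨u, v, h1, h2⟩ := ih
      refine ⟨u * t + v, - (u * d), ?_, ?_⟩
      · rw [pow_succ, h1, add_mul, smul_mul_assoc, smul_mul_assoc, one_mul, hss]
        module
      · rw [pow_succ d, ← h2]; ring
  obtain ⟨u, v, h1, h2⟩ := key
  refine ⟨u * t + 2 * v, ?_⟩
  rw [h1, ← h2]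
  simp only [add_mul, mul_add, smul_mul_assoc, mul_smul_comm, one_mul, mul_one, hss]
  module

end Fermat.Agent.S29

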