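import Fermat.Agent.S29.Frob
import Fermat.Agent.S29.Quad
import Fermat.Agent.Lib.Frobenius
import Fermat.Prelude.Def_GaloisRep_Residual

/-!
# S29/A : from an "Eichler–Shimura module" to a 2-dimensional residual representation

Input: a nonzero finite dimensional `k`-representation `W` of `G_ℚ` (finite image), `k`
algebraically closed of characteristic `p`, unramified outside `M` (`p ∣ M`), on which every
Frobenius lift `σ` at `ℓ ∤ M` satisfies `σ² - a_ℓ σ + ℓ = 0`.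
Output: a 2-dimensional representation with characteristic polynomials `X² - a_ℓ X + ℓ`.

Proof.  `χ : G_ℚ → kˣ` the mod `p` cyclotomic character (`σ ζ = ζ ^ χ(σ)` on `μ_p`); `χ(σ) = ℓ` for a
Frobenius lift at `ℓ ≠ p`, `χ` trivial on inertia at `ℓ ≠ p` (the `p`-th roots of unity are distinct
modulo the maximal ideal of `A`).  Let `L` = (level of `W`)·`ℚ(μ_p)`.  By `exists_frobenius_pow`
every `g` agrees on `L` with `σ ^ b`, `σ` a Frobenius lift at some `ℓ ∤ M`, so by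
`exists_quadratic_pow` `ρ g` kills `X² - t X + ℓ^b`, `ℓ^b = χ(g)`.
Take `V ⊆ W` a minimal nonzero stable subspace; `finrank_le_two_of_quadratic` gives `dim V ≤ 2`.
* `dim V = 2`: `r = V`.  `ρ σ` non scalar: the quadratic is the char. polynomial.  `ρ σ = α`:
  `α² = det = ℓ` and `α² - a_ℓ α + ℓ = 0` give `a_ℓ = 2 α`, so `X² - a_ℓ X + ℓ = (X - α)²`.
* `dim V = 1`: `G_ℚ` acts by a character `ψ`; `r = ψ ⊕ χ ψ⁻¹` on `k × k`;
  `ψ(σ)` is a root of `X² - a_ℓ X + ℓ`, the other root is `ℓ / ψ(σ)`.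
-/

set_option autoImplicit false

open Polynomial

namespace Fermat.Agent.S29

namespace AbstractAux

theorem inertia_sub_mem (A : ValuationSubring Qb) {σ : GQ} (hσ : σ ∈ A.inertiaSubgroupIn ℚ)
    {x : Qb} (hx : x ∈ A) : σ x - x ∈ A.nonunits := by
  obtain ⟨τ, hτ, rfl⟩ := Subgroup.mem_map.mp hσ
  have hker : MulSemiringAction.toRingAut (A.decompositionSubgroup ℚ)
      (IsLocalRing.ResidueField A) τ = 1 := hτ
  have h1 : τ • IsLocalRing.residue A ⟨x, hx⟩ = IsLocalRing.residue A ⟨x, hx⟩ := by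
    have := congrArg (fun f : RingAut (IsLocalRing.ResidueField A) =>
      f (IsLocalRing.residue A ⟨x, hx⟩)) hker
    exact this
  rw [← IsLocalRing.ResidueField.residue_smul, ← sub_eq_zero, ← map_sub,
    IsLocalRing.residue_eq_zero_iff] at h1
  exact ValuationSubring.coe_mem_nonunits_iff.mpr h1

theorem frob_sub_mem (A : ValuationSubring Qb) {σ : GQ} {ℓ : ℕ} (hσ : A.IsFrobeniusAt σ ℓ)
    {x : Qb} (hx : x ∈ A) : σ x - x ^ ℓ ∈ A.nonunits := by
  obtain ⟨hd, h⟩ := hσ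
  have h1 := h (IsLocalRing.residue A ⟨x, hx⟩)
  rw [← IsLocalRing.ResidueField.residue_smul, ← map_pow, ← sub_eq_zero, ← map_sub,
    IsLocalRing.residue_eq_zero_iff] at h1
  exact ValuationSubring.coe_mem_nonunits_iff.mpr h1

/-- `p`-th roots of unity are distinct modulo a place over `ℓ ≠ p` -/
theorem pow_eq_of_sub_mem (A : ValuationSubring Qb) {ℓ p : ℕ} (hℓ : ℓ.Prime) (hp : p.Prime)
    (hne : ℓ ≠ p) (hA : A.LiesOverPrime ℓ) {ζ : Qb} (hζ : IsPrimitiveRoot ζ p) (a b : ℕ)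
    (h : ζ ^ a - ζ ^ b ∈ A.nonunits) : ζ ^ a = ζ ^ b := by
  by_contra hab
  have hζA : ∀ n : ℕ, ζ ^ n ∈ A := fun n =>
    Frob.mem_of_isIntegral A ((hζ.isIntegral hp.pos).pow n)
  -- `η = ζ^a * (ζ^b)⁻¹`, written as a power
  obtain ⟨c, hc⟩ : ∃ c : ℕ, ζ ^ b * ζ ^ c = 1 := by
    refine ⟨(p - 1) * b, ?_⟩
    rw [← pow_add]
    have : b + (p - 1) * b = p * b := by
      obtain ⟨q, rfl⟩ : ∃ q, p = q + 1 := ⟨p - 1, by have := hp.pos; omega⟩
      simp; ring
    rw [this, pow_mul, hζ.pow_eq_one, one_pow]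
  set η : Qb := ζ ^ (a + c) with hη
  have hη1 : η ≠ 1 := by
    intro h1
    apply hab
    have : ζ ^ a * ζ ^ c = ζ ^ b * ζ ^ c := by rw [hc, ← pow_add]; exact h1
    exact mul_right_cancel₀ (pow_ne_zero _ (hζ.ne_zero hp.ne_zero)) this
  have hηp : η ^ p = 1 := by rw [hη, ← pow_mul, mul_comm, pow_mul, hζ.pow_eq_one, one_pow]
  have hηm : η - 1 ∈ A.nonunits := by
    have : η - 1 = (ζ ^ a - ζ ^ b) * ζ ^ c := by rw [sub_mul, hc, hη, pow_add]
    rw [this]
    exact Frob.mul_mem_nonunits A h (hζA c)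
  have hηA : ∀ n : ℕ, η ^ n ∈ A := fun n => by rw [hη, ← pow_mul]; exact hζA _
  have hsum : ∑ i ∈ Finset.range p, η ^ i = 0 := by
    have := mul_neg_geom_sum η p
    rw [hηp, sub_self] at this
    rcases mul_eq_zero.mp this with h0 | h0
    · exact absurd (sub_eq_zero.mp h0).symm hη1
    · exact h0
  have hpm : (p : Qb) ∈ A.nonunits := by
    have h1 : (p : Qb) = - ∑ i ∈ Finset.range p, (η ^ i - 1) := by
      rw [Finset.sum_sub_distrib, hsum]; simp
    rw [h1]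
    have h2 : ∀ i : ℕ, η ^ i - 1 ∈ A.nonunits := by
      intro i
      have : η ^ i - 1 = (η - 1) * ∑ j ∈ Finset.range i, η ^ j := by
        rw [mul_comm, geom_sum_mul]
      rw [this]
      exact Frob.mul_mem_nonunits A hηm (A.toSubring.sum_mem fun j _ => hηA j)
    have h3 : ∀ s : Finset ℕ, ∑ i ∈ s, (η ^ i - 1) ∈ A.nonunits ∨ ∑ i ∈ s, (η ^ i - 1) = 0 := by
      intro s
      classical
      induction s using Finset.induction_on with
      | empty => right; simp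
      | insert x s hx ih =>
        rw [Finset.sum_insert hx]
        rcases ih with ih | ih
        · left; exact A.nonunits.add_mem (h2 x) ih
        · left; rw [ih, add_zero]; exact h2 x
    rcases h3 (Finset.range p) with h4 | h4
    · rw [ValuationSubring.mem_nonunits_iff] at h4 ⊢
      rwa [Valuation.map_neg]
    · rw [h4, neg_zero, ValuationSubring.mem_nonunits_iff, map_zero]
      exact zero_lt_one
  have := Frob.int_not_mem_nonunits A hℓ hA (c := (p : ℤ)) (by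
    intro hd
    have := (Nat.prime_dvd_prime_iff_eq hℓ hp).mp (by exact_mod_cast hd)
    exact hne this)
  exact this (by exact_mod_cast hpm)

/-- the mod `p` cyclotomic character with values in a field of characteristic `p` -/
theorem exists_cyclo (k : Type) [Field k] {p : ℕ} (hp : p.Prime) [CharP k p] :
    ∃ χ : GQ →* kˣ,
      (∃ L : IntermediateField ℚ Qb, FiniteDimensional ℚ L ∧
        ∀ σ : GQ, (∀ x ∈ L, σ x = x) → χ σ = 1) ∧
      (∀ ℓ : ℕ, ℓ.Prime → ℓ ≠ p → ∀ A : ValuationSubring Qb, A.LiesOverPrime ℓ →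
        ∀ σ : GQ, A.IsFrobeniusAt σ ℓ → ((χ σ : kˣ) : k) = (ℓ : k)) ∧
      (∀ ℓ : ℕ, ℓ.Prime → ℓ ≠ p → ∀ A : ValuationSubring Qb, A.LiesOverPrime ℓ →
        ∀ σ ∈ A.inertiaSubgroupIn ℚ, χ σ = 1) := by
  have : NeZero p := ⟨hp.ne_zero⟩
  have : Fact p.Prime := ⟨hp⟩
  obtain ⟨ζ, hζ⟩ := HasEnoughRootsOfUnity.exists_primitiveRoot Qb p
  set χ₀ : GQ →* (ZMod p)ˣ := hζ.autToPow ℚ with hχ₀
  have hspec : ∀ σ : GQ, ζ ^ ((χ₀ σ : (ZMod p)ˣ) : ZMod p).val = σ ζ := fun σ =>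
    hζ.autToPow_spec ℚ σ
  have hζA : ∀ A : ValuationSubring Qb, ζ ∈ A := fun A =>
    Frob.mem_of_isIntegral A (hζ.isIntegral hp.pos)
  have key : ∀ (σ : GQ) (n : ℕ), σ ζ = ζ ^ n → ((χ₀ σ : (ZMod p)ˣ) : ZMod p) = (n : ZMod p) := by
    intro σ n h
    rw [← hspec σ] at h
    have hfo : IsOfFinOrder ζ := isOfFinOrder_iff_pow_eq_one.mpr ⟨p, hp.pos, hζ.pow_eq_one⟩
    have := hfo.pow_eq_pow_iff_modEq.mp h
    rw [← hζ.eq_orderOf] at this
    have h2 := (ZMod.natCast_eq_natCast_iff _ _ _).mpr this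
    rwa [ZMod.natCast_val, ZMod.cast_id', id] at h2
  refine ⟨(Units.map (ZMod.castHom (dvd_refl p) k).toMonoidHom).comp χ₀, ?_, ?_, ?_⟩
  · refine ⟨IntermediateField.adjoin ℚ {ζ}, ?_, ?_⟩
    · exact IntermediateField.adjoin.finiteDimensional
        ((AlgebraicClosure.isAlgebraic ℚ).isAlgebraic ζ).isIntegral
    · intro σ hσ
      have h1 : σ ζ = ζ ^ 1 := by
        rw [pow_one]; exact hσ ζ (IntermediateField.mem_adjoin_simple_self ℚ ζ)
      have h2 := key σ 1 h1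
      have h3 : χ₀ σ = 1 := Units.ext (by rw [h2]; simp)
      rw [MonoidHom.comp_apply, h3, map_one]
  · intro ℓ hℓ hne A hA σ hσ
    have h1 := frob_sub_mem A hσ (hζA A)
    rw [← hspec σ] at h1
    have h2 := pow_eq_of_sub_mem A hℓ hp hne hA hζ _ _ h1
    rw [hspec σ] at h2
    have h3 := key σ ℓ h2
    simp only [MonoidHom.comp_apply, Units.coe_map, RingHom.toMonoidHom_eq_coe,
      MonoidHom.coe_coe, h3, map_natCast]
  · intro ℓ hℓ hne A hA σ hσ
    have h1 := inertia_sub_mem A hσ (hζA A)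
    rw [← hspec σ] at h1
    nth_rewrite 2 [← pow_one ζ] at h1
    have h2 := pow_eq_of_sub_mem A hℓ hp hne hA hζ _ _ h1
    rw [hspec σ] at h2
    have h3 := key σ 1 h2
    have h4 : χ₀ σ = 1 := Units.ext (by rw [h3]; simp)
    rw [MonoidHom.comp_apply, h4, map_one]

/-- on a plane, an invertible endomorphism killed by `X² - aX + d` with determinant `d` has
characteristic polynomial `X² - aX + d` -/
theorem charpoly_of_quad {k V : Type*} [Field k] [AddCommGroup V] [Module k V]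
    [Module.Finite k V] (hV : Module.finrank k V = 2) (s : Module.End k V) (hs : IsUnit s) (a d : k)
    (h : s * s - a • s + d • (1 : Module.End k V) = 0) (hdet : LinearMap.det s = d) :
    LinearMap.charpoly s = X ^ 2 - C a * X + C d := by
  have hnt : Nontrivial V := Module.nontrivial_of_finrank_pos (R := k) (by omega)
  let b : Module.Basis (Fin 2) k V := Module.finBasisOfFinrankEq k V hV
  have h1 : LinearMap.charpoly s = X ^ 2 - C (LinearMap.toMatrix b b s).trace * X + C d := by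
    rw [← LinearMap.charpoly_toMatrix s b, Matrix.charpoly_fin_two, LinearMap.det_toMatrix, hdet]
  set t := (LinearMap.toMatrix b b s).trace with ht
  have h2 := LinearMap.aeval_self_charpoly s
  rw [h1] at h2
  simp only [map_add, map_sub, map_mul, map_pow, aeval_X, aeval_C, Algebra.algebraMap_eq_smul_one]
    at h2
  have h3 : (t - a) • s = 0 := by
    have : (t - a) • s = (s * s - a • s + d • (1 : Module.End k V))
        - (s ^ 2 - (t • (1 : Module.End k V)) * s + d • (1 : Module.End k V)) := by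
      rw [smul_mul_assoc, one_mul, sub_smul, pow_two]; abel
    rw [this, h, h2, sub_zero]
  obtain ⟨u, rfl⟩ := hs
  have h4 : (t - a) • (1 : Module.End k V) = 0 := by
    have := congrArg (fun x => x * ((u⁻¹ : (Module.End k V)ˣ) : Module.End k V)) h3
    simpa [smul_mul_assoc] using this
  have h5 : t - a = 0 := by
    rcases smul_eq_zero.mp h4 with h5 | h5
    · exact h5
    · exact absurd h5 one_ne_zero
  rw [h1, sub_eq_zero.mp h5]

/-- minimal nonzero invariant subspace -/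
theorem exists_min_invariant {k G W : Type*} [Field k] [Group G] [AddCommGroup W] [Module k W]
    [FiniteDimensional k W] [Nontrivial W] (ρ : G →* Module.End k W) :
    ∃ V : Submodule k W, V ≠ ⊥ ∧ (∀ g, ∀ x ∈ V, ρ g x ∈ V) ∧
      ∀ U : Submodule k W, U ≤ V → (∀ g, ∀ x ∈ U, ρ g x ∈ U) → U = ⊥ ∨ U = V := by
  let S : Set (Submodule k W) := {V | V ≠ ⊥ ∧ ∀ g, ∀ x ∈ V, ρ g x ∈ V}
  have hS : S.Nonempty := ⟨⊤, top_ne_bot, fun _ _ _ => Submodule.mem_top⟩
  obtain ⟨V, hV, hmin⟩ := (wellFounded_lt (α := Submodule k W)).has_min S hS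
  refine ⟨V, hV.1, hV.2, ?_⟩
  intro U hU hinv
  by_cases hU0 : U = ⊥
  · exact Or.inl hU0
  · right
    by_contra hne
    exact hmin U ⟨hU0, hinv⟩ (lt_of_le_of_ne hU hne)

/-- restriction of a representation to an invariant subspace -/
noncomputable def restr {k G W : Type*} [Field k] [Group G] [AddCommGroup W] [Module k W]
    (ρ : G →* Module.End k W) (V : Submodule k W) (hV : ∀ g, ∀ x ∈ V, ρ g x ∈ V) :
    G →* Module.End k V where
  toFun g := (ρ g).restrict (hV g)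
  map_one' := by
    ext x
    simp
  map_mul' g h := by
    ext x
    simp

theorem restr_apply {k G W : Type*} [Field k] [Group G] [AddCommGroup W] [Module k W]
    (ρ : G →* Module.End k W) (V : Submodule k W) (hV : ∀ g, ∀ x ∈ V, ρ g x ∈ V) (g : G) (x : V) :
    ((restr ρ V hV g x : V) : W) = ρ g x := rfl

theorem restr_quad {k G W : Type*} [Field k] [Group G] [AddCommGroup W] [Module k W]
    (ρ : G →* Module.End k W) (V : Submodule k W) (hV : ∀ g, ∀ x ∈ V, ρ g x ∈ V) (g : G) (t d : k)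
    (h : ρ g * ρ g - t • ρ g + d • (1 : Module.End k W) = 0) :
    restr ρ V hV g * restr ρ V hV g - t • restr ρ V hV g + d • (1 : Module.End k V) = 0 := by
  ext x
  have := congrArg (fun f : Module.End k W => f (x : W)) h
  simpa [restr_apply] using this

theorem restr_eq_one {k G W : Type*} [Field k] [Group G] [AddCommGroup W] [Module k W]
    (ρ : G →* Module.End k W) (V : Submodule k W) (hV : ∀ g, ∀ x ∈ V, ρ g x ∈ V) (g : G)
    (h : ρ g = 1) : restr ρ V hV g = 1 := by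
  ext x
  rw [restr_apply, h]
  rfl

theorem restr_irr {k G W : Type*} [Field k] [Group G] [AddCommGroup W] [Module k W]
    (ρ : G →* Module.End k W) (V : Submodule k W) (hV : ∀ g, ∀ x ∈ V, ρ g x ∈ V)
    (hmin : ∀ U : Submodule k W, U ≤ V → (∀ g, ∀ x ∈ U, ρ g x ∈ U) → U = ⊥ ∨ U = V)
    (U : Submodule k V) (hU : ∀ g, ∀ x ∈ U, restr ρ V hV g x ∈ U) : U = ⊥ ∨ U = ⊤ := by
  rcases hmin (U.map V.subtype) (Submodule.map_subtype_le V U) (by
    intro g x hx
    obtain ⟨y, hy, rfl⟩ := Submodule.mem_map.mp hx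
    exact Submodule.mem_map.mpr ⟨restr ρ V hV g y, hU g y hy, rfl⟩) with h | h
  · left
    apply Submodule.map_injective_of_injective V.injective_subtype
    rw [h, Submodule.map_bot]
  · right
    apply Submodule.map_injective_of_injective V.injective_subtype
    rw [h, Submodule.map_subtype_top]

/-- diagonal endomorphisms of `k²` -/
noncomputable def dg {k : Type*} [Field k] (c₁ c₂ : k) : Module.End k (Fin 2 → k) :=
  Matrix.toLin' (Matrix.diagonal ![c₁, c₂])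

theorem dg_mul {k : Type*} [Field k] (c₁ c₂ d₁ d₂ : k) :
    dg (c₁ * d₁) (c₂ * d₂) = dg c₁ c₂ * dg d₁ d₂ := by
  unfold dg
  rw [Module.End.mul_eq_comp, ← Matrix.toLin'_mul, Matrix.diagonal_mul_diagonal]
  congr 2
  ext i
  fin_cases i <;> simp

theorem dg_one {k : Type*} [Field k] : dg (1 : k) 1 = 1 := by
  unfold dg
  have : (![1, 1] : Fin 2 → k) = 1 := by
    ext i
    fin_cases i <;> simp
  rw [this]
  have h2 : Matrix.diagonal (1 : Fin 2 → k) = 1 := Matrix.diagonal_one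
  rw [h2, Matrix.toLin'_one]
  rfl

theorem det_dg {k : Type*} [Field k] (c₁ c₂ : k) : LinearMap.det (dg c₁ c₂) = c₁ * c₂ := by
  unfold dg
  rw [LinearMap.det_toLin', Matrix.det_diagonal]
  simp

theorem dg_quad {k : Type*} [Field k] (c₁ c₂ a d : k) (h₁ : c₁ * c₁ - a * c₁ + d = 0)
    (h₂ : c₂ * c₂ - a * c₂ + d = 0) :
    dg c₁ c₂ * dg c₁ c₂ - a • dg c₁ c₂ + d • (1 : Module.End k (Fin 2 → k)) = 0 := by
  apply LinearMap.ext
  intro x
  ext i
  fin_cases i
  · simp [dg]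
    linear_combination (x 0) * h₁
  · simp [dg]
    linear_combination (x 1) * h₂

theorem exists_root_Zbar (Q : (integralClosure ℤ ℂ)[X]) (hQ : Q.Monic) (hd : Q.natDegree ≠ 0) :
    ∃ y : integralClosure ℤ ℂ, Q.eval y = 0 := by
  have hdeg : (Q.map (algebraMap (integralClosure ℤ ℂ) ℂ)).degree ≠ 0 := by
    rw [hQ.degree_map, degree_eq_natDegree hQ.ne_zero]
    exact_mod_cast hd
  obtain ⟨y, hy⟩ := IsAlgClosed.exists_root _ hdeg
  have hy' : IsIntegral (integralClosure ℤ ℂ) y := ⟨Q, hQ, by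
    rwa [IsRoot.def, eval_map] at hy⟩
  have hy'' : IsIntegral ℤ y := isIntegral_trans y hy'
  refine ⟨⟨y, hy''⟩, ?_⟩
  have : algebraMap (integralClosure ℤ ℂ) ℂ (Q.eval ⟨y, hy''⟩) = 0 := by
    rw [IsRoot.def, eval_map] at hy
    rw [← hy, eval₂_eq_eval_map, ← eval_map_apply]
    rfl
  exact (FaithfulSMul.algebraMap_injective (integralClosure ℤ ℂ) ℂ) (by rw [this, map_zero])

/-- common denominator -/
theorem exists_denom {R k : Type*} [CommRing R] [Field k] (φ : R →+* k)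
    (s : Finset k) (hs : ∀ x ∈ s, x ∈ Subfield.closure (Set.range φ)) :
    ∃ b : R, φ b ≠ 0 ∧ ∀ x ∈ s, ∃ a : R, x * φ b = φ a := by
  classical
  induction s using Finset.induction_on with
  | empty => exact ⟨1, by simp, by simp⟩
  | insert x s hx ih =>
    obtain ⟨b, hb, h⟩ := ih (fun y hy => hs y (Finset.mem_insert_of_mem hy))
    have hx' := hs x (Finset.mem_insert_self x s)
    rw [Subfield.mem_closure_iff] at hx'
    obtain ⟨y, hy, z, hz, hyz⟩ := hx'
    have hcl : Subring.closure (Set.range φ) = φ.range := by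
      rw [← RingHom.coe_range, Subring.closure_eq]
    rw [hcl] at hy hz
    obtain ⟨y, rfl⟩ := hy
    obtain ⟨z, rfl⟩ := hz
    by_cases hz0 : φ z = 0
    · refine ⟨b, hb, ?_⟩
      intro w hw
      rcases Finset.mem_insert.mp hw with rfl | hw
      · exact ⟨0, by rw [← hyz, hz0]; simp⟩
      · exact h w hw
    · refine ⟨b * z, by rw [map_mul]; exact mul_ne_zero hb hz0, ?_⟩
      intro w hw
      rcases Finset.mem_insert.mp hw with rfl | hw
      · exact ⟨y * b, by rw [← hyz, map_mul, map_mul]; field_simp⟩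
      · obtain ⟨a, ha⟩ := h w hw
        exact ⟨a * z, by rw [map_mul, map_mul, ← ha]; ring⟩


/-- every `g` kills a quadratic with constant term `χ g` -/
theorem quad_all {k : Type} [Field k] {p : ℕ} (M : ℕ) (hM : M ≠ 0) (hpM : p ∣ M)
    (W : Type) [AddCommGroup W] [Module k W]
    (ρ : GQ →* Module.End k W) (hfin : GaloisFactorsThroughFiniteLevel ρ) (a : ℕ → k)
    (hES : ∀ ℓ : ℕ, ℓ.Prime → ¬ ℓ ∣ M → ∀ A : ValuationSubring Qb, A.LiesOverPrime ℓ →
      ∀ σ : GQ, A.IsFrobeniusAt σ ℓ →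
        ρ σ * ρ σ - a ℓ • ρ σ + (ℓ : k) • (1 : Module.End k W) = 0)
    (χ : GQ →* kˣ)
    (hχfin : ∃ L : IntermediateField ℚ Qb, FiniteDimensional ℚ L ∧
        ∀ σ : GQ, (∀ x ∈ L, σ x = x) → χ σ = 1)
    (hχF : ∀ ℓ : ℕ, ℓ.Prime → ℓ ≠ p → ∀ A : ValuationSubring Qb, A.LiesOverPrime ℓ →
        ∀ σ : GQ, A.IsFrobeniusAt σ ℓ → ((χ σ : kˣ) : k) = (ℓ : k)) (g : GQ) :
    ∃ t : k, ρ g * ρ g - t • ρ g + ((χ g : kˣ) : k) • (1 : Module.End k W) = 0 := by
  obtain ⟨L₁, hL₁, h₁⟩ := hfin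
  obtain ⟨L₂, hL₂, h₂⟩ := hχfin
  have hL : FiniteDimensional ℚ (L₁ ⊔ L₂ : IntermediateField ℚ Qb) :=
    IntermediateField.finiteDimensional_sup L₁ L₂
  obtain ⟨ℓ, A, σ, b, hℓ, hℓM, hA, hσ, hg⟩ := exists_frobenius_pow (L₁ ⊔ L₂) hL M hM g
  have hne : ℓ ≠ p := fun h => hℓM (h ▸ hpM)
  have hfix : ∀ x ∈ (L₁ ⊔ L₂ : IntermediateField ℚ Qb), ((σ ^ b)⁻¹ * g) x = x := by
    intro x hx
    rw [AlgEquiv.mul_apply, hg x hx]
    exact (σ ^ b).symm_apply_apply x
  have e₁ : ρ g = ρ σ ^ b := by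
    have := h₁ ((σ ^ b)⁻¹ * g) (fun x hx => hfix x ((le_sup_left : L₁ ≤ L₁ ⊔ L₂) hx))
    have h3 : ρ g = ρ (σ ^ b) * ρ ((σ ^ b)⁻¹ * g) := by
      rw [← map_mul, mul_inv_cancel_left]
    rw [h3, this, mul_one, map_pow]
  have e₂ : χ g = χ σ ^ b := by
    have := h₂ ((σ ^ b)⁻¹ * g) (fun x hx => hfix x ((le_sup_right : L₂ ≤ L₁ ⊔ L₂) hx))
    have h3 : χ g = χ (σ ^ b) * χ ((σ ^ b)⁻¹ * g) := by
      rw [← map_mul, mul_inv_cancel_left]
    rw [h3, this, mul_one, map_pow]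
  obtain ⟨t, ht⟩ := exists_quadratic_pow (ρ σ) (a ℓ) (ℓ : k) (hES ℓ hℓ hℓM A hA σ hσ) b
  refine ⟨t, ?_⟩
  rw [e₁, e₂, Units.val_pow_eq_pow_val, hχF ℓ hℓ hne A hA σ hσ]
  exact ht

end AbstractAux

open AbstractAux in
theorem exists_residualRep {k : Type} [Field k] [IsAlgClosed k] {p : ℕ} (hp : p.Prime) [CharP k p]
    (M : ℕ) (hM : M ≠ 0) (hpM : p ∣ M)
    (W : Type) [AddCommGroup W] [Module k W] [FiniteDimensional k W] [Nontrivial W]
    (ρ : GQ →* Module.End k W) (hfin : GaloisFactorsThroughFiniteLevel ρ) (a : ℕ → k)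
    (hES : ∀ ℓ : ℕ, ℓ.Prime → ¬ ℓ ∣ M → ∀ A : ValuationSubring Qb, A.LiesOverPrime ℓ →
      ∀ σ : GQ, A.IsFrobeniusAt σ ℓ →
        ρ σ * ρ σ - a ℓ • ρ σ + (ℓ : k) • (1 : Module.End k W) = 0)
    (hur : ∀ ℓ : ℕ, ℓ.Prime → ¬ ℓ ∣ M → ∀ A : ValuationSubring Qb, A.LiesOverPrime ℓ →
      ∀ σ ∈ A.inertiaSubgroupIn ℚ, ρ σ = 1) :
    ∃ r : ResidualGaloisRep k,
      (∀ ℓ : ℕ, ℓ.Prime → ¬ ℓ ∣ M → ∀ A : ValuationSubring Qb, A.LiesOverPrime ℓ →
        ∀ σ : GQ, A.IsFrobeniusAt σ ℓ →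
          LinearMap.charpoly (r.ρ σ) = X ^ 2 - C (a ℓ) * X + C ((ℓ : k))) ∧
      (∀ ℓ : ℕ, ℓ.Prime → ¬ ℓ ∣ M → r.IsUnramifiedAt ℓ) := by
  obtain ⟨χ, hχfin, hχF, hχI⟩ := exists_cyclo k hp
  have hq := quad_all M hM hpM W ρ hfin a hES χ hχfin hχF
  have hnep : ∀ ℓ : ℕ, ¬ ℓ ∣ M → ℓ ≠ p := fun ℓ h e => h (e ▸ hpM)
  obtain ⟨V, hV0, hV, hmin⟩ := exists_min_invariant ρ
  set ρV := restr ρ V hV with hρV
  have hntV : Nontrivial V := Submodule.nontrivial_iff_ne_bot.mpr hV0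
  have hqV : ∀ g, ∃ t : k, ρV g * ρV g - t • ρV g + ((χ g : kˣ) : k) • (1 : Module.End k V) = 0 :=
    fun g => (hq g).imp fun t ht => restr_quad ρ V hV g t _ ht
  obtain ⟨hle, hdet⟩ := finrank_le_two_of_quadratic ρV χ (restr_irr ρ V hV hmin) hqV
  have hpos : 0 < Module.finrank k V := Module.finrank_pos
  have hunit : ∀ {U : Type} [AddCommGroup U] [Module k U] (r : GQ →* Module.End k U) (g : GQ),
      IsUnit (r g) := fun r g => (Group.isUnit g).map r
  obtain ⟨L₁, hL₁, h₁⟩ := hfin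
  rcases (by omega : Module.finrank k V = 2 ∨ Module.finrank k V = 1) with h2 | h1
  · refine ⟨{ V := V, finrank_eq := h2, ρ := ρV, factorsThroughFiniteLevel :=
      ⟨L₁, hL₁, fun σ hσ => restr_eq_one ρ V hV σ (h₁ σ hσ)⟩ }, ?_, ?_⟩
    · intro ℓ hℓ hℓM A hA σ hσ
      exact charpoly_of_quad h2 (ρV σ) (hunit ρV σ) (a ℓ) (ℓ : k)
        (restr_quad ρ V hV σ _ _ (hES ℓ hℓ hℓM A hA σ hσ))
        (by rw [hdet h2 σ, hχF ℓ hℓ (hnep ℓ hℓM) A hA σ hσ])
    · intro ℓ hℓ hℓM A hA σ hσ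
      exact restr_eq_one ρ V hV σ (hur ℓ hℓ hℓM A hA σ hσ)
  · -- the character `ψ`
    let ψ : GQ →* kˣ := (Units.map (LinearMap.det : Module.End k V →* k)).comp ρV.toHomUnits
    have hψ : ∀ g, ρV g = ((ψ g : kˣ) : k) • (1 : Module.End k V) := by
      intro g
      obtain ⟨c, hc, -⟩ := LinearMap.existsUnique_eq_smul_id_of_finrank_eq_one h1 (ρV g)
      have hc' : ρV g = c • (1 : Module.End k V) := hc
      have : ((ψ g : kˣ) : k) = LinearMap.det (ρV g) := rfl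
      rw [this, hc', LinearMap.det_smul, h1, pow_one, map_one, mul_one]
    have hψ1 : ∀ g, ρ g = 1 → ψ g = 1 := by
      intro g hg
      have : ρV g = 1 := restr_eq_one ρ V hV g hg
      apply Units.ext
      show LinearMap.det (ρV g) = 1
      rw [this, map_one]
    let r' : GQ →* Module.End k (Fin 2 → k) :=
      { toFun := fun g => dg ((ψ g : kˣ) : k) ((χ g * (ψ g)⁻¹ : kˣ) : k)
        map_one' := by simp [dg_one]
        map_mul' := fun g h => by
          rw [← dg_mul]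
          congr 1
          · simp
          · simp only [map_mul, mul_inv_rev, Units.val_mul]
            ring }
    obtain ⟨L₂, hL₂, h₂⟩ := hχfin
    have hr1 : ∀ g, ρ g = 1 → χ g = 1 → r' g = 1 := by
      intro g hg hg'
      show dg ((ψ g : kˣ) : k) ((χ g * (ψ g)⁻¹ : kˣ) : k) = 1
      rw [hψ1 g hg, hg']
      simp [dg_one]
    refine ⟨{ V := Fin 2 → k, finrank_eq := by simp, ρ := r', factorsThroughFiniteLevel :=
      ⟨L₁ ⊔ L₂, IntermediateField.finiteDimensional_sup L₁ L₂, fun σ hσ =>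
        hr1 σ (h₁ σ fun x hx => hσ x ((le_sup_left : L₁ ≤ L₁ ⊔ L₂) hx))
          (h₂ σ fun x hx => hσ x ((le_sup_right : L₂ ≤ L₁ ⊔ L₂) hx))⟩ }, ?_, ?_⟩
    · intro ℓ hℓ hℓM A hA σ hσ
      have hχσ := hχF ℓ hℓ (hnep ℓ hℓM) A hA σ hσ
      have hroot : ((ψ σ : kˣ) : k) * ((ψ σ : kˣ) : k) - a ℓ * ((ψ σ : kˣ) : k) + (ℓ : k) = 0 := by
        have h3 := restr_quad ρ V hV σ _ _ (hES ℓ hℓ hℓM A hA σ hσ)
        rw [← hρV, hψ σ] at h3
        have h4 : (((ψ σ : kˣ) : k) * ((ψ σ : kˣ) : k) - a ℓ * ((ψ σ : kˣ) : k) + (ℓ : k))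
            • (1 : Module.End k V) = 0 := by
          rw [← h3, add_smul, sub_smul, smul_mul_smul_comm, mul_one, smul_smul]
        rcases smul_eq_zero.mp h4 with h5 | h5
        · exact h5
        · exact absurd h5 one_ne_zero
      have hψ0 : ((ψ σ : kˣ) : k) ≠ 0 := (ψ σ).ne_zero
      have hc2 : ((χ σ * (ψ σ)⁻¹ : kˣ) : k) = (ℓ : k) / ((ψ σ : kˣ) : k) := by
        rw [Units.val_mul, hχσ, Units.val_inv_eq_inv_val, div_eq_mul_inv]
      refine charpoly_of_quad (by simp) (r' σ) (hunit r' σ) (a ℓ) (ℓ : k) ?_ ?_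
      · show dg _ _ * dg _ _ - a ℓ • dg _ _ + _ = 0
        apply dg_quad _ _ _ _ hroot
        rw [hc2]
        field_simp
        linear_combination (ℓ : k) * hroot
      · have : r' σ = dg ((ψ σ : kˣ) : k) ((χ σ * (ψ σ)⁻¹ : kˣ) : k) := rfl
        rw [this, det_dg, hc2]
        field_simp
    · intro ℓ hℓ hℓM A hA σ hσ
      exact hr1 σ (hur ℓ hℓ hℓM A hA σ hσ) (hχI ℓ hℓ (hnep ℓ hℓM) A hA σ hσ)

open AbstractAux in
/-- the residue fields of `ℤ̄` are algebraically closed -/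
theorem isAlgClosed_fieldRange {k : Type} [Field k] (φ : integralClosure ℤ ℂ →+* k) :
    ∃ k₀ : Subfield k, (∀ a, φ a ∈ k₀) ∧ IsAlgClosed k₀ := by
  classical
  set k₀ : Subfield k := Subfield.closure (Set.range φ) with hk₀
  have hmem : ∀ a, φ a ∈ k₀ := fun a => Subfield.subset_closure ⟨a, rfl⟩
  refine ⟨k₀, hmem, ?_⟩
  apply IsAlgClosed.of_exists_root
  intro P hP hirr
  have hdeg : P.natDegree ≠ 0 := hirr.natDegree_pos.ne'
  -- restricted hom
  let ψ : integralClosure ℤ ℂ →+* k₀ := φ.codRestrict k₀ hmem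
  obtain ⟨b, hb, h⟩ := exists_denom φ ((P.support.image P.coeff).image (fun x : k₀ => (x : k)))
    (by
      intro x hx
      obtain ⟨y, -, rfl⟩ := Finset.mem_image.mp hx
      exact y.2)
  have hb' : ψ b ≠ 0 := fun h0 => hb (by simpa [ψ] using congrArg (fun x : k₀ => (x : k)) h0)
  have hco : ∀ i, ∃ a, P.coeff i * ψ b = ψ a := by
    intro i
    by_cases hi : P.coeff i = 0
    · exact ⟨0, by simp [hi]⟩
    · obtain ⟨a, ha⟩ := h (P.coeff i : k) (Finset.mem_image.mpr ⟨P.coeff i,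
        Finset.mem_image.mpr ⟨i, mem_support_iff.mpr hi, rfl⟩, rfl⟩)
      exact ⟨a, Subtype.ext (by simpa [ψ] using ha)⟩
  have hlift : P.scaleRoots (ψ b) ∈ lifts ψ := by
    rw [lifts_iff_coeff_lifts]
    intro i
    rw [coeff_scaleRoots]
    rcases lt_trichotomy i P.natDegree with hi | hi | hi
    · obtain ⟨a, ha⟩ := hco i
      refine ⟨a * b ^ (P.natDegree - i - 1), ?_⟩
      rw [map_mul, map_pow, ← ha]
      have : P.natDegree - i = (P.natDegree - i - 1) + 1 := by omega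
      conv_rhs => rw [this, pow_succ]
      ring
    · subst hi
      exact ⟨1, by simp [hP.coeff_natDegree]⟩
    · exact ⟨0, by simp [coeff_eq_zero_of_natDegree_lt hi]⟩
  have hmon : (P.scaleRoots (ψ b)).Monic := (monic_scaleRoots_iff _).mpr hP
  obtain ⟨Q, hQ, hQd, hQm⟩ := lifts_and_natDegree_eq_and_monic hlift hmon
  obtain ⟨y, hy⟩ := exists_root_Zbar Q hQm (by rw [hQd, natDegree_scaleRoots]; exact hdeg)
  refine ⟨ψ y / ψ b, ?_⟩
  have h1 : (P.scaleRoots (ψ b)).eval (ψ y) = 0 := by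
    rw [← hQ, eval_map_apply, hy, map_zero]
  have h2 := scaleRoots_eval₂_mul (RingHom.id k₀) (ψ y / ψ b) (ψ b) (p := P)
  simp only [RingHom.id_apply, eval₂_id] at h2
  rw [mul_div_cancel₀ _ hb', h1] at h2
  exact (mul_eq_zero.mp h2.symm).resolve_left (pow_ne_zero _ hb')

end Fermat.Agent.S29
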