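import Fermat.Agent.S29.DDeg

/-!
# S29/DESCENT, piece D-MEM : a quotient of modular forms on `Γ₀(N)` whose `q`-expansion has coefficients
in `ℚ̄` lies in the function field `FN N`

`exists_FN_of_qRel`.  `d = ψ(N) = [FN N : Kb(j)] = [FT N : ℂ(j)]` (`S24.finrank_FN`, `finrank_FT`).
Let `θ_1 .. θ_d` be a `Kb⟮jN N⟯`-basis of `FN N`.
(1) `(jN ^ a θ_b)_{a,b}` is `Kb`-linearly independent (`jN` transcendental), so by
`linearIndependent_coeffMap` (or `S24.iota_linearIndependent`) `(jT ^ a * mapFN θ_b)` is `ℂ`-linearly independent,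
so `mapFN θ_b` is `ℂ⟮jT N⟯`-linearly independent (clear denominators), hence a basis (`finrank_FT`).
(2) `X = ⟨coeffMap kappa X₀, _⟩ : FT N` is `∑ (P_b(jT) / Q(jT)) mapFN θ_b`, i.e. there is a non trivial
`ℂ`-linear relation between the series `coeffMap kappa (jN ^ a X₀)`, `coeffMap kappa (jN ^ a θ_b)`
(`a ≤ A`).  By `linearIndependent_coeffMap` (contrapositive) there is a non trivial `Kb`-linear relation
`Q₀(jN) X₀ = ∑ P₀_b(jN) θ_b`; `Q₀ ≠ 0` by (1), so `X₀ = (∑ P₀_b(jN) θ_b) / Q₀(jN) ∈ FN N`.
(3) `iota N u = x` : `qRel_iota` + `QRel.unique_left`.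
-/

set_option autoImplicit false

open UpperHalfPlane ModularForm ModularFormClass ModularCurve AlgebraicCurve CongruenceSubgroup
open Fermat.Agent.S24 IntermediateField
open scoped MatrixGroups Manifold IntermediateField.algebraAdjoinAdjoin

noncomputable section

namespace Fermat.Agent.S29

/-- `Kb`-linearly independent Laurent series stay `ℂ`-linearly independent
[as `S24.linearIndependent_aux`: apply `Kb`-linear functionals `φ : ℂ → Kb` to the coefficients of a relation;
`Module.forall_dual_apply_eq_zero_iff`] -/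
theorem linearIndependent_coeffMap {ι : Type*} (w : ι → LaurentSeries Kb)
    (hw : LinearIndependent Kb w) :
    LinearIndependent ℂ (fun i => ModularCurve.coeffMap kappa (w i)) := by
  classical
  let _ : Algebra Kb ℂ := kappa.toAlgebra
  rw [linearIndependent_iff'] at hw ⊢
  intro s g hg i hi
  rw [← Module.forall_dual_apply_eq_zero_iff Kb]
  intro φ
  refine hw s (fun i => φ (g i)) ?_ i hi
  ext m
  have h1 := congrArg (fun z : LaurentSeries ℂ => z.coeff m) hg
  simp only [HahnSeries.coeff_sum, HahnSeries.coeff_smul, coeffMap_coeff, HahnSeries.coeff_zero,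
    smul_eq_mul] at h1
  have h2 := congrArg φ h1
  rw [map_sum, map_zero] at h2
  simp only [HahnSeries.coeff_sum, HahnSeries.coeff_smul, HahnSeries.coeff_zero, smul_eq_mul]
  rw [← h2]
  refine Finset.sum_congr rfl fun j _ => ?_
  have : g j * kappa ((w j).coeff m) = ((w j).coeff m) • g j := by
    rw [Algebra.smul_def, mul_comm]; rfl
  rw [this, map_smul, smul_eq_mul, mul_comm]

namespace DMemAux

/-- polynomial independence from independence of the family `α ^ a * W i` -/
theorem poly_indep {F E : Type*} [Field F] [Field E] [Algebra F E] (α : E) {ι : Type*} [Fintype ι]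
    (W : ι → E) (h : LinearIndependent F (fun p : ℕ × ι => α ^ p.1 * W p.2))
    (P : ι → Polynomial F) (hP : ∑ i, Polynomial.aeval α (P i) * W i = 0) (i : ι) : P i = 0 := by
  classical
  rw [linearIndependent_iff'] at h
  obtain ⟨D, hD⟩ : ∃ D : ℕ, ∀ i, (P i).natDegree < D :=
    ⟨(Finset.univ.sup fun i => (P i).natDegree) + 1, fun i =>
      Nat.lt_succ_of_le (Finset.le_sup (f := fun i => (P i).natDegree) (Finset.mem_univ i))⟩
  have key := h (Finset.range D ×ˢ Finset.univ) (fun p => (P p.2).coeff p.1) (by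
    rw [Finset.sum_product_right]
    rw [← hP]
    refine Finset.sum_congr rfl fun i _ => ?_
    rw [Polynomial.aeval_eq_sum_range' (hD i), Finset.sum_mul]
    refine Finset.sum_congr rfl fun a _ => ?_
    rw [smul_mul_assoc])
  ext a
  rw [Polynomial.coeff_zero]
  by_cases ha : a < D
  · exact key (a, i) (Finset.mem_product.2 ⟨Finset.mem_range.2 ha, Finset.mem_univ _⟩)
  · exact Polynomial.coeff_eq_zero_of_natDegree_lt (lt_of_lt_of_le (hD i) (not_lt.1 ha))

/-- independence over `F⟮α⟯` from independence of the family `α ^ a * W i` over `F` -/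
theorem indep_adjoin {F E : Type*} [Field F] [Field E] [Algebra F E] (α : E) {ι : Type*}
    [Fintype ι] (W : ι → E) (h : LinearIndependent F (fun p : ℕ × ι => α ^ p.1 * W p.2)) :
    LinearIndependent F⟮α⟯ W := by
  classical
  rw [← LinearIndependent.iff_fractionRing (Algebra.adjoin F {α}) F⟮α⟯]
  rw [Fintype.linearIndependent_iff]
  intro g hg i
  have hex : ∀ i, ∃ P : Polynomial F, Polynomial.aeval α P = (g i : E) := by
    intro i
    have h1 : (g i : E) ∈ (Polynomial.aeval α : Polynomial F →ₐ[F] E).range :=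
      Algebra.adjoin_singleton_eq_range_aeval F α ▸ (g i).2
    exact h1
  choose P hP using hex
  have := poly_indep α W h P (by
    rw [← hg]
    refine Finset.sum_congr rfl fun i _ => ?_
    rw [hP i]; rfl) i
  apply Subtype.ext
  rw [← hP i, this, map_zero]
  rfl

theorem linearIndependent_pow_of_transc {K F : Type*} [Field K] [Field F] [Algebra K F] {x : F}
    (hx : Transcendental K x) : LinearIndependent K (fun i : ℕ => x ^ i) := by
  have h1 : LinearIndependent K (fun i : ℕ => (Polynomial.monomial i (1 : K))) := by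
    have := (Polynomial.basisMonomials K).linearIndependent
    simpa [Polynomial.coe_basisMonomials] using this
  have h2 := h1.map' (Polynomial.aeval x : Polynomial K →ₐ[K] F).toLinearMap
    (LinearMap.ker_eq_bot.2 (transcendental_iff_injective.1 hx))
  have h3 : (fun i : ℕ => x ^ i) = ((Polynomial.aeval x : Polynomial K →ₐ[K] F).toLinearMap ∘
      fun i : ℕ => (Polynomial.monomial i (1 : K))) := by
    ext i
    simp [Polynomial.aeval_monomial]
  rw [h3]; exact h2

/-- the abstract descent argument -/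
theorem descent_mem {K₀ E₀ L₀ C E L : Type*} [Field K₀] [Field E₀] [Field L₀] [Algebra K₀ E₀]
    [Algebra E₀ L₀] [Algebra K₀ L₀] [IsScalarTower K₀ E₀ L₀]
    [Field C] [Field E] [Field L] [Algebra C E] [Algebra E L] [Algebra C L] [IsScalarTower C E L]
    (κ : L₀ →+* L)
    (hκ : ∀ (d : ℕ) (w : ℕ × Option (Fin d) → L₀), LinearIndependent K₀ w →
      LinearIndependent C (fun i => κ (w i)))
    (j₀ : E₀) (hj₀ : Transcendental K₀ j₀) [FiniteDimensional K₀⟮j₀⟯ E₀]
    (jT : E) (hjT : algebraMap E L jT = κ (algebraMap E₀ L₀ j₀)) [FiniteDimensional C⟮jT⟯ E]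
    (hd : Module.finrank C⟮jT⟯ E ≤ Module.finrank K₀⟮j₀⟯ E₀)
    (m : E₀ → E) (hm : ∀ y, algebraMap E L (m y) = κ (algebraMap E₀ L₀ y))
    (X₀ : L₀) (X : E) (hX : algebraMap E L X = κ X₀) :
    ∃ u : E₀, algebraMap E₀ L₀ u = X₀ := by
  classical
  let θ := Module.finBasis K₀⟮j₀⟯ E₀
  have t1 : IsScalarTower K₀⟮j₀⟯ E₀ L₀ := inferInstance
  have t2 : IsScalarTower K₀ K₀⟮j₀⟯ L₀ := inferInstance
  let incl : E₀ →ₗ[K₀⟮j₀⟯] L₀ := (IsScalarTower.toAlgHom K₀⟮j₀⟯ E₀ L₀).toLinearMap
  have hincl : ∀ u : E₀, incl u = algebraMap E₀ L₀ u := fun _ => rfl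
  have hinj : LinearMap.ker incl = ⊥ := LinearMap.ker_eq_bot.2 (algebraMap E₀ L₀).injective
  have hθ' : LinearIndependent K₀⟮j₀⟯ (fun b => incl (θ b)) :=
    θ.linearIndependent.map' incl hinj
  by_contra hno
  have hX₀ : X₀ ∉ Submodule.span K₀⟮j₀⟯ (Set.range fun b => incl (θ b)) := by
    intro hmem
    have h1 : Submodule.span K₀⟮j₀⟯ (Set.range fun b => incl (θ b)) =
        Submodule.map incl (Submodule.span K₀⟮j₀⟯ (Set.range θ)) := by
      rw [Submodule.map_span, ← Set.range_comp]; rfl
    rw [h1] at hmem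
    obtain ⟨u, -, hu⟩ := hmem
    exact hno ⟨u, hu⟩
  let w : Option (Fin (Module.finrank K₀⟮j₀⟯ E₀)) → L₀ :=
    fun o => o.elim X₀ (fun b => incl (θ b))
  have hw : LinearIndependent K₀⟮j₀⟯ w := linearIndependent_option.2 ⟨hθ', hX₀⟩
  have hgen : Transcendental K₀ (AdjoinSimple.gen K₀ j₀) := by
    rw [← transcendental_algebraMap_iff (A := E₀)
      (algebraMap K₀⟮j₀⟯ E₀).injective, AdjoinSimple.algebraMap_gen]
    exact hj₀
  have h3 := linearIndependent_smul (linearIndependent_pow_of_transc hgen) hw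
  have h4 := hκ _ _ h3
  let W : Option (Fin (Module.finrank K₀⟮j₀⟯ E₀)) → E :=
    fun o => o.elim X (fun b => m (θ b))
  have hWw : ∀ o, algebraMap E L (W o) = κ (w o) := by
    rintro (_ | b)
    · exact hX
    · exact hm _
  have h5 : LinearIndependent C (fun p : ℕ × Option (Fin (Module.finrank K₀⟮j₀⟯ E₀)) =>
      jT ^ p.1 * W p.2) := by
    apply LinearIndependent.of_comp (IsScalarTower.toAlgHom C E L).toLinearMap
    have heq : ((IsScalarTower.toAlgHom C E L).toLinearMap ∘
        fun p : ℕ × Option (Fin (Module.finrank K₀⟮j₀⟯ E₀)) => jT ^ p.1 * W p.2) =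
        fun i => κ (AdjoinSimple.gen K₀ j₀ ^ i.1 • w i.2) := by
      funext p
      show algebraMap E L (jT ^ p.1 * W p.2) = _
      rw [Algebra.smul_def, map_mul, map_mul, hWw, map_pow, map_pow, map_pow, hjT]
      rfl
    rw [heq]
    exact h4
  have h6 := indep_adjoin jT W h5
  have h7 := h6.fintype_card_le_finrank
  rw [Fintype.card_option, Fintype.card_fin] at h7
  omega


/-- the same for intermediate fields -/
theorem descent_mem_intermediate {K₀ L₀ C L : Type*} [Field K₀] [Field L₀] [Algebra K₀ L₀]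
    [Field C] [Field L] [Algebra C L] (E₀ : IntermediateField K₀ L₀) (E : IntermediateField C L)
    (κ : L₀ →+* L)
    (hκ : ∀ (d : ℕ) (w : ℕ × Option (Fin d) → L₀), LinearIndependent K₀ w →
      LinearIndependent C (fun i => κ (w i)))
    (j₀ : E₀) (hj₀ : Transcendental K₀ j₀) (hfd : FiniteDimensional K₀⟮j₀⟯ E₀)
    (jT : E) (hjT : (jT : L) = κ (j₀ : L₀)) (hfdT : FiniteDimensional C⟮jT⟯ E)
    (hd : Module.finrank C⟮jT⟯ E ≤ Module.finrank K₀⟮j₀⟯ E₀)
    (m : E₀ → E) (hm : ∀ y, (m y : L) = κ (y : L₀))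
    (X₀ : L₀) (X : E) (hX : (X : L) = κ X₀) :
    ∃ u : E₀, (u : L₀) = X₀ :=
  descent_mem κ hκ j₀ hj₀ jT hjT hd m hm X₀ X hX


theorem algebraMap_eq_C {k : Type*} [Field k] (a : k) :
    algebraMap k (LaurentSeries k) a = HahnSeries.C a := by
  rw [HahnSeries.algebraMap_apply', ← PowerSeries.C_eq_algebraMap, HahnSeries.ofPowerSeries_C]

/-- the two module structures on Laurent series have the same independent families -/
theorem linearIndependent_algebra_iff {k : Type*} [Field k] {ι : Type*}
    (w : ι → LaurentSeries k) :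
    @LinearIndependent ι k (LaurentSeries k) w _ _ Algebra.toModule ↔
      @LinearIndependent ι k (LaurentSeries k) w _ _ HahnSeries.instModule := by
  have key : ∀ (a : k) (x : LaurentSeries k),
      (@HSMul.hSMul k (LaurentSeries k) (LaurentSeries k)
        (@instHSMul k (LaurentSeries k) Algebra.toSMul) a x) = HahnSeries.C a * x := by
    intro a x
    rw [Algebra.smul_def, algebraMap_eq_C]
  rw [@linearIndependent_iff' ι k (LaurentSeries k) _ _ Algebra.toModule w,
    @linearIndependent_iff' ι k (LaurentSeries k) _ _ HahnSeries.instModule w]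
  refine forall_congr' fun s => forall_congr' fun g => ?_
  have : ∀ i, (@HSMul.hSMul k (LaurentSeries k) (LaurentSeries k)
        (@instHSMul k (LaurentSeries k) Algebra.toSMul) (g i) (w i)) = g i • w i := by
    intro i
    rw [key, HahnSeries.C_mul_eq_smul]
  simp only [this]

end DMemAux

open DMemAux

/-- [key D-MEM] -/
theorem exists_FN_of_qRel (N : ℕ) [NeZero N] (x : Mer) (hx : IsQuot N x) (X₀ : LaurentSeries Kb)
    (h : QRel x (ModularCurve.coeffMap kappa X₀)) :
    ∃ u : FN N, (u : LaurentSeries Kb) = X₀ ∧ iota N u = x := by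
  suffices hmem : ∃ u : FN N, (u : LaurentSeries Kb) = X₀ by
    obtain ⟨u, hu⟩ := hmem
    refine ⟨u, hu, ?_⟩
    have := qRel_iota N u
    rw [hu] at this
    exact this.unique_left h
  have hd : Module.finrank ℂ⟮jT N⟯ (FT N) ≤ Module.finrank Kb⟮jN N⟯ (FN N) := by
    rw [finrank_FT, finrank_FN]
  exact descent_mem_intermediate (modularFunctionFieldBar N) (FT N) (coeffMap kappa)
    (fun d w hw => (linearIndependent_algebra_iff _).2
      (linearIndependent_coeffMap w ((linearIndependent_algebra_iff _).1 hw)))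
    (jN N) (transcendental_jN N) (finiteDimensional_FN N) (jT N) (coe_mapFN N (jN N))
    (finiteDimensional_FT N) hd
    (fun y => mapFN N y) (fun y => coe_mapFN N y) X₀ ⟨coeffMap kappa X₀, x, hx, h⟩ rfl

end Fermat.Agent.S29
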