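import Fermat.Agent.S29.DOrbit
import Fermat.Agent.S29.DMem
import Fermat.Prelude.Def_ModularCurve_X0ModL

/-!
# S29/DESCENT : existence of the Kummer element `u_c ∈ FN N` of a parabolic character `e(c/m)`
-/

set_option autoImplicit false

open UpperHalfPlane ModularForm ModularFormClass ModularCurve AlgebraicCurve CongruenceSubgroup
open Fermat.Agent.S24
open scoped MatrixGroups Manifold

noncomputable section

namespace Fermat.Agent.S29

/-- algebraic numbers are in the range of `kappa` -/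
theorem exists_kappa_of_isAlgebraic (z : ℂ) (hz : IsAlgebraic ℚ z) : ∃ a : Kb, kappa a = z := by
  have := isAlgebraic_Kb
  let φ : Kb →ₐ[ℚ] ℂ := IsAlgClosed.lift
  have hφ : ∀ a, kappa a = φ a := fun a => rfl
  have hint : IsIntegral ℚ z := hz.isIntegral
  have hsp : ((minpoly ℚ z).map (algebraMap ℚ Kb)).Splits := IsAlgClosed.splits _
  have hroot : Polynomial.aeval z (minpoly ℚ z) = 0 := minpoly.aeval ℚ z
  have hmap : ((minpoly ℚ z).map (algebraMap ℚ Kb)).map (φ : Kb →+* ℂ) =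
      (minpoly ℚ z).map (algebraMap ℚ ℂ) := by
    rw [Polynomial.map_map]
    congr 1
    exact φ.comp_algebraMap
  have h1 : ((minpoly ℚ z).map (algebraMap ℚ ℂ)).eval z = 0 := by
    rw [Polynomial.eval_map_algebraMap]; exact hroot
  rw [← hmap] at h1
  have h2 := hsp.eq_prod_roots
  rw [h2] at h1
  rw [Polynomial.map_mul, Polynomial.map_multiset_prod, Polynomial.eval_mul,
    Polynomial.eval_multiset_prod] at h1
  rcases mul_eq_zero.mp h1 with h3 | h3
  · exfalso
    rw [Polynomial.map_C, Polynomial.eval_C] at h3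
    have h4 := (map_eq_zero (φ : Kb →+* ℂ)).mp h3
    rw [Polynomial.leadingCoeff_eq_zero] at h4
    exact (Polynomial.map_ne_zero (minpoly.ne_zero hint)) h4
  · rw [Multiset.prod_eq_zero_iff] at h3
    simp only [Multiset.mem_map] at h3
    obtain ⟨_, ⟨_, ⟨a, _, rfl⟩, rfl⟩, h5⟩ := h3
    refine ⟨a, ?_⟩
    rw [hφ]
    simp only [Polynomial.map_sub, Polynomial.map_X, Polynomial.map_C, Polynomial.eval_sub,
      Polynomial.eval_X, Polynomial.eval_C] at h5
    exact (sub_eq_zero.mp h5).symm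

/-- `Δ ^ n` as a modular form on `Γ₀(N)` -/
theorem isMFH_DelH_pow (N : ℕ) [NeZero N] (n : ℕ) :
    IsMFH (Gamma0 N) (12 * n) (DelH ^ n) := by
  have h1 : IsMFH (Gamma0 N) 12 DelH :=
    IsMFH.of_levelOne N (CuspForm.discriminant : ModularForm 𝒮ℒ 12)
  have h2 := h1.pow n
  rwa [mul_comm] at h2

/-- **S29/DESCENT**: the Kummer element of the character `e(c/m)` exists in the function field over `ℚ̄` -/
theorem exists_kummer (N : ℕ) [NeZero N] {m : ℕ} (hm : m ≠ 0) (c : Additive (Gamma0 N) →+ ℤ)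
    (hc : c ∈ XN N) : ∃ u : FN N, IsKummer N m c u := by
  obtain ⟨f₀, hf₀, hne₀⟩ := exists_isCh N m c hc
  obtain ⟨f, hf, hne, halg⟩ :=
    exists_algebraic N m 2 hm (chiOf N m c) (chiOf_pow N hm c) ⟨f₀, hf₀, hne₀⟩
  choose t ht using fun i => exists_kappa_of_isAlgebraic _ (halg i)
  let T : PowerSeries Kb := PowerSeries.mk t
  have hT : T.map kappa = qExpansion 1 f := by
    ext i
    simp [T, ht]
  let F : Hol := ⟨f, hf.isQ.holo⟩
  have hF0 : F ≠ 0 := fun h => hne (congrArg Subtype.val h)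
  let h : Mer := algebraMap Hol Mer F / algebraMap Hol Mer (DelH ^ 2)
  have hchar : HasChar N m c h := hasChar_of_isCh N m 2 c f hf
  have hinj : Function.Injective (algebraMap Hol Mer) := IsFractionRing.injective Hol Mer
  have hD0 : DelH ≠ 0 := by
    intro h0
    have h1 := qExpansion_DelH
    rw [h0] at h1
    have h2 : qExpansion 1 (((0 : Hol) : ℍ → ℂ)) = 0 := by
      have : (((0 : Hol) : ℍ → ℂ)) = 0 := rfl
      rw [this]
      exact qExpansion_zero 1
    rw [h2] at h1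
    exact delS_ne_zero ℂ h1.symm
  have hDn : ∀ n : ℕ, algebraMap Hol Mer (DelH ^ n) ≠ 0 := fun n =>
    (map_ne_zero_iff _ hinj).mpr (pow_ne_zero n hD0)
  have hh0 : h ≠ 0 := div_ne_zero ((map_ne_zero_iff _ hinj).mpr hF0) (hDn 2)
  -- the `q`-expansion of `h ^ m`
  have q1 : QRel (algebraMap Hol Mer F) (ofPS (qExpansion 1 f)) := QRel.of_isQ F hf.isQ
  have q2 : QRel (algebraMap Hol Mer (DelH ^ 2)) (ofPS (delS ℂ) ^ 2) := by
    rw [map_pow, ← qExpansion_DelH]
    exact (QRel.of_isQ DelH isQ_DelH).pow 2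
  have q3 : QRel (h ^ m) ((ofPS (qExpansion 1 f) / ofPS (delS ℂ) ^ 2) ^ m) := (q1.div q2).pow m
  let X₀ : LaurentSeries Kb :=
    (HahnSeries.ofPowerSeries ℤ Kb T / (HahnSeries.ofPowerSeries ℤ Kb (delS Kb)) ^ 2) ^ m
  have hX₀ : ModularCurve.coeffMap kappa X₀ = (ofPS (qExpansion 1 f) / ofPS (delS ℂ) ^ 2) ^ m := by
    simp only [X₀, map_pow, map_div₀, coeffMap_ofPowerSeries, hT, delS_map]
  -- `h ^ m` is a quotient of modular forms
  have hquot : IsQuot N (h ^ m) := by
    refine ⟨2 * m, F ^ m, DelH ^ (2 * m), ?_, isMFH_DelH_pow N (2 * m), pow_ne_zero _ hD0, ?_⟩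
    · have h1 := (hf.isCF_pow hm (chiOf_pow N hm c)).isMF
      have h2 : (m : ℤ) * (12 * ((2 : ℕ) : ℤ)) = 12 * ((2 * m : ℕ) : ℤ) := by push_cast; ring
      rw [h2] at h1
      exact ⟨h1.toModularForm, rfl⟩
    · rw [pow_mul, map_pow, map_pow (algebraMap Hol Mer) F, ← mul_pow]
      congr 1
      exact div_mul_cancel₀ _ (hDn 2)
  obtain ⟨u, -, hu⟩ := exists_FN_of_qRel N (h ^ m) hquot X₀ (hX₀ ▸ q3)
  exact ⟨u, h, hh0, hu, hchar⟩

/-- the same for every `m` (the case `m = 0` is trivial); this is `Desc N m` of `S29/Wiring.lean` -/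
theorem desc_holds (N m : ℕ) [NeZero N] (c : Additive (Gamma0 N) →+ ℤ) (hc : c ∈ XN N) :
    ∃ u : FN N, IsKummer N m c u := by
  rcases eq_or_ne m 0 with rfl | hm
  · refine ⟨1, 1, one_ne_zero, by rw [map_one, pow_zero], fun γ => ?_⟩
    have h1 : zet 0 (c (Additive.ofMul γ)) = 1 := by simp [zet]
    rw [h1, map_one, map_one, mul_one]
  · exact exists_kummer N hm c hc

end Fermat.Agent.S29
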