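import Fermat.Agent.S29.K3Aux

/-!
# S29/K3 : the multiplicative Hecke operator `Tl` on Kummer elements

* `K3.iota_Tl` : `iota N (Tl N ℓ u) = ∏ i : Option (Fin ℓ), (iota N u) ∘ (matT ℓ i)` (`merGL`, `K3Aux.lean`),
  from `S24.norm_eq_prod_of_card` with the `ℓ + 1` embeddings `merAct (A i)⁻¹ ∘ iota (N ℓ)`,
  `A i ∈ Γ₀(N)` explicit (`CosetData`), `[[ℓ,0],[0,1]] A i = δ i * matT ℓ i`.
* `K3.isKummer_Tl` : `IsKummer N m c u`, `IsTransfer N (matT ℓ) c c'` imply `IsKummer N m c' (Tl N ℓ u)`.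
-/

set_option autoImplicit false

open UpperHalfPlane ModularForm ModularCurve AlgebraicCurve CongruenceSubgroup
open Fermat.Agent.S24 Fermat.Agent.S16.Lower Fermat.Agent.ES.Alg
open Matrix.SpecialLinearGroup (mapGL)
open scoped MatrixGroups Manifold

noncomputable section

namespace Fermat.Agent.S29.K3

theorem mul_inv_one_zero (A B : SL(2, ℤ)) :
    (A * B⁻¹ : SL(2, ℤ)) 1 0 = A 1 0 * B 1 1 - A 1 1 * B 1 0 := by
  rw [Matrix.SpecialLinearGroup.coe_mul, Matrix.SpecialLinearGroup.coe_inv,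
    Matrix.adjugate_fin_two, Matrix.mul_apply, Fin.sum_univ_two]
  simp
  ring

/-- the explicit coset data -/
structure CosetData (N ℓ : ℕ) where
  A : Option (Fin ℓ) → SL(2, ℤ)
  δ : Option (Fin ℓ) → SL(2, ℤ)
  hA : ∀ i, A i ∈ Gamma0 N
  hδ : ∀ i, δ i ∈ Gamma0 N
  A_none : A none = 1
  rel : ∀ i, matD ℓ * (A i : Matrix (Fin 2) (Fin 2) ℤ) =
    (δ i : Matrix (Fin 2) (Fin 2) ℤ) * matT ℓ i
  inj : ∀ i j, A i * (A j)⁻¹ ∈ Gamma0 (N * ℓ) → i = j

theorem nonempty_cosetData {N ℓ : ℕ} [NeZero N] (hℓ : ℓ.Prime) (hN : ¬ ℓ ∣ N) :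
    Nonempty (CosetData N ℓ) := by
  have hcop : IsCoprime (ℓ : ℤ) (N : ℤ) :=
    Nat.isCoprime_iff_coprime.mpr ((Nat.Prime.coprime_iff_not_dvd hℓ).mpr hN)
  obtain ⟨s, b, hsb⟩ := hcop
  set t : ℤ := -b with ht
  have hst : (ℓ : ℤ) * s - N * t = 1 := by rw [ht]; linarith
  let Ak : Fin ℓ → SL(2, ℤ) := fun k =>
    ⟨!![s, s * (k : ℕ) + t; (N : ℤ), N * (k : ℕ) + ℓ], by
      rw [Matrix.det_fin_two_of]; linarith⟩
  let dl : SL(2, ℤ) := ⟨!![(ℓ : ℤ) * s, t; (N : ℤ), 1], by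
      rw [Matrix.det_fin_two_of]; linarith⟩
  have hNℓ : ∀ z : ℤ, ((N * ℓ : ℕ) : ℤ) ∣ N * z → (ℓ : ℤ) ∣ z := by
    intro z hz
    have hN0 : (N : ℤ) ≠ 0 := by exact_mod_cast NeZero.ne N
    rw [Nat.cast_mul] at hz
    exact (mul_dvd_mul_iff_left hN0).mp hz
  have hℓ1 : ¬ (ℓ : ℤ) ∣ 1 := by
    intro h
    have := Int.natCast_dvd_natCast.mp (by simpa using h : (ℓ : ℤ) ∣ ((1 : ℕ) : ℤ))
    exact hℓ.one_lt.ne' (Nat.dvd_one.mp this)
  refine ⟨{ A := fun i => i.elim 1 Ak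
            δ := fun i => i.elim 1 (fun _ => dl)
            hA := ?_, hδ := ?_, A_none := rfl, rel := ?_, inj := ?_ }⟩
  · rintro (_ | k)
    · exact one_mem _
    · rw [Gamma0_mem]
      simp [Ak]
  · rintro (_ | k)
    · exact one_mem _
    · rw [Gamma0_mem]
      simp [dl]
  · rintro (_ | k)
    · simp [matT]
    · show matD ℓ * !![s, s * (k : ℕ) + t; (N : ℤ), N * (k : ℕ) + ℓ] =
        !![(ℓ : ℤ) * s, t; (N : ℤ), 1] * matU ℓ k
      rw [matD, matU]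
      ext i j
      fin_cases i <;> fin_cases j <;> simp [Matrix.mul_apply, Fin.sum_univ_two]
      ring
  · intro i j hij
    rw [Gamma0_mem, mul_inv_one_zero, ZMod.intCast_zmod_eq_zero_iff_dvd] at hij
    rcases i with _ | k <;> rcases j with _ | k'
    · rfl
    · exfalso
      have h1 : ((N * ℓ : ℕ) : ℤ) ∣ N * (-1) := by simpa [Ak] using hij
      exact hℓ1 ((dvd_neg).mp (hNℓ _ h1))
    · exfalso
      have h1 : ((N * ℓ : ℕ) : ℤ) ∣ N * 1 := by simpa [Ak] using hij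
      exact hℓ1 (hNℓ _ h1)
    · have h1 : ((N * ℓ : ℕ) : ℤ) ∣ N * (N * ((k' : ℕ) - (k : ℕ) : ℤ)) := by
        have : (N : ℤ) * (N * ((k' : ℕ) - (k : ℕ) : ℤ)) =
            (N : ℤ) * (N * (k' : ℕ) + ℓ) - (N * (k : ℕ) + ℓ) * N := by ring
        rw [this]
        simpa [Ak] using hij
      have h2 := hNℓ _ h1
      have h3 : (ℓ : ℤ) ∣ ((k' : ℕ) - (k : ℕ) : ℤ) :=
        (IsCoprime.dvd_of_dvd_mul_left ⟨s, b, hsb⟩ h2)
      have h4 : ((k' : ℕ) : ℤ) - (k : ℕ) = 0 := by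
        apply Int.eq_zero_of_abs_lt_dvd h3
        have hk := k.2
        have hk' := k'.2
        rw [abs_lt]
        constructor <;> omega
      congr 1
      apply Fin.ext
      omega

theorem merGL_SL_iota (N : ℕ) [NeZero N] {g : SL(2, ℤ)} (hg : g ∈ Gamma0 N) (θ : FN N) :
    merGL (mapGL ℝ g) (det_SL_pos g) (iota N θ) = iota N θ := by
  have h := merAct_eq g⁻¹ (iota N θ)
  rw [merAct_iota_of_mem N (inv_mem hg)] at h
  exact (h.trans (merGL_congr (by rw [inv_inv] : mapGL ℝ g⁻¹⁻¹ = mapGL ℝ g) _ _ _)).symm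

theorem iota_Tl {N ℓ : ℕ} [NeZero N] [NeZero ℓ] (hℓ : ℓ.Prime) (hN : ¬ ℓ ∣ N) (u : FN N) :
    iota N (Tl N ℓ u) =
      ∏ i : Option (Fin ℓ), merGL (PeriodAux.glT ℓ i) (glT_det_pos' ℓ i) (iota N u) := by
  obtain ⟨C⟩ := nonempty_cosetData hℓ hN
  let _ := algebraAlong (heckeAlphaBar Kb N ℓ)
  have : FiniteDimensional (FN N) (FN (N * ℓ)) := finite_alpha N ℓ
  let σ : Option (Fin ℓ) → FN (N * ℓ) →+* Mer := fun i =>
    (merAct (C.A i)⁻¹).toRingHom.comp (iota (N * ℓ))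
  have hσ : Function.Injective σ := by
    intro i j hij
    apply C.inj
    have h1 : sigma (N * ℓ) (((C.A i)⁻¹ : SL(2, ℤ)) : QN (N * ℓ)) =
        sigma (N * ℓ) (((C.A j)⁻¹ : SL(2, ℤ)) : QN (N * ℓ)) := by
      ext θ
      rw [sigma_mk, sigma_mk]
      exact RingHom.congr_fun hij θ
    have h2 := QuotientGroup.eq.mp (sigma_injective (N * ℓ) h1)
    rwa [inv_inv] at h2
  have hcard : Fintype.card (Option (Fin ℓ)) = Module.finrank (FN N) (FN (N * ℓ)) := by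
    rw [Fintype.card_option, Fintype.card_fin]
    exact (finrank_alpha N ℓ hℓ hN).symm
  have hα : ∀ i (a : FN N), σ i (algebraMap (FN N) (FN (N * ℓ)) a) = iota N a := by
    intro i a
    show merAct (C.A i)⁻¹ (iota (N * ℓ) (heckeAlphaBar Kb N ℓ a)) = _
    rw [iota_alpha, merAct_iota_of_mem N (inv_mem (C.hA i))]
  have h := norm_eq_prod_of_card σ hσ hcard (fun i j a => by rw [hα, hα]) none
    (heckeBetaBar Kb N ℓ u)
  rw [hα] at h
  rw [Tl_apply]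
  refine h.trans (Finset.prod_congr rfl fun i _ => ?_)
  show merAct (C.A i)⁻¹ (iota (N * ℓ) (heckeBetaBar Kb N ℓ u)) = _
  have hrel : PeriodAux.glT ℓ none * mapGL ℝ (C.A i) = mapGL ℝ (C.δ i) * PeriodAux.glT ℓ i :=
    PeriodAux.lift_rel _ _ _ _ (PeriodAux.glT_val hℓ.ne_zero none) (PeriodAux.glT_val hℓ.ne_zero i)
      _ _ (C.rel i)
  have hpos1 : 0 < (PeriodAux.glT ℓ none * mapGL ℝ (C.A i)).det.val := by
    rw [map_mul, Units.val_mul]
    exact mul_pos (glT_det_pos' ℓ none) (det_SL_pos _)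
  have hpos2 : 0 < (mapGL ℝ (C.δ i) * PeriodAux.glT ℓ i).det.val := by
    rw [map_mul, Units.val_mul]
    exact mul_pos (det_SL_pos _) (glT_det_pos' ℓ i)
  rw [iota_beta, merAct_eq,
    merGL_congr (by rw [inv_inv] : mapGL ℝ (C.A i)⁻¹⁻¹ = mapGL ℝ (C.A i)) _ (det_SL_pos _),
    ← merGL_mul _ _ _ _ hpos1, merGL_congr hrel hpos1 hpos2, merGL_mul _ _ (det_SL_pos _)
      (glT_det_pos' ℓ i), merGL_SL_iota N (C.hδ i)]

theorem zet_add (m : ℕ) (a b : ℤ) : zet m (a + b) = zet m a * zet m b := by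
  unfold zet
  rw [← Complex.exp_add]
  congr 1
  push_cast
  ring

theorem zet_sum (m : ℕ) {ι : Type*} (s : Finset ι) (f : ι → ℤ) :
    zet m (∑ i ∈ s, f i) = ∏ i ∈ s, zet m (f i) := by
  classical
  induction s using Finset.induction_on with
  | empty => simp [zet]
  | insert a s ha ih => rw [Finset.sum_insert ha, Finset.prod_insert ha, zet_add, ih]

theorem merGL_SL_of_hasChar {N m : ℕ} {c : Additive (Gamma0 N) →+ ℤ} {h : Mer}
    (hchar : HasChar N m c h) (δ : Gamma0 N) :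
    merGL (mapGL ℝ (δ : SL(2, ℤ))) (det_SL_pos _) h =
      algebraMap ℂ Mer (zet m (-c (Additive.ofMul δ))) * h := by
  have h1 := hchar δ⁻¹
  rw [ofMul_inv, map_neg, merAct_eq] at h1
  rw [← h1]
  exact merGL_congr (by rw [Subgroup.coe_inv, inv_inv]) _ _ _

/-- **S29/K3** -/
theorem isKummer_Tl {N m ℓ : ℕ} [NeZero N] [NeZero ℓ] (hℓ : ℓ.Prime) (hN : ¬ ℓ ∣ N)
    {c c' : Additive (Gamma0 N) →+ ℤ} {u : FN N} (hu : IsKummer N m c u)
    (hc : IsTransfer N (matT ℓ) c c') : IsKummer N m c' (Tl N ℓ u) := by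
  obtain ⟨h, h0, hpow, hchar⟩ := hu
  refine ⟨∏ i : Option (Fin ℓ), merGL (PeriodAux.glT ℓ i) (glT_det_pos' ℓ i) h, ?_, ?_, ?_⟩
  · exact Finset.prod_ne_zero_iff.mpr fun i _ => (map_ne_zero _).mpr h0
  · rw [iota_Tl hℓ hN, hpow, ← Finset.prod_pow]
    exact Finset.prod_congr rfl fun i _ => map_pow _ _ _
  · intro γ
    obtain ⟨D⟩ := nonempty_HData_T hℓ hN γ⁻¹
    have hterm : ∀ i, merAct (γ : SL(2, ℤ)) (merGL (PeriodAux.glT ℓ i) (glT_det_pos' ℓ i) h) =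
        algebraMap ℂ Mer (zet m (-c (Additive.ofMul (D.δ i)))) *
          merGL (PeriodAux.glT ℓ (D.σ i)) (glT_det_pos' ℓ _) h := by
      intro i
      have hrel : PeriodAux.glT ℓ i * mapGL ℝ ((γ⁻¹ : Gamma0 N) : SL(2, ℤ)) =
          mapGL ℝ (D.δ i : SL(2, ℤ)) * PeriodAux.glT ℓ (D.σ i) :=
        PeriodAux.lift_rel _ _ _ _ (PeriodAux.glT_val hℓ.ne_zero i)
          (PeriodAux.glT_val hℓ.ne_zero _) _ _ (D.rel i)
      have hpos1 : 0 < (PeriodAux.glT ℓ i * mapGL ℝ ((γ⁻¹ : Gamma0 N) : SL(2, ℤ))).det.val := by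
        rw [map_mul, Units.val_mul]
        exact mul_pos (glT_det_pos' ℓ i) (det_SL_pos _)
      have hpos2 : 0 < (mapGL ℝ (D.δ i : SL(2, ℤ)) * PeriodAux.glT ℓ (D.σ i)).det.val := by
        rw [map_mul, Units.val_mul]
        exact mul_pos (det_SL_pos _) (glT_det_pos' ℓ _)
      have hγ : mapGL ℝ (γ : SL(2, ℤ))⁻¹ = mapGL ℝ ((γ⁻¹ : Gamma0 N) : SL(2, ℤ)) := rfl
      rw [merAct_eq, merGL_congr hγ _ (det_SL_pos _),
        ← merGL_mul _ _ _ _ hpos1, merGL_congr hrel hpos1 hpos2,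
        merGL_mul _ _ (det_SL_pos _) (glT_det_pos' ℓ _), merGL_SL_of_hasChar hchar, map_mul,
        merGL_const]
    rw [map_prod]
    simp only [hterm]
    rw [Finset.prod_mul_distrib, ← map_prod, ← zet_sum, Finset.sum_neg_distrib, ← hc γ⁻¹ D,
      ofMul_inv, map_neg, neg_neg]
    congr 1
    exact Equiv.prod_comp D.σ
      (fun i => merGL (PeriodAux.glT ℓ i) (glT_det_pos' ℓ i) h)

end Fermat.Agent.S29.K3
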