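import Fermat.Agent.S29.ESRel
import Fermat.Agent.S29.K3

/-!
# S29 : the statement from (KL) and the descent
-/

set_option autoImplicit false

open CongruenceSubgroup Fermat.Agent.S24 Fermat.Agent.ES.Alg

namespace Fermat.Agent.S29

theorem k3 (N m : ℕ) [NeZero N] : K3 N m := fun ℓ hℓ hN _ _ _ _ hu hc =>
  @K3.isKummer_Tl N m ℓ _ ⟨hℓ.ne_zero⟩ hℓ hN _ _ _ hu hc

theorem result_of (hKL : ∀ (N : ℕ) [NeZero N], KLAll N)
    (hD : ∀ (N p : ℕ) [NeZero N], p ≠ 0 → Desc N p)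
    {N : ℕ} {g : CuspForm (CongruenceSubgroup.Gamma0 N) 2} (hg : g.IsNormalizedEigenform)
    {p : ℕ} (hp : p.Prime) {k : Type} [Field k] [CharP k p]
    (φ : integralClosure ℤ ℂ →+* k) :
    ∃ ρ : ResidualGaloisRep k, ρ.IsAttachedTo g φ ∧
      ∀ ℓ : ℕ, ℓ.Prime → ¬ ℓ ∣ N * p → ρ.IsUnramifiedAt ℓ := by
  rcases Nat.eq_zero_or_pos N with rfl | hN
  · exact main_zero φ
  · have : NeZero N := ⟨hN.ne'⟩
    exact main hg hp φ (hD N p hp.ne_zero) (k3 N p) (es1_of_KL N p (hKL N)) (es2_of_KL N p (hKL N))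

end Fermat.Agent.S29
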