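import Fermat.Agent.S29.Frob
import Fermat.Prelude.Def_GaloisRep_Residual

/-!
# Auxiliary lemmas for S29/ASM-a
-/

set_option autoImplicit false

open TensorProduct

namespace Fermat.Agent.S29.AssembleAux

/-- the action on `k ⊗ 𝒲`. -/
noncomputable def Rk (k : Type) [Field k] {𝒲 : Type} [AddCommGroup 𝒲] (act : GQ →* AddMonoid.End 𝒲) :
    GQ →* Module.End k (k ⊗[ℤ] 𝒲) where
  toFun g := (AddMonoidHom.toIntLinearMap (act g)).baseChange k
  map_one' := by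
    ext w
    simp
    rfl
  map_mul' g h := by
    ext w
    simp
    rfl

variable {k : Type} [Field k]

@[simp] lemma Rk_tmul {𝒲 : Type} [AddCommGroup 𝒲] (act : GQ →* AddMonoid.End 𝒲) (g : GQ)
    (a : k) (w : 𝒲) : Rk k act g (a ⊗ₜ[ℤ] w) = a ⊗ₜ[ℤ] (act g w) := rfl

/-- `1 ⊗ Θ`. -/
noncomputable def Θk (k : Type) [Field k] {𝒲 X : Type} [AddCommGroup 𝒲] [AddCommGroup X]
    (Θ : X →+ 𝒲) : k ⊗[ℤ] X →ₗ[k] k ⊗[ℤ] 𝒲 :=
  (AddMonoidHom.toIntLinearMap Θ).baseChange k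

@[simp] lemma Θk_tmul {𝒲 X : Type} [AddCommGroup 𝒲] [AddCommGroup X] (Θ : X →+ 𝒲)
    (a : k) (c : X) : Θk k Θ (a ⊗ₜ[ℤ] c) = a ⊗ₜ[ℤ] (Θ c) := rfl

/-- a functional on `𝒲` computing the coordinate `i₀` mod `p`. -/
lemma exists_coord_aux {p : ℕ} [Fact p.Prime] [CharP k p]
    (𝒲 : Type) [AddCommGroup 𝒲] [Module (ZMod p) 𝒲]
    (X : Type) [AddCommGroup X] {ι : Type} [Fintype ι] [DecidableEq ι] (b : Module.Basis ι ℤ X)
    (Θ : X →+ 𝒲) (hker : ∀ c, Θ c = 0 → ∃ c', c = p • c') (i₀ : ι) :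
    ∃ f : 𝒲 →+ k, ∀ i, f (Θ (b i)) = if i = i₀ then 1 else 0 := by
  let Φ : (ι → ZMod p) →ₗ[ZMod p] 𝒲 := Fintype.linearCombination (ZMod p) (fun i => Θ (b i))
  have hΦapp : ∀ n, Φ n = ∑ i, n i • Θ (b i) := fun n => by
    simp [Φ, Fintype.linearCombination_apply]
  have hΦ : LinearMap.ker Φ = ⊥ := by
    rw [LinearMap.ker_eq_bot']
    intro n hn
    have h1 : Θ (∑ i, (n i).val • b i) = 0 := by
      rw [map_sum]
      rw [hΦapp] at hn
      rw [← hn]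
      refine Finset.sum_congr rfl fun i _ => ?_
      rw [map_nsmul, ← Nat.cast_smul_eq_nsmul (ZMod p), ZMod.natCast_zmod_val]
    obtain ⟨c', hc'⟩ := hker _ h1
    funext i
    have h2 := congrArg (fun c => b.repr c i) hc'
    simp only [map_sum, map_nsmul, Finsupp.coe_finsetSum, Finset.sum_apply, Finsupp.coe_smul,
      Pi.smul_apply, Module.Basis.repr_self, Finsupp.single_apply] at h2
    simp only [smul_ite, nsmul_eq_mul, mul_one, mul_zero, Finset.sum_ite_eq', Finset.mem_univ,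
      if_true] at h2
    have h3 : (((n i).val : ℤ) : ZMod p) = ((p : ℤ) * b.repr c' i : ℤ) := by
      rw [h2]
    simpa using h3
  obtain ⟨Ψ, hΨ⟩ := LinearMap.exists_leftInverse_of_injective Φ hΦ
  refine ⟨(ZMod.castHom (dvd_refl p) k).toAddMonoidHom.comp
    ((LinearMap.proj i₀ : (ι → ZMod p) →ₗ[ZMod p] ZMod p).comp Ψ).toAddMonoidHom, fun i => ?_⟩
  have h4 : Θ (b i) = Φ (Pi.single i 1) := by
    rw [hΦapp]
    simp [Pi.single_apply]
  have h5 : Ψ (Φ (Pi.single i 1)) = Pi.single i 1 := by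
    have := LinearMap.congr_fun hΨ (Pi.single i 1)
    simpa using this
  simp only [AddMonoidHom.coe_comp, Function.comp_apply, LinearMap.toAddMonoidHom_coe,
    LinearMap.coe_comp, LinearMap.coe_proj, Function.eval, h4, h5, RingHom.toAddMonoidHom_eq_coe,
    AddMonoidHom.coe_coe, Pi.single_apply]
  by_cases h : i = i₀
  · subst h; simp
  · have h' : ¬ i₀ = i := fun e => h e.symm
    simp [h, h']

lemma exists_coord {p : ℕ} (hp : p.Prime) [CharP k p]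
    (𝒲 : Type) [AddCommGroup 𝒲] (hp𝒲 : ∀ w : 𝒲, p • w = 0)
    (X : Type) [AddCommGroup X] {ι : Type} [Fintype ι] [DecidableEq ι] (b : Module.Basis ι ℤ X)
    (Θ : X →+ 𝒲) (hker : ∀ c, Θ c = 0 → ∃ c', c = p • c') (i₀ : ι) :
    ∃ f : 𝒲 →+ k, ∀ i, f (Θ (b i)) = if i = i₀ then 1 else 0 := by
  have : Fact p.Prime := ⟨hp⟩
  let _ : Module (ZMod p) 𝒲 := AddCommGroup.zmodModule hp𝒲
  exact exists_coord_aux 𝒲 X b Θ hker i₀

/-- `1 ⊗ Θ` is injective. -/
lemma Θk_ne_zero {p : ℕ} (hp : p.Prime) [CharP k p]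
    (𝒲 : Type) [AddCommGroup 𝒲] (hp𝒲 : ∀ w : 𝒲, p • w = 0)
    (X : Type) [AddCommGroup X] [Module.Free ℤ X] [Module.Finite ℤ X]
    (Θ : X →+ 𝒲) (hker : ∀ c, Θ c = 0 → ∃ c', c = p • c')
    (y : k ⊗[ℤ] X) (hy : y ≠ 0) : Θk k Θ y ≠ 0 := by
  classical
  let b := Module.Free.chooseBasis ℤ X
  let bk := b.baseChange k
  have hy' : bk.repr y ≠ 0 := by
    intro h
    exact hy (by simpa using h)
  obtain ⟨i₀, hi₀⟩ : ∃ i₀, bk.repr y i₀ ≠ 0 := by
    by_contra hcon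
    push Not at hcon
    exact hy' (Finsupp.ext hcon)
  obtain ⟨f, hf⟩ := exists_coord (k := k) hp 𝒲 hp𝒲 X b Θ hker i₀
  let F : k ⊗[ℤ] 𝒲 →ₗ[ℤ] k :=
    (LinearMap.mul' ℤ k).comp (((AddMonoidHom.toIntLinearMap f).baseChange k).restrictScalars ℤ)
  have hF : ∀ (a : k) (w : 𝒲), F (a ⊗ₜ[ℤ] w) = a * f w := by
    intro a w
    show LinearMap.mul' ℤ k (((AddMonoidHom.toIntLinearMap f).baseChange k) (a ⊗ₜ[ℤ] w)) = _
    rw [LinearMap.baseChange_tmul, LinearMap.mul'_apply]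
    rfl
  intro hx
  obtain ⟨c, hc⟩ : ∃ c : Module.Free.ChooseBasisIndex ℤ X → k, c = fun i => bk.repr y i := ⟨_, rfl⟩
  have h1 : ∑ i, c i • bk i = y := by
    rw [hc]; exact bk.sum_repr y
  have h2 : F (Θk k Θ (∑ i, c i • bk i)) = c i₀ := by
    simp only [map_sum, map_smul]
    have : ∀ i, F (c i • Θk k Θ (bk i)) = if i = i₀ then c i else 0 := by
      intro i
      have : bk i = (1 : k) ⊗ₜ[ℤ] b i := by simp [bk]
      rw [this, Θk_tmul, TensorProduct.smul_tmul', hF, hf]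
      by_cases h : i = i₀ <;> simp [h]
    rw [Finset.sum_congr rfl fun i _ => this i]
    simp
  rw [h1, hx, map_zero] at h2
  apply hi₀
  have := congrFun hc i₀
  rw [← this, ← h2]

section general

variable {𝒲 X : Type} [AddCommGroup 𝒲] [AddCommGroup X] (act : GQ →* AddMonoid.End 𝒲) (Θ : X →+ 𝒲)

lemma Rk_Rk_Θk_eq (τ g : GQ) (h : ∀ c, act τ (act g (Θ c)) = act g (Θ c)) (z : k ⊗[ℤ] X) :
    Rk k act τ (Rk k act g (Θk k Θ z)) = Rk k act g (Θk k Θ z) := by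
  induction z using TensorProduct.induction_on with
  | zero => simp
  | tmul c w => rw [Θk_tmul, Rk_tmul, Rk_tmul, h]
  | add u v hu hv => simp only [map_add, hu, hv]

lemma Rk_Θk_eq (g : GQ) (h : ∀ c, act g (Θ c) = Θ c) (z : k ⊗[ℤ] X) :
    Rk k act g (Θk k Θ z) = Θk k Θ z := by
  induction z using TensorProduct.induction_on with
  | zero => simp
  | tmul c w => rw [Θk_tmul, Rk_tmul, h]
  | add u v hu hv => simp only [map_add, hu, hv]

lemma Rk_Θk_ES (σ g : GQ) (ℓ : ℕ) (T : Module.End ℤ X)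
    (h : ∀ c, act g (Θ (T c)) = act σ (act g (Θ c)) + ℓ • act σ⁻¹ (act g (Θ c)))
    (z : k ⊗[ℤ] X) :
    Rk k act g (Θk k Θ (T.baseChange k z)) =
      Rk k act σ (Rk k act g (Θk k Θ z)) + (ℓ : k) • Rk k act σ⁻¹ (Rk k act g (Θk k Θ z)) := by
  induction z using TensorProduct.induction_on with
  | zero => simp
  | tmul c w =>
    rw [LinearMap.baseChange_tmul, Θk_tmul, Θk_tmul, Rk_tmul, Rk_tmul, Rk_tmul, Rk_tmul, h,
      TensorProduct.tmul_add, TensorProduct.tmul_smul, Nat.cast_smul_eq_nsmul]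
  | add u v hu hv =>
    simp only [map_add, hu, hv, smul_add]
    abel

end general

end Fermat.Agent.S29.AssembleAux
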