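import Fermat.Agent.S29.Frob
import Fermat.Prelude.Def_GaloisRep_Residual
import Fermat.Agent.S29.AssembleAux

/-!
# S29/ASM-a : from the Kummer classes to an Eichler–Shimura module (pure algebra)

`𝒲` : abelian group killed by `p` with an action of `G_ℚ` (in the application `W_p = U_p / F^p`),
`X` a lattice with operators `T ℓ`, `Θ : X → 𝒲` additive with kernel `p X`, every `Θ c` has an open
stabiliser, and on the Galois conjugates of the `Θ c`:  `T_ℓ = σ + ℓ σ⁻¹` for every Frobenius lift `σ`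
at `ℓ ∤ M`, inertia at `ℓ ∤ M` acts trivially.  `y ∈ k ⊗ X` a nonzero eigenvector.
Then `W` = the `k`-span of the `G_ℚ`-orbit of `x = (1 ⊗ Θ) y` in `k ⊗[ℤ] 𝒲` satisfies the hypotheses of
`exists_residualRep`.

* `G_ℚ` acts on `k ⊗[ℤ] 𝒲` by `(act g).toIntLinearMap.baseChange k`.
* `x ≠ 0`: `𝒲` is a `ZMod p`-vector space, `X / p X → 𝒲` is injective, so there is a retraction; take a
  `ℤ`-basis `e` of `X`, `y = ∑ κ_i ⊗ e_i` with `κ_{i₀} ≠ 0`; the additive map
  `f : 𝒲 → X / pX → ZMod p → k` (coordinate `i₀`) induces `k ⊗ 𝒲 → k`, `a ⊗ w ↦ a f(w)`, sending `x` to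
  `κ_{i₀}`.
* the orbit of `x` is finite: `y` involves finitely many `c`; `L` = compositum of their levels;
  `g x` depends only on `g|L`, and `L →ₐ[ℚ] Qb` is finite.  Finite level of `W`: normal closure of `L`.
* for `w = g x`: `a_ℓ w = g (1 ⊗ Θ)(T_ℓ y) = σ w + ℓ σ⁻¹ w`; apply `σ`.
-/

set_option autoImplicit false

open TensorProduct

namespace Fermat.Agent.S29

open AssembleAux

theorem exists_ES_module {k : Type} [Field k] {p : ℕ} (hp : p.Prime) [CharP k p]
    (𝒲 : Type) [AddCommGroup 𝒲] (hp𝒲 : ∀ w : 𝒲, p • w = 0) (act : GQ →* AddMonoid.End 𝒲)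
    (X : Type) [AddCommGroup X] [Module.Free ℤ X] [Module.Finite ℤ X]
    (Θ : X →+ 𝒲) (hker : ∀ c, Θ c = 0 → ∃ c', c = p • c')
    (hlevel : ∀ c, ∃ L : IntermediateField ℚ Qb, FiniteDimensional ℚ L ∧
      ∀ g : GQ, (∀ x ∈ L, g x = x) → act g (Θ c) = Θ c)
    (M : ℕ) (T : ℕ → Module.End ℤ X) (a : ℕ → k)
    (y : k ⊗[ℤ] X) (hy : y ≠ 0)
    (hTy : ∀ ℓ : ℕ, ℓ.Prime → ¬ ℓ ∣ M → (T ℓ).baseChange k y = a ℓ • y)
    (hES : ∀ ℓ : ℕ, ℓ.Prime → ¬ ℓ ∣ M → ∀ A : ValuationSubring Qb, A.LiesOverPrime ℓ →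
      ∀ σ : GQ, A.IsFrobeniusAt σ ℓ → ∀ (g : GQ) (c : X),
        act g (Θ (T ℓ c)) = act σ (act g (Θ c)) + ℓ • act σ⁻¹ (act g (Θ c)))
    (hI : ∀ ℓ : ℕ, ℓ.Prime → ¬ ℓ ∣ M → ∀ A : ValuationSubring Qb, A.LiesOverPrime ℓ →
      ∀ τ ∈ A.inertiaSubgroupIn ℚ, ∀ (g : GQ) (c : X), act τ (act g (Θ c)) = act g (Θ c)) :
    ∃ (W : Type) (_ : AddCommGroup W) (_ : Module k W) (_ : FiniteDimensional k W)
      (_ : Nontrivial W) (ρ : GQ →* Module.End k W),
      GaloisFactorsThroughFiniteLevel ρ ∧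
      (∀ ℓ : ℕ, ℓ.Prime → ¬ ℓ ∣ M → ∀ A : ValuationSubring Qb, A.LiesOverPrime ℓ →
        ∀ σ : GQ, A.IsFrobeniusAt σ ℓ →
          ρ σ * ρ σ - a ℓ • ρ σ + (ℓ : k) • (1 : Module.End k W) = 0) ∧
      (∀ ℓ : ℕ, ℓ.Prime → ¬ ℓ ∣ M → ∀ A : ValuationSubring Qb, A.LiesOverPrime ℓ →
        ∀ σ ∈ A.inertiaSubgroupIn ℚ, ρ σ = 1) := by
  classical
  obtain ⟨R, hR⟩ : ∃ R : GQ →* Module.End k (k ⊗[ℤ] 𝒲), R = Rk k act := ⟨_, rfl⟩
  obtain ⟨x, hxdef⟩ : ∃ x, x = Θk k Θ y := ⟨_, rfl⟩
  have hx : x ≠ 0 := hxdef ▸ Θk_ne_zero hp 𝒲 hp𝒲 X Θ hker y hy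
  -- the level field
  let b := Module.Free.chooseBasis ℤ X
  choose Lc hLfin hLfix using hlevel
  let L0 : IntermediateField ℚ Qb := ⨆ i, Lc (b i)
  have hL0fin : FiniteDimensional ℚ L0 := by
    have : ∀ i, FiniteDimensional ℚ (Lc (b i)) := fun i => hLfin _
    exact IntermediateField.finiteDimensional_iSup_of_finite
  let L : IntermediateField ℚ Qb := IntermediateField.normalClosure ℚ L0 Qb
  have hN : Normal ℚ Qb := Frob.isGaloisQbar.to_normal
  have hLfin' : FiniteDimensional ℚ L := normalClosure.is_finiteDimensional ℚ L0 Qb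
  have hLnormal : Normal ℚ L := normalClosure.normal ℚ L0 Qb
  have hL0L : L0 ≤ L := IntermediateField.le_normalClosure L0
  -- elements fixing `L0` fix `Θ c`
  have hfix0 : ∀ g : GQ, (∀ z ∈ L0, g z = z) → ∀ c, act g (Θ c) = Θ c := by
    intro g hg
    have h1 : AddMonoidHom.toIntLinearMap ((act g : 𝒲 →+ 𝒲).comp Θ) =
        AddMonoidHom.toIntLinearMap Θ := by
      refine b.ext fun i => ?_
      exact hLfix (b i) g fun z hz => hg z ((le_iSup (fun i => Lc (b i)) i) hz)
    intro c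
    exact LinearMap.congr_fun h1 c
  have hfix1 : ∀ g : GQ, (∀ z ∈ L0, g z = z) → R g x = x := by
    intro g hg
    rw [hxdef, hR]
    exact Rk_Θk_eq act Θ g (hfix0 g hg) y
  -- stability of `L`
  have hLstab : ∀ (h : GQ), ∀ z ∈ L, h z ∈ L := by
    intro h z hz
    have := AlgEquiv.restrictNormal_commutes h L ⟨z, hz⟩
    have h2 : h z = algebraMap L Qb (h.restrictNormal L ⟨z, hz⟩) := this.symm
    rw [h2]
    exact (h.restrictNormal L ⟨z, hz⟩).2
  have hfix2 : ∀ g : GQ, (∀ z ∈ L, g z = z) → ∀ h : GQ, R g (R h x) = R h x := by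
    intro g hg h
    have h1 : R (h⁻¹ * g * h) x = x := by
      apply hfix1
      intro z hz
      have h2 : g (h z) = h z := hg _ (hLstab h z (hL0L hz))
      show h⁻¹ (g (h z)) = z
      rw [h2]
      exact h.symm_apply_apply z
    have h3 : g * h = h * (h⁻¹ * g * h) := by group
    calc R g (R h x) = R (g * h) x := by rw [map_mul]; rfl
      _ = R h (R (h⁻¹ * g * h) x) := by rw [h3, map_mul]; rfl
      _ = R h x := by rw [h1]
  -- the orbit is finite
  have horb : (Set.range fun g : GQ => R g x).Finite := by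
    have hfac : Function.FactorsThrough (fun g : GQ => R g x) (AlgEquiv.restrictNormalHom L) := by
      intro g h hgh
      have h1 : ∀ z ∈ L, (h⁻¹ * g) z = z := by
        intro z hz
        have e1 := AlgEquiv.restrictNormal_commutes g L ⟨z, hz⟩
        have e2 := AlgEquiv.restrictNormal_commutes h L ⟨z, hz⟩
        have e3 : g.restrictNormal L = h.restrictNormal L := hgh
        rw [e3] at e1
        have e4 : g z = h z := e1.symm.trans e2
        show h⁻¹ (g z) = z
        rw [e4]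
        exact h.symm_apply_apply z
      have h2 : R (h⁻¹ * g) x = x := hfix1 _ fun z hz => h1 z (hL0L hz)
      have h3 : g = h * (h⁻¹ * g) := by group
      show R g x = R h x
      calc R g x = R h (R (h⁻¹ * g) x) := by rw [← Module.End.mul_apply, ← map_mul, ← h3]
        _ = R h x := by rw [h2]
    have : Finite (L ≃ₐ[ℚ] L) := inferInstance
    refine (Set.finite_range (Function.extend (AlgEquiv.restrictNormalHom L)
      (fun g : GQ => R g x) 0)).subset ?_
    rintro _ ⟨g, rfl⟩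
    exact ⟨AlgEquiv.restrictNormalHom L g, hfac.extend_apply _ g⟩
  -- the module
  let W : Submodule k (k ⊗[ℤ] 𝒲) := Submodule.span k (Set.range fun g : GQ => R g x)
  have hWfin : FiniteDimensional k W := FiniteDimensional.span_of_finite k horb
  have hxW : x ∈ W := Submodule.subset_span ⟨1, by simp⟩
  have hWnt : Nontrivial W := ⟨⟨⟨x, hxW⟩, 0, fun h => hx (congrArg Subtype.val h)⟩⟩
  have hWstab : ∀ g : GQ, ∀ w ∈ W, R g w ∈ W := by
    intro g w hw
    induction hw using Submodule.span_induction with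
    | mem w hw =>
      obtain ⟨h, rfl⟩ := hw
      exact Submodule.subset_span ⟨g * h, by simp⟩
    | zero => simp
    | add u v _ _ hu hv => rw [map_add]; exact W.add_mem hu hv
    | smul c u _ hu => rw [map_smul]; exact W.smul_mem c hu
  let ρ : GQ →* Module.End k W :=
    { toFun := fun g => (R g).restrict (hWstab g)
      map_one' := by
        ext w
        simp
      map_mul' := fun g h => by
        ext w
        simp }
  have hρ : ∀ (g : GQ) (w : W), ((ρ g w : W) : k ⊗[ℤ] 𝒲) = R g w := fun g w => rfl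
  refine ⟨W, inferInstance, inferInstance, hWfin, hWnt, ρ, ⟨L, hLfin', ?_⟩, ?_, ?_⟩
  · intro g hg
    ext ⟨w, hw⟩
    rw [hρ]
    show R g w = w
    induction hw using Submodule.span_induction with
    | mem w hw =>
      obtain ⟨h, rfl⟩ := hw
      exact hfix2 g hg h
    | zero => simp
    | add u v _ _ hu hv => rw [map_add, hu, hv]
    | smul c u _ hu => rw [map_smul, hu]
  · intro ℓ hℓ hℓM A hA σ hσ
    ext ⟨w, hw⟩
    show R σ (R σ w) - a ℓ • R σ w + (ℓ : k) • w = 0
    induction hw using Submodule.span_induction with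
    | mem w hw =>
      obtain ⟨g, rfl⟩ := hw
      have h1 := Rk_Θk_ES (k := k) act Θ σ g ℓ (T ℓ) (hES ℓ hℓ hℓM A hA σ hσ g) y
      rw [hTy ℓ hℓ hℓM, map_smul, map_smul, ← hR, ← hxdef] at h1
      have h2 := congrArg (R σ) h1
      rw [map_smul, map_add, map_smul] at h2
      have h3 : R σ (R σ⁻¹ (R g x)) = R g x := by
        rw [← Module.End.mul_apply, ← map_mul]; simp
      rw [h3] at h2
      show R σ (R σ (R g x)) - a ℓ • R σ (R g x) + (ℓ : k) • R g x = 0
      rw [h2]; abel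
    | zero => simp
    | add u v _ _ hu hv =>
      have : R σ (R σ (u + v)) - a ℓ • R σ (u + v) + (ℓ : k) • (u + v) =
          (R σ (R σ u) - a ℓ • R σ u + (ℓ : k) • u) + (R σ (R σ v) - a ℓ • R σ v + (ℓ : k) • v) := by
        simp only [map_add, smul_add]; abel
      rw [this, hu, hv, add_zero]
    | smul c u _ hu =>
      have : R σ (R σ (c • u)) - a ℓ • R σ (c • u) + (ℓ : k) • (c • u) =
          c • (R σ (R σ u) - a ℓ • R σ u + (ℓ : k) • u) := by
        simp only [map_smul, smul_add, smul_sub]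
        rw [smul_comm (a ℓ) c, smul_comm (ℓ : k) c]
      rw [this, hu, smul_zero]
  · intro ℓ hℓ hℓM A hA τ hτ
    ext ⟨w, hw⟩
    show R τ w = w
    induction hw using Submodule.span_induction with
    | mem w hw =>
      obtain ⟨g, rfl⟩ := hw
      have h1 := Rk_Rk_Θk_eq (k := k) act Θ τ g (hI ℓ hℓ hℓM A hA τ hτ g) y
      rw [← hR, ← hxdef] at h1
      exact h1
    | zero => simp
    | add u v _ _ hu hv => rw [map_add, hu, hv]
    | smul c u _ hu => rw [map_smul, hu]

end Fermat.Agent.S29
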