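import Mathlib

/-!
# S29/AUT : automorphisms of an algebraically closed field

`L` algebraically closed, `K ⊆ L` a subfield.
* `exists_algEquiv_add` : a transcendental `x` can be moved to `x + c` by a `K`-automorphism of `L`.
* `isAlgebraic_of_finite_orbit` : (char. 0) an element with finite `Aut(L/K)`-orbit is algebraic.
-/

set_option autoImplicit false

open MvPolynomial

namespace Fermat.Agent.S29
namespace Aut

/-- the translation automorphism `X_i ↦ X_i + c` of a polynomial ring -/
noncomputable def shiftEquiv {K ι : Type*} [CommRing K] [DecidableEq ι] (i : ι) (c : K) :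
    MvPolynomial ι K ≃ₐ[K] MvPolynomial ι K :=
  AlgEquiv.ofAlgHom
    (aeval fun j => X j + C (if j = i then c else 0))
    (aeval fun j => X j - C (if j = i then c else 0))
    (by ext j; simp)
    (by ext j; simp)

theorem shiftEquiv_X_self {K ι : Type*} [CommRing K] [DecidableEq ι] (i : ι) (c : K) :
    shiftEquiv i c (X i) = X i + C c := by
  simp [shiftEquiv]

theorem exists_algEquiv_add {K L : Type*} [Field K] [Field L] [Algebra K L] [IsAlgClosed L]
    (x : L) (hx : Transcendental K x) (c : K) :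
    ∃ σ : L ≃ₐ[K] L, σ x = x + algebraMap K L c := by
  classical
  have h1 : AlgebraicIndepOn K id ({x} : Set L) :=
    (algebraicIndependent_singleton_iff (⟨x, rfl⟩ : ({x} : Set L))).mpr hx
  obtain ⟨t, hxt, ht⟩ := exists_isTranscendenceBasis_superset h1
  have hxt' : x ∈ t := hxt rfl
  let _ := IsAlgClosed.isAlgClosure_of_transcendence_basis _ ht
  let e : Algebra.adjoin K (Set.range ((↑) : t → L)) ≃ₐ[K]
      Algebra.adjoin K (Set.range ((↑) : t → L)) :=
    (ht.1.aevalEquiv.symm.trans (shiftEquiv (⟨x, hxt'⟩ : t) c)).trans ht.1.aevalEquiv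
  let σ : L ≃+* L := IsAlgClosure.equivOfEquiv L L e.toRingEquiv
  have hσ : ∀ s, σ (algebraMap _ L s) = algebraMap _ L (e s) := fun s =>
    IsAlgClosure.equivOfEquiv_algebraMap L L e.toRingEquiv s
  refine ⟨AlgEquiv.ofRingEquiv (f := σ) ?_, ?_⟩
  · intro r
    have := hσ (algebraMap K _ r)
    rw [e.commutes] at this
    exact this
  · show σ x = _
    have h2 : x = algebraMap (Algebra.adjoin K (Set.range ((↑) : t → L))) L
        (ht.1.aevalEquiv (X (⟨x, hxt'⟩ : t))) := by
      rw [ht.1.algebraMap_aevalEquiv, aeval_X]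
    conv_lhs => rw [h2]
    rw [hσ]
    show algebraMap _ L (ht.1.aevalEquiv (shiftEquiv (⟨x, hxt'⟩ : t) c
      (ht.1.aevalEquiv.symm (ht.1.aevalEquiv (X (⟨x, hxt'⟩ : t)))))) = _
    rw [AlgEquiv.symm_apply_apply, shiftEquiv_X_self, ht.1.algebraMap_aevalEquiv]
    simp

theorem isAlgebraic_of_finite_orbit {K L : Type*} [Field K] [CharZero K] [Field L] [Algebra K L]
    [IsAlgClosed L] (x : L) (h : (Set.range fun σ : L ≃ₐ[K] L => σ x).Finite) :
    IsAlgebraic K x := by
  by_contra hx
  have hinj : Function.Injective (fun n : ℕ => x + algebraMap K L (n : K)) := by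
    intro m n hmn
    have h1 := add_left_cancel hmn
    exact_mod_cast (algebraMap K L).injective h1
  have hsub : Set.range (fun n : ℕ => x + algebraMap K L (n : K)) ⊆
      Set.range fun σ : L ≃ₐ[K] L => σ x := by
    rintro _ ⟨n, rfl⟩
    obtain ⟨σ, hσ⟩ := exists_algEquiv_add x hx (n : K)
    exact ⟨σ, hσ⟩
  exact (Set.infinite_range_of_injective hinj) (h.subset hsub)

/-- version for ring automorphisms of `ℂ` -/
theorem isAlgebraic_of_finite_orbit_complex (x : ℂ)
    (h : (Set.range fun σ : ℂ ≃+* ℂ => σ x).Finite) : IsAlgebraic ℚ x := by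
  apply isAlgebraic_of_finite_orbit x
  apply h.subset
  rintro _ ⟨σ, rfl⟩
  exact ⟨σ.toRingEquiv, rfl⟩

end Aut
end Fermat.Agent.S29
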