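import Fermat.Agent.S29.DQRel
import Fermat.Agent.ES.TwEis
import Fermat.Agent.ES.Root
import Fermat.Agent.S20.Periodic

/-!
# S29/DESCENT, piece D-CH : auxiliary lemmas (helper18)
-/

set_option autoImplicit false

open UpperHalfPlane ModularForm ModularFormClass ModularCurve CongruenceSubgroup Fermat.Agent.S24
open scoped MatrixGroups Manifold

noncomputable section

namespace Fermat.Agent.S29.DChAux

theorem T_mem_Gamma0 (N : ℕ) : ModularGroup.T ∈ Gamma0 N := by
  rw [Gamma0_mem]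
  simp [ModularGroup.T]

theorem slash_T_apply (f : ℍ → ℂ) (k : ℤ) (z : ℍ) :
    (f ∣[k] ModularGroup.T) z = f ((1 : ℝ) +ᵥ z) := by
  rw [SL_slash_apply, UpperHalfPlane.modular_T_smul]
  have : denom (ModularGroup.T : SL(2, ℤ)) z = 1 := by
    rw [ModularGroup.denom_apply]
    simp [ModularGroup.T]
  rw [this, one_zpow, mul_one]

theorem periodic_of_slash_T {f : ℍ → ℂ} {k : ℤ} (h : f ∣[k] ModularGroup.T = f) :
    Function.Periodic (f ∘ ofComplex) 1 := by
  have h1 := S20.periodic_comp_ofComplex_of (f := f) (h := 1) (fun z => by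
    rw [← slash_T_apply f k z, h])
  simpa using h1

theorem zet_zero (m : ℕ) : zet m 0 = 1 := by simp [zet]

theorem zet_pow {m : ℕ} (hm : m ≠ 0) (n : ℤ) : zet m n ^ m = 1 := by
  rw [zet, ← Complex.exp_nat_mul]
  have hm' : (m : ℂ) ≠ 0 := by exact_mod_cast hm
  have : (m : ℂ) * (2 * Real.pi * Complex.I * n / m) = n * (2 * Real.pi * Complex.I) := by
    field_simp
  rw [this, Complex.exp_int_mul_two_pi_mul_I]

theorem norm_zet (m : ℕ) (n : ℤ) : ‖zet m n‖ = 1 := by
  rw [zet]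
  have : (2 * Real.pi * Complex.I * n / m : ℂ) = ((2 * Real.pi * n / m : ℝ) : ℂ) * Complex.I := by
    push_cast
    ring
  rw [this, Complex.norm_exp_ofReal_mul_I]

theorem trace_sq_of_upper (g : SL(2, ℤ)) (hg : g 1 0 = 0) :
    (g : Matrix (Fin 2) (Fin 2) ℤ).trace ^ 2 = 4 := by
  have hdet := g.det_coe
  rw [Matrix.det_fin_two, hg, mul_zero, sub_zero] at hdet
  rw [Matrix.trace_fin_two]
  rcases Int.eq_one_or_neg_one_of_mul_eq_one' hdet with ⟨h1, h2⟩ | ⟨h1, h2⟩
  · rw [h1, h2]; norm_num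
  · rw [h1, h2]; norm_num

end Fermat.Agent.S29.DChAux
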