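import Fermat.Agent.S29.DQRel
import Fermat.Agent.ES.TwEis
import Fermat.Agent.ES.Root
import Fermat.Agent.S29.DChAux

/-!
# S29/DESCENT, piece D-CH : cuspidal forms with a character of `Γ₀(N)`

`IsCh N k χ f` : `f` holomorphic, 1-periodic (has a `q`-expansion), `f ∣[k] γ = χ(γ) f` for `γ ∈ Γ₀(N)`,
all `SL₂(ℤ)`-translates vanish at `i∞`.
-/

set_option autoImplicit false

open UpperHalfPlane ModularForm ModularFormClass ModularCurve CongruenceSubgroup Fermat.Agent.S24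
open scoped MatrixGroups Manifold

noncomputable section

namespace Fermat.Agent.S29

/-- cuspidal forms of weight `k` with character `χ` -/
structure IsCh (N : ℕ) (k : ℤ) (χ : Gamma0 N →* ℂˣ) (f : ℍ → ℂ) : Prop where
  isQ : IsQ f
  slash : ∀ γ : Gamma0 N, f ∣[k] (γ : SL(2, ℤ)) = ((χ γ : ℂˣ) : ℂ) • f
  zero : ∀ g : SL(2, ℤ), IsZeroAtImInfty (f ∣[k] g)

namespace IsCh

variable {N : ℕ} {k : ℤ} {χ χ' : Gamma0 N →* ℂˣ} {f g : ℍ → ℂ}

theorem zero_fun : IsCh N k χ 0 :=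
  ⟨IsQ.zero, fun _ => by rw [SlashAction.zero_slash, smul_zero],
    fun g => by rw [SlashAction.zero_slash]; exact Filter.zero_zeroAtFilter _⟩

theorem add (hf : IsCh N k χ f) (hg : IsCh N k χ g) : IsCh N k χ (f + g) :=
  ⟨hf.isQ.add hg.isQ, fun γ => by rw [SlashAction.add_slash, hf.slash, hg.slash, smul_add],
    fun γ => by rw [SlashAction.add_slash]; exact (hf.zero γ).add (hg.zero γ)⟩

theorem smul (c : ℂ) (hf : IsCh N k χ f) : IsCh N k χ (c • f) :=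
  ⟨hf.isQ.smul c, fun γ => by rw [SL_smul_slash, hf.slash, smul_comm],
    fun γ => by rw [SL_smul_slash]; exact (hf.zero γ).smul c⟩

/-- a nonzero form has only one character -/
theorem char_unique (hf : IsCh N k χ f) (hf' : IsCh N k χ' f) (h0 : f ≠ 0) : χ = χ' := by
  obtain ⟨z, hz⟩ : ∃ z, f z ≠ 0 := by
    by_contra h
    push Not at h
    exact h0 (funext h)
  ext γ
  have h1 := congrFun ((hf.slash γ).symm.trans (hf'.slash γ)) z
  simp only [Pi.smul_apply, smul_eq_mul] at h1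
  exact mul_right_cancel₀ hz h1

/-- the `m`-th power is a cusp form on `Γ₀(N)` -/
theorem isCF_pow {m : ℕ} (hm : m ≠ 0) (hχ : ∀ γ, χ γ ^ m = 1) (hf : IsCh N k χ f) :
    S20.IsCF (Gamma0 N) ((m : ℤ) * k) (f ^ m) := by
  refine ⟨hf.isQ.holo.pow m, fun γ hγ => ?_, fun g => ?_⟩
  · rw [ES.pow_slash_SL2, hf.slash ⟨γ, hγ⟩, smul_pow]
    have : ((χ ⟨γ, hγ⟩ : ℂˣ) : ℂ) ^ m = 1 := by
      rw [← Units.val_pow_eq_pow_val, hχ]; rfl
    rw [this, one_smul]
  · rw [ES.pow_slash_SL2]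
    have h1 : Filter.Tendsto (f ∣[k] g) atImInfty (nhds 0) := hf.zero g
    have h2 := h1.pow m
    rw [zero_pow hm] at h2
    exact h2

end IsCh

/-- the character `γ ↦ e(-c(γ)/m)` -/
def chiOf (N m : ℕ) (c : Additive (Gamma0 N) →+ ℤ) : Gamma0 N →* ℂˣ where
  toFun γ := Units.mk0 (zet m (-(c (Additive.ofMul γ)))) (Complex.exp_ne_zero _)
  map_one' := by
    apply Units.ext
    show zet m (-(c (Additive.ofMul (1 : Gamma0 N)))) = 1
    rw [ofMul_one, map_zero]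
    simp [zet]
  map_mul' γ δ := by
    apply Units.ext
    show zet m (-(c (Additive.ofMul (γ * δ)))) =
      zet m (-(c (Additive.ofMul γ))) * zet m (-(c (Additive.ofMul δ)))
    rw [ofMul_mul, map_add, zet, zet, zet, ← Complex.exp_add]
    congr 1
    push_cast
    ring

theorem coe_chiOf (N m : ℕ) (c : Additive (Gamma0 N) →+ ℤ) (γ : Gamma0 N) :
    ((chiOf N m c γ : ℂˣ) : ℂ) = zet m (-(c (Additive.ofMul γ))) := rfl

theorem chiOf_pow (N : ℕ) {m : ℕ} (hm : m ≠ 0) (c : Additive (Gamma0 N) →+ ℤ) (γ : Gamma0 N) :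
    chiOf N m c γ ^ m = 1 := by
  apply Units.ext
  rw [Units.val_pow_eq_pow_val, coe_chiOf, DChAux.zet_pow hm]
  rfl

theorem norm_chiOf (N m : ℕ) (c : Additive (Gamma0 N) →+ ℤ) (γ : Gamma0 N) :
    ‖((chiOf N m c γ : ℂˣ) : ℂ)‖ = 1 := by
  rw [coe_chiOf, DChAux.norm_zet]

/-- upper triangular elements have trace `± 2` -/
theorem chiOf_of_upper (N m : ℕ) (c : Additive (Gamma0 N) →+ ℤ) (hc : c ∈ XN N) (g : Gamma0 N)
    (hg : (g : SL(2, ℤ)) 1 0 = 0) : chiOf N m c g = 1 := by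
  apply Units.ext
  rw [coe_chiOf, hc g (DChAux.trace_sq_of_upper _ hg), neg_zero, DChAux.zet_zero]
  rfl

/-- the starting point: `E_χ Δ` (weight `24`) -/
theorem exists_isCh (N : ℕ) [NeZero N] (m : ℕ) (c : Additive (Gamma0 N) →+ ℤ) (hc : c ∈ XN N) :
    ∃ f : ℍ → ℂ, IsCh N (12 * (2 : ℕ)) (chiOf N m c) f ∧ f ≠ 0 := by
  have hu := norm_chiOf N m c
  have hT := chiOf_of_upper N m c hc
  have hΔ : S20.IsCF ⊤ 12 (discriminant : ℍ → ℂ) :=
    S20.isCF_top_of_cuspForm CuspForm.discriminant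
  have hΔ' : S20.IsCF ⊥ 12 (discriminant : ℍ → ℂ) := ⟨hΔ.holo, fun γ _ => hΔ.inv γ trivial, hΔ.zero⟩
  have hE := ES.isMF_bot_twEis (k := 12) (χ := chiOf N m c) (by norm_num) hu
  have hcf : S20.IsCF ⊥ (12 * (2 : ℕ)) ((discriminant : ℍ → ℂ) * ES.twEis 12 (chiOf N m c)) :=
    (hΔ'.mul_isMF hE).weight_cast (by norm_num)
  have hsl : ∀ γ : Gamma0 N,
      ((discriminant : ℍ → ℂ) * ES.twEis 12 (chiOf N m c)) ∣[(12 * (2 : ℕ) : ℤ)] (γ : SL(2, ℤ)) =
        ((chiOf N m c γ : ℂˣ) : ℂ) • ((discriminant : ℍ → ℂ) * ES.twEis 12 (chiOf N m c)) := by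
    intro γ
    have e : (12 * (2 : ℕ) : ℤ) = 12 + 12 := by norm_num
    rw [e, mul_slash_SL2, hΔ.inv γ trivial, ES.twEis_slash hT γ, mul_smul_comm]
  refine ⟨(discriminant : ℍ → ℂ) * ES.twEis 12 (chiOf N m c), ⟨⟨hcf.holo, ?_, ?_⟩, hsl, hcf.zero⟩, ?_⟩
  · refine DChAux.periodic_of_slash_T (k := (12 * (2 : ℕ) : ℤ)) ?_
    have h1 := hsl ⟨ModularGroup.T, DChAux.T_mem_Gamma0 N⟩
    rw [hT ⟨ModularGroup.T, DChAux.T_mem_Gamma0 N⟩ (by simp [ModularGroup.T])] at h1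
    simpa using h1
  · have h1 := (hcf.zero 1).boundedAtFilter
    rwa [SlashAction.slash_one] at h1
  · intro h
    obtain ⟨z, hz⟩ : ∃ z, ES.twEis 12 (chiOf N m c) z ≠ 0 := by
      by_contra h'
      push Not at h'
      exact ES.twEis_ne_zero (k := 12) (by norm_num) (by decide) hu hT (funext h')
    have h1 := congrFun h z
    simp only [Pi.mul_apply, Pi.zero_apply] at h1
    exact mul_ne_zero (discriminant_ne_zero z) hz h1

/-- `f / Δ ^ n` has character `e(c/m)` in the sense of `HasChar` (`merAct γ h = h ∘ γ⁻¹`) -/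
theorem hasChar_of_isCh (N m n : ℕ) (c : Additive (Gamma0 N) →+ ℤ) (f : ℍ → ℂ)
    (hf : IsCh N (12 * n) (chiOf N m c) f) :
    HasChar N m c (algebraMap Hol Mer ⟨f, hf.isQ.holo⟩ / algebraMap Hol Mer (DelH ^ n)) := by
  intro γ
  have hΔ : S20.IsCF ⊤ 12 (discriminant : ℍ → ℂ) :=
    S20.isCF_top_of_cuspForm CuspForm.discriminant
  have hD0 : DelH ≠ 0 := fun h =>
    discriminant_ne_zero UpperHalfPlane.I (congrFun (congrArg Subtype.val h) _)
  have hne : ∀ B : Hol, B ≠ 0 → algebraMap Hol Mer B ≠ 0 := fun B hB h =>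
    hB (IsFractionRing.injective Hol Mer (h.trans (map_zero _).symm))
  have hDn : algebraMap Hol Mer (DelH ^ n) ≠ 0 := hne _ (pow_ne_zero n hD0)
  have hDn' : algebraMap Hol Mer (holAct (γ : SL(2, ℤ)) (DelH ^ n)) ≠ 0 :=
    hne _ (by simpa using pow_ne_zero n hD0)
  -- the pointwise identity
  have key : holAct (γ : SL(2, ℤ)) ⟨f, hf.isQ.holo⟩ * DelH ^ n =
      algebraMap ℂ Hol (zet m (c (Additive.ofMul γ))) * ⟨f, hf.isQ.holo⟩ *
        holAct (γ : SL(2, ℤ)) (DelH ^ n) := by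
    ext τ
    show f ((γ : SL(2, ℤ))⁻¹ • τ) * discriminant τ ^ n =
      zet m (c (Additive.ofMul γ)) * f τ * discriminant ((γ : SL(2, ℤ))⁻¹ • τ) ^ n
    have h1 := congrFun (hf.slash γ⁻¹) τ
    rw [SL_slash_apply, Pi.smul_apply, smul_eq_mul, coe_chiOf, ofMul_inv, map_neg, neg_neg,
      Subgroup.coe_inv] at h1
    have h2 := congrFun (hΔ.inv (γ : SL(2, ℤ))⁻¹ trivial) τ
    rw [SL_slash_apply] at h2
    rw [← h1, ← h2, mul_pow]
    generalize denom (Matrix.SpecialLinearGroup.toGL ((Matrix.SpecialLinearGroup.map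
      (Int.castRingHom ℝ)) ((γ : SL(2, ℤ))⁻¹))) (τ : ℂ) = d
    have e : (-12 : ℤ) * n = -(12 * n) := by ring
    rw [← zpow_natCast (d ^ (-12 : ℤ)) n, ← zpow_mul, e]
    ring
  have key' := congrArg (algebraMap Hol Mer) key
  rw [map_mul, map_mul, map_mul, ← IsScalarTower.algebraMap_apply ℂ Hol Mer] at key'
  rw [map_div₀, merAct_algebraMap, merAct_algebraMap, div_eq_iff hDn', mul_div_assoc', div_mul_eq_mul_div,
    eq_div_iff hDn, key']

end Fermat.Agent.S29
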