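import Fermat.Agent.ES.TwEis
import Fermat.Agent.ES.Root

/-!
# S29/DESCENT, piece D-CONJ-a : the character of an `m`-th root of a cusp form (helper18)
-/

set_option autoImplicit false

open UpperHalfPlane ModularForm ModularFormClass CongruenceSubgroup
open scoped MatrixGroups Manifold

noncomputable section

namespace Fermat.Agent.S29.DConjA

theorem tendsto_zero_of_pow {α : Type*} {l : Filter α} {f : α → ℂ} {m : ℕ}
    (h : Filter.Tendsto (f ^ m) l (nhds 0)) : Filter.Tendsto f l (nhds 0) := by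
  rw [Metric.tendsto_nhds] at h ⊢
  intro ε hε
  filter_upwards [h (ε ^ m) (pow_pos hε m)] with x hx
  rw [dist_zero_right] at hx ⊢
  rw [Pi.pow_apply, norm_pow] at hx
  exact lt_of_pow_lt_pow_left₀ m hε.le hx

theorem mdiff_slash {a : ℍ → ℂ} (ha : MDiff a) (k : ℤ) (γ : SL(2, ℤ)) : MDiff (a ∣[k] γ) := by
  rw [SL_slash]
  exact ha.slash k _

theorem eq_of_smul_eq {a : ℍ → ℂ} (h0 : a ≠ 0) {x y : ℂ} (h : x • a = y • a) : x = y := by
  obtain ⟨z, hz⟩ : ∃ z, a z ≠ 0 := by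
    by_contra h'
    push Not at h'
    exact h0 (funext h')
  have h1 := congrFun h z
  simp only [Pi.smul_apply, smul_eq_mul] at h1
  exact mul_right_cancel₀ hz h1

theorem exists_char (N : ℕ) {m : ℕ} (hm : m ≠ 0) (k : ℤ) (a : ℍ → ℂ) (ha : MDiff a) (h0 : a ≠ 0)
    (hcf : S20.IsCF (Gamma0 N) ((m : ℤ) * k) (a ^ m)) :
    ∃ χ : Gamma0 N →* ℂˣ, (∀ γ, χ γ ^ m = 1) ∧
      (∀ γ : Gamma0 N, a ∣[k] (γ : SL(2, ℤ)) = ((χ γ : ℂˣ) : ℂ) • a) ∧
      ∀ g : SL(2, ℤ), IsZeroAtImInfty (a ∣[k] g) := by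
  have h1 : ∀ γ : Gamma0 N, ∃ ζ : ℂ, ζ ^ m = 1 ∧ a ∣[k] (γ : SL(2, ℤ)) = ζ • a := fun γ =>
    ES.eq_smul_of_pow_eq m hm _ _ (mdiff_slash ha k γ) ha (by
      rw [← ES.pow_slash_SL2, hcf.inv γ γ.2])
  choose ζ hζ1 hζ2 using h1
  have hζ0 : ∀ γ, ζ γ ≠ 0 := fun γ h => by
    have := hζ1 γ
    rw [h, zero_pow hm] at this
    exact zero_ne_one this
  refine ⟨{ toFun := fun γ => Units.mk0 (ζ γ) (hζ0 γ), map_one' := ?_, map_mul' := ?_ },
    fun γ => ?_, fun γ => hζ2 γ, fun g => ?_⟩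
  · apply Units.ext
    show ζ 1 = 1
    apply eq_of_smul_eq h0
    rw [← hζ2 1, one_smul]
    exact SlashAction.slash_one _ _
  · intro γ δ
    apply Units.ext
    show ζ (γ * δ) = ζ γ * ζ δ
    apply eq_of_smul_eq h0
    rw [← hζ2 (γ * δ), Subgroup.coe_mul, SlashAction.slash_mul, hζ2 γ, SL_smul_slash, hζ2 δ,
      smul_smul]
  · apply Units.ext
    show ζ γ ^ m = 1
    exact hζ1 γ
  · apply tendsto_zero_of_pow (m := m)
    rw [← ES.pow_slash_SL2]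
    exact hcf.zero g

end Fermat.Agent.S29.DConjA
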