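import Fermat.Agent.S29.UniqueAux
import Fermat.Agent.S28.Rel

/-!
# S29/DESCENT, key D-CONJ-b : `pow_eq_pow_powerSeries` and `isQ_of_pow`

`isQ_of_pow` : `a (z + 1) = ζ₀ a z` with `ζ₀ = e(i/m)`, `i < m`; `h z = a z * e((m - i) z / m)` is `IsQ` and
`h ^ m = a ^ m * q ^ (m - i)`, so `m * order (qexp h) = m * order R + (m - i)`, hence `m ∣ m - i`, `i = 0`.
-/

set_option autoImplicit false

open UpperHalfPlane ModularForm ModularFormClass ModularCurve CongruenceSubgroup Fermat.Agent.S24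
open scoped MatrixGroups Manifold

noncomputable section

namespace Fermat.Agent.S29.ConjB

theorem pow_eq_pow_powerSeries {m : ℕ} (hm : m ≠ 0) (x y : PowerSeries ℂ) (h : x ^ m = y ^ m) :
    ∃ ζ : ℂ, ζ ^ m = 1 ∧ x = ζ • y := by
  have : NeZero m := ⟨hm⟩
  have hprim : IsPrimitiveRoot (PowerSeries.C (Complex.exp (2 * Real.pi * Complex.I / m))) m :=
    (Complex.isPrimitiveRoot_exp m hm).map_of_injective PowerSeries.C_injective
  have h1 := hprim.pow_sub_pow_eq_prod_sub_mul x y (Nat.pos_of_ne_zero hm)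
  rw [h, sub_self] at h1
  obtain ⟨ζ', hζ', h2⟩ := Finset.prod_eq_zero_iff.mp h1.symm
  rw [Polynomial.mem_nthRootsFinset (Nat.pos_of_ne_zero hm)] at hζ'
  obtain ⟨i, -, hi⟩ := hprim.eq_pow_of_pow_eq_one hζ'
  refine ⟨Complex.exp (2 * Real.pi * Complex.I / m) ^ i, ?_, ?_⟩
  · rw [← pow_mul, mul_comm i m, pow_mul, (Complex.isPrimitiveRoot_exp m hm).pow_eq_one, one_pow]
  · rw [sub_eq_zero] at h2
    rw [h2, ← hi, ← map_pow, PowerSeries.smul_eq_C_mul]

/-- `z ↦ e(s z / m)` -/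
def eFun (s m : ℕ) (τ : ℍ) : ℂ := Complex.exp (2 * Real.pi * Complex.I * s * (τ : ℂ) / m)

theorem mdiff_eFun (s m : ℕ) : MDiff (eFun s m) := by
  rw [UpperHalfPlane.mdifferentiable_iff]
  have : DifferentiableOn ℂ (fun z : ℂ => Complex.exp (2 * Real.pi * Complex.I * s * z / m))
      {z | 0 < z.im} := by
    fun_prop
  refine this.congr fun z hz => ?_
  simp only [Function.comp_apply, eFun, ofComplex_apply_of_im_pos hz]

theorem norm_eFun_le (s m : ℕ) (τ : ℍ) : ‖eFun s m τ‖ ≤ 1 := by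
  rw [eFun, Complex.norm_exp]
  apply Real.exp_le_one_iff.mpr
  have h1 : (2 * Real.pi * Complex.I * s * (τ : ℂ) / m).re = -(2 * Real.pi * s * τ.im / m) := by
    have : (2 * Real.pi * Complex.I * s * (τ : ℂ) / m : ℂ) =
        ((2 * Real.pi * s / m : ℝ) : ℂ) * (Complex.I * (τ : ℂ)) := by
      push_cast
      ring
    rw [this, Complex.re_ofReal_mul]
    simp
    ring
  rw [h1]
  have := τ.im_pos
  have hpi := Real.pi_pos
  have : 0 ≤ 2 * Real.pi * s * τ.im / m := by positivity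
  linarith

theorem eFun_pow (s m : ℕ) (hm : m ≠ 0) : eFun s m ^ m = S28.qq ^ s := by
  funext τ
  have hm' : (m : ℂ) ≠ 0 := by exact_mod_cast hm
  rw [Pi.pow_apply, Pi.pow_apply, eFun, S28.qq, Function.Periodic.qParam, ← Complex.exp_nat_mul,
    ← Complex.exp_nat_mul]
  congr 1
  field_simp
  simp

theorem eFun_T (s m : ℕ) (τ : ℍ) :
    eFun s m (ModularGroup.T • τ) = Complex.exp (2 * Real.pi * Complex.I * s / m) * eFun s m τ := by
  rw [eFun, eFun, ← Complex.exp_add, UpperHalfPlane.modular_T_smul, UpperHalfPlane.coe_vadd]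
  congr 1
  push_cast
  ring

theorem isQ_of_pow {m : ℕ} (hm : m ≠ 0) (a : ℍ → ℂ) (ha : MDiff a) (hq : IsQ (a ^ m))
    (R : PowerSeries ℂ) (hR : qExpansion 1 (a ^ m) = R ^ m) :
    ∃ ζ : ℂ, ζ ^ m = 1 ∧ IsQ a ∧ qExpansion 1 a = ζ • R := by
  have : NeZero m := ⟨hm⟩
  have hm' : (m : ℂ) ≠ 0 := by exact_mod_cast hm
  have hbdd : IsBoundedAtImInfty a := K2.isBoundedAtImInfty_of_pow m hm hq.bdd
  -- it suffices to prove periodicity
  suffices hper : ∀ τ : ℍ, a (ModularGroup.T • τ) = a τ by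
    have hQ : IsQ a := ⟨ha, (K2.periodic_iff a).mpr hper, hbdd⟩
    obtain ⟨ζ, hζ, h⟩ := pow_eq_pow_powerSeries hm (qExpansion 1 a) R
      (by rw [← (K2.isQ_pow hQ m).2, hR])
    exact ⟨ζ, hζ, hQ, h⟩
  by_cases ha0 : a = 0
  · intro τ
    rw [ha0]
    rfl
  have hR0 : R ≠ 0 := by
    rintro rfl
    rw [zero_pow hm] at hR
    have h1 := hq.eq_zero_of_qExpansion hR
    apply ha0
    funext τ
    have h2 := congrFun h1 τ
    exact pow_eq_zero_iff hm |>.mp h2
  have hperm : ∀ τ : ℍ, a (ModularGroup.T • τ) ^ m = a τ ^ m := (K2.periodic_iff _).mp hq.per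
  obtain ⟨ζ₀, hζ₀, hT⟩ := ES.eq_smul_of_pow_eq m hm (fun τ => a (ModularGroup.T • τ)) a
    (ha.comp (mdiff_SL_smul ModularGroup.T)) ha (by funext τ; exact hperm τ)
  have hT' : ∀ τ : ℍ, a (ModularGroup.T • τ) = ζ₀ * a τ := fun τ => congrFun hT τ
  obtain ⟨i, hi, hiζ⟩ := (Complex.isPrimitiveRoot_exp m hm).eq_pow_of_pow_eq_one hζ₀
  -- the auxiliary function
  set s := m - i with hs
  have hs1 : 1 ≤ s := by omega
  have hsm : s ≤ m := by omega
  have hζs : Complex.exp (2 * Real.pi * Complex.I * s / m) * ζ₀ = 1 := by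
    rw [← hiζ, ← Complex.exp_nat_mul, ← Complex.exp_add]
    have : (2 * Real.pi * Complex.I * (s : ℂ) / m + (i : ℂ) * (2 * Real.pi * Complex.I / m)) =
        2 * Real.pi * Complex.I := by
      have h1 : (s : ℂ) = (m : ℂ) - i := by
        rw [hs, Nat.cast_sub hi.le]
      rw [h1]
      field_simp
      ring
    rw [this, Complex.exp_two_pi_mul_I]
  have hE : IsBoundedAtImInfty (eFun s m) := by
    rw [UpperHalfPlane.isBoundedAtImInfty_iff]
    exact ⟨1, 0, fun z _ => norm_eFun_le s m z⟩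
  have hh : IsQ (a * eFun s m) := by
    refine ⟨ha.mul (mdiff_eFun s m), (K2.periodic_iff _).mpr fun τ => ?_, hbdd.mul hE⟩
    rw [Pi.mul_apply, Pi.mul_apply, hT', eFun_T]
    linear_combination (a τ * eFun s m τ) * hζs
  have hpow : qExpansion 1 (a * eFun s m) ^ m = R ^ m * PowerSeries.X ^ s := by
    rw [← (K2.isQ_pow hh m).2, mul_pow, eFun_pow s m hm,
      qExpansion_mul hq.analytic (S28.RelAux.isQ_qq_pow s).analytic, hR,
      S28.RelAux.qExpansion_qq_pow]
  have hH0 : qExpansion 1 (a * eFun s m) ≠ 0 := by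
    intro h0
    rw [h0, zero_pow hm] at hpow
    exact (mul_ne_zero (pow_ne_zero m hR0) (pow_ne_zero s PowerSeries.X_ne_zero)) hpow.symm
  have hord := congrArg PowerSeries.order hpow
  rw [PowerSeries.order_mul, PowerSeries.order_pow, PowerSeries.order_pow, PowerSeries.order_X_pow]
    at hord
  obtain ⟨α, hα⟩ := ENat.ne_top_iff_exists.mp (PowerSeries.order_eq_top.not.mpr hH0)
  obtain ⟨β, hβ⟩ := ENat.ne_top_iff_exists.mp (PowerSeries.order_eq_top.not.mpr hR0)
  rw [← hα, ← hβ] at hord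
  have hord' : m * α = m * β + s := by
    have : ((m * α : ℕ) : ℕ∞) = ((m * β + s : ℕ) : ℕ∞) := by
      push_cast
      simpa [nsmul_eq_mul] using hord
    exact_mod_cast this
  have hdvd : m ∣ s := by
    have : m ∣ m * β + s := ⟨α, hord'.symm⟩
    exact (Nat.dvd_add_right (dvd_mul_right m β)).mp this
  have hsm' : s = m := le_antisymm hsm (Nat.le_of_dvd hs1 hdvd)
  have hi0 : i = 0 := by omega
  have hζ1 : ζ₀ = 1 := by rw [← hiζ, hi0, pow_zero]
  intro τ
  rw [hT', hζ1, one_mul]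

end Fermat.Agent.S29.ConjB
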