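import Fermat.Agent.S29.DDict
import Fermat.Agent.S29.DCh
import Fermat.Agent.S29.DConjB
import Fermat.Agent.S29.DConjA

/-!
# S29/DESCENT, piece D-CONJ : the `Aut ℂ`-conjugate of a form with character is a form with character

`exists_conj`.  `f = 0` trivial.  `G = f ^ m` is a cusp form of weight `12 (m n)` on `Γ₀(N)`
(`IsCh.isCF_pow`, `S20.IsCF.toCuspForm`), `φ` its conjugate (`IntStruct.exists_cuspForm_map`),
`m ∣ ord_z G` (`analyticOrderAt_pow`), so `m ∣ ord_z φ` (`dvd_ord_conj`), so `φ = a ^ m` with `a`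
holomorphic (`ES.Root.exists_root`).  `exists_char` gives the character of `a`, `isQ_of_pow` (with
`R = s (qexp f)`, `qexp φ = s (qexp (f ^ m)) = R ^ m`) gives `IsQ a` and `qexp a = ζ R`; `f' = ζ⁻¹ a`.

* `exists_char` [key D-CONJ-a]: `(a ∣[k] γ) ^ m = (a ^ m) ∣[m k] γ = a ^ m`
  (`ES.TwEis.pow_slash_SL2`), so `a ∣[k] γ = ζ_γ a` (`ES.Root.eq_smul_of_pow_eq`); `ζ_γ` is unique as
  `a ≠ 0`, hence multiplicative (`SlashAction.slash_mul`; note `a ∣ (γ δ) = (a ∣ γ) ∣ δ`, the group of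
  values is commutative).  `(a ∣[k] g) ^ m = (a ^ m) ∣[m k] g → 0` gives `a ∣[k] g → 0`.
* `isQ_of_pow` [key D-CONJ-b]: `a (z + 1) ^ m = a z ^ m`, so `a (z + 1) = ζ a z`, `ζ ^ m = 1`
  (`eq_smul_of_pow_eq`); `‖a‖ ^ m` bounded so `a` is bounded at `i∞`.  Two ways to get `ζ = 1`:
  (i) `b z = a (m z)` is `IsQ`; `qexp (b) ^ m = qexp (a ^ m) (q ^ m) = (R (q ^ m)) ^ m`
  (`S24.qExpansion_scale_coeff`), so `qexp b = ζ' R (q ^ m)` (`pow_eq_pow_powerSeries`) is supported on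
  multiples of `m`, so `b (z + 1/m) = b z` (`hasSum_qExpansion`), i.e. `a (z + 1) = a z`;
  (ii) `ζ = e(t/m)`, `0 ≤ t < m`; `h z = a z * e((m - t) z / m)` is `IsQ`, `h ^ m = a ^ m * q ^ (m - t)`, so
  `m * order (qexp h) = m * order R + (m - t)`, `m ∣ t`, `t = 0` (`a = 0` trivial).
  Finally `qexp a ^ m = R ^ m` gives `qexp a = ζ' R`.
-/

set_option autoImplicit false

open UpperHalfPlane ModularForm ModularFormClass ModularCurve CongruenceSubgroup Fermat.Agent.S24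
open scoped MatrixGroups Manifold

noncomputable section

namespace Fermat.Agent.S29

/-- `x ^ m = y ^ m` in `ℂ⟦q⟧` [`IsPrimitiveRoot.pow_sub_pow_eq_prod_sub_mul`,
`Complex.isPrimitiveRoot_exp`; `ℂ⟦q⟧` is a domain] -/
theorem pow_eq_pow_powerSeries {m : ℕ} (hm : m ≠ 0) (x y : PowerSeries ℂ) (h : x ^ m = y ^ m) :
    ∃ ζ : ℂ, ζ ^ m = 1 ∧ x = ζ • y :=
  ConjB.pow_eq_pow_powerSeries hm x y h

/-- [key D-CONJ-a] -/
theorem exists_char (N : ℕ) {m : ℕ} (hm : m ≠ 0) (k : ℤ) (a : ℍ → ℂ) (ha : MDiff a) (h0 : a ≠ 0)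
    (hcf : S20.IsCF (Gamma0 N) ((m : ℤ) * k) (a ^ m)) :
    ∃ χ : Gamma0 N →* ℂˣ, (∀ γ, χ γ ^ m = 1) ∧
      (∀ γ : Gamma0 N, a ∣[k] (γ : SL(2, ℤ)) = ((χ γ : ℂˣ) : ℂ) • a) ∧
      ∀ g : SL(2, ℤ), IsZeroAtImInfty (a ∣[k] g) :=
  DConjA.exists_char N hm k a ha h0 hcf

/-- [key D-CONJ-b] -/
theorem isQ_of_pow {m : ℕ} (hm : m ≠ 0) (a : ℍ → ℂ) (ha : MDiff a) (hq : IsQ (a ^ m))
    (R : PowerSeries ℂ) (hR : qExpansion 1 (a ^ m) = R ^ m) :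
    ∃ ζ : ℂ, ζ ^ m = 1 ∧ IsQ a ∧ qExpansion 1 a = ζ • R :=
  ConjB.isQ_of_pow hm a ha hq R hR

theorem IsQ.pow' {f : ℍ → ℂ} (hf : IsQ f) (m : ℕ) : IsQ (f ^ m) := by
  induction m with
  | zero => rw [pow_zero]; exact IsQ.one
  | succ m ih => rw [pow_succ]; exact ih.mul hf

theorem qExpansion_pow_of_isQ {f : ℍ → ℂ} (hf : IsQ f) (m : ℕ) :
    qExpansion 1 (f ^ m) = qExpansion 1 f ^ m := by
  induction m with
  | zero => rw [pow_zero, pow_zero]; exact qExpansion_one 1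
  | succ m ih =>
    rw [pow_succ, pow_succ, qExpansion_mul (IsQ.analytic (IsQ.pow' hf m)) (IsQ.analytic hf), ih]

/-- [key D-CONJ-c] **the conjugate of a form with character** -/
theorem exists_conj (N : ℕ) [NeZero N] (m n : ℕ) (hm : m ≠ 0) (χ : Gamma0 N →* ℂˣ)
    (hχ : ∀ γ, χ γ ^ m = 1) (f : ℍ → ℂ) (hf : IsCh N (12 * n) χ f) (s : ℂ ≃ₐ[ℚ] ℂ) :
    ∃ (χ' : Gamma0 N →* ℂˣ) (f' : ℍ → ℂ), (∀ γ, χ' γ ^ m = 1) ∧ IsCh N (12 * n) χ' f' ∧
      qExpansion 1 f' = (qExpansion 1 f).map (s : ℂ →+* ℂ) := by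
  by_cases hf0 : f = 0
  · refine ⟨χ, 0, hχ, IsCh.zero_fun, ?_⟩
    rw [hf0, qExpansion_zero, map_zero]
  have e : (m : ℤ) * (12 * (n : ℤ)) = 12 * ((m * n : ℕ) : ℤ) := by push_cast; ring
  have hG0 : S20.IsCF (Gamma0 N) (12 * ((m * n : ℕ) : ℤ)) (f ^ m) :=
    (hf.isCF_pow hm hχ).weight_cast e
  set G : CuspForm (Gamma0 N : Subgroup (GL (Fin 2) ℝ)) (12 * ((m * n : ℕ) : ℤ)) :=
    hG0.toCuspForm with hG
  have hGf : (G : ℍ → ℂ) = f ^ m := rfl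
  obtain ⟨φ, hφ⟩ := IntStruct.exists_cuspForm_map N (s : ℂ →+* ℂ) G
  have hGord : ∀ z : ℍ, (m : ℕ∞) ∣ analyticOrderAt ((G : ℍ → ℂ) ∘ ofComplex) (z : ℂ) := by
    intro z
    have han : AnalyticAt ℂ (f ∘ ofComplex) (z : ℂ) :=
      (UpperHalfPlane.mdifferentiable_iff.mp hf.isQ.holo).analyticAt
        (UpperHalfPlane.isOpen_upperHalfPlaneSet.mem_nhds z.im_pos)
    have : (G : ℍ → ℂ) ∘ ofComplex = (f ∘ ofComplex) ^ m := by
      rw [hGf]; rfl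
    rw [this, analyticOrderAt_pow han]
    exact ⟨analyticOrderAt (f ∘ ofComplex) (z : ℂ), by simp⟩
  have hφord := dvd_ord_conj N m (m * n) s G φ hφ hGord
  obtain ⟨a, ha, ham⟩ := ES.exists_root m hm φ φ.holo' hφord
  have hqG : qExpansion 1 (G : ℍ → ℂ) = qExpansion 1 f ^ m := by
    rw [hGf, qExpansion_pow_of_isQ hf.isQ]
  have ha0 : a ≠ 0 := by
    rintro rfl
    rw [zero_pow hm] at ham
    have h1 : qExpansion 1 (φ : ℍ → ℂ) = 0 := by rw [← ham]; exact qExpansion_zero 1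
    rw [hφ, hqG, map_pow] at h1
    have h2 : (qExpansion 1 f).map (s : ℂ →+* ℂ) = 0 := pow_eq_zero_iff hm |>.mp h1
    have h3 : qExpansion 1 f = 0 := by
      have hinj : Function.Injective (PowerSeries.map (s : ℂ →+* ℂ)) :=
        PowerSeries.map_injective _ (RingHom.injective _)
      exact hinj (by rw [h2, map_zero])
    exact hf0 (hf.isQ.eq_zero_of_qExpansion h3)
  have hcf : S20.IsCF (Gamma0 N) ((m : ℤ) * (12 * (n : ℤ))) (a ^ m) := by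
    rw [ham]
    exact (S20.isCF_of_cuspForm φ).weight_cast e.symm
  obtain ⟨χ', hχ', hsl, hz⟩ := exists_char N hm (12 * (n : ℤ)) a ha ha0 hcf
  have hq : IsQ (a ^ m) := by
    rw [ham]
    exact ⟨φ.holo', SlashInvariantFormClass.periodic_comp_ofComplex φ
      (CongruenceSubgroup.one_mem_strictPeriods_Gamma0 N), (CuspFormClass.zero_at_infty φ).boundedAtFilter⟩
  obtain ⟨ζ, hζ, hQa, hqa⟩ := isQ_of_pow hm a ha hq ((qExpansion 1 f).map (s : ℂ →+* ℂ)) (by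
    rw [ham, hφ, hqG, map_pow])
  have hζ0 : ζ ≠ 0 := by
    rintro rfl
    rw [zero_pow hm] at hζ
    exact zero_ne_one hζ
  refine ⟨χ', ζ⁻¹ • a, hχ', IsCh.smul ζ⁻¹ ⟨hQa, hsl, hz⟩, ?_⟩
  rw [qExpansion_smul hQa.analytic, hqa, smul_smul, inv_mul_cancel₀ hζ0, one_smul]

end Fermat.Agent.S29
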