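import Fermat.Agent.S29.DField

/-!
# S29/DESCENT, piece D-DEG : `[FT N : ℂ(j)] = ψ(N)` and the `ψ(N)` embeddings into `Mer`

Copy of `S24/DegreeUpper.lean`, `S24/Degree.lean` with `(Kb, FN N, iota N)` replaced by
`(ℂ, FT N, iotaT N)`:
* `not_linearIndependent_pow_of_isQuot` : the proof of `S24.not_linearIndependent_pow` only uses
  `isQuot_iota`; so it holds for every `x` with `IsQuot N x`.
* `exists_poly_FT` : as `S24.exists_poly_of_not_linearIndependent` (pull the relation back along the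
  injective ring hom `iotaT N`, which is `ℂ`-linear by `iotaT_algebraMap`).
* `finiteDimensional_of_bounded` : choose `θ` with `[K(θ):K]` maximal; for `x : L`, `K(θ, x)` is finite
  separable, so `= K(θ')` (primitive element), `[K(θ'):K] ≤ [K(θ):K]` forces `x ∈ K(θ)`; so `L = K(θ)`.
* `finrank_FT` : `≤` by `S24.finrank_le_of_poly`, `≥` by `S24.card_le_finrank_of_embeddings` and
  `sigmaT_injective` (which follows from `S24.sigma_injective` because
  `sigmaT N q (mapFN N y) = sigma N q y`).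
-/

set_option autoImplicit false

open UpperHalfPlane ModularForm ModularFormClass ModularCurve AlgebraicCurve CongruenceSubgroup
open Fermat.Agent.S24 IntermediateField
open scoped MatrixGroups Manifold

noncomputable section

namespace Fermat.Agent.S29

theorem finiteDimensional_of_bounded {K L : Type*} [Field K] [CharZero K] [Field L] [Algebra K L]
    (n : ℕ) (h : ∀ θ : L, ∃ R : Polynomial K, R ≠ 0 ∧ R.natDegree ≤ n ∧ Polynomial.aeval θ R = 0) :
    FiniteDimensional K L := by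
  have halg : Algebra.IsAlgebraic K L :=
    ⟨fun θ => by obtain ⟨R, hR, -, h0⟩ := h θ; exact ⟨R, hR, h0⟩⟩
  have hint : ∀ θ : L, IsIntegral K θ := fun θ => (halg.isAlgebraic θ).isIntegral
  have hdeg : ∀ θ : L, Module.finrank K K⟮θ⟯ ≤ n := by
    intro θ
    obtain ⟨R, hR, hn, h0⟩ := h θ
    rw [IntermediateField.adjoin.finrank (hint θ)]
    exact (Polynomial.natDegree_le_of_dvd (minpoly.dvd _ _ h0) hR).trans hn
  obtain ⟨θ, hθ⟩ : ∃ θ : L, ∀ x : L, Module.finrank K K⟮x⟯ ≤ Module.finrank K K⟮θ⟯ := by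
    have hne : (Set.range fun θ : L => Module.finrank K K⟮θ⟯).Nonempty := ⟨_, ⟨0, rfl⟩⟩
    have hbdd : BddAbove (Set.range fun θ : L => Module.finrank K K⟮θ⟯) :=
      ⟨n, by rintro _ ⟨θ, rfl⟩; exact hdeg θ⟩
    obtain ⟨θ, hθ⟩ := Nat.sSup_mem hne hbdd
    refine ⟨θ, fun x => ?_⟩
    have : Module.finrank K K⟮θ⟯ = sSup (Set.range fun θ : L => Module.finrank K K⟮θ⟯) := hθ
    rw [this]
    exact le_csSup hbdd ⟨x, rfl⟩
  have htop : K⟮θ⟯ = ⊤ := by
    rw [eq_top_iff]
    intro x _
    obtain ⟨γ, hγ⟩ := Field.primitive_element_inf_aux K θ x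
    have hfd : FiniteDimensional K K⟮γ⟯ := IntermediateField.adjoin.finiteDimensional (hint γ)
    have hle : K⟮θ⟯ ≤ K⟮γ⟯ := by
      rw [← hγ, adjoin_simple_le_iff]
      exact IntermediateField.subset_adjoin K _ (by simp)
    have heq : K⟮θ⟯ = K⟮γ⟯ := IntermediateField.eq_of_le_of_finrank_le hle (hθ γ)
    rw [heq, ← hγ]
    exact IntermediateField.subset_adjoin K _ (by simp)
  have hfd : FiniteDimensional K K⟮θ⟯ := IntermediateField.adjoin.finiteDimensional (hint θ)
  rw [htop] at hfd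
  exact (IntermediateField.topEquiv (F := K) (E := L)).toLinearEquiv.finiteDimensional

theorem transcendental_jT (N : ℕ) [NeZero N] : Transcendental ℂ (jT N) := by
  have h0 : ((jN N : FN N) : LaurentSeries Kb) = jqModC Kb := by
    show coeffEmb Kb (qExpand ℚ 1 jq) = jqModC Kb
    rw [qExpand_one_apply]
    exact map_jqModC (algebraMap ℚ Kb)
  have h1 : algebraMap (FT N) (LaurentSeries ℂ) (jT N) = jqModC ℂ := by
    show coeffMap kappa ((jN N : FN N) : LaurentSeries Kb) = jqModC ℂ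
    rw [h0]
    exact map_jqModC kappa
  rw [← transcendental_algebraMap_iff (A := LaurentSeries ℂ)
    (algebraMap (FT N) (LaurentSeries ℂ)).injective, h1]
  exact P2MW.S_ModularCurve_coeff_jqModC_neg_one.ModularCurve.CharLRows.transcendental_jqModC ℂ

theorem not_linearIndependent_pow_of_isQuot (N : ℕ) [NeZero N] (x : Mer) (hx : IsQuot N x) :
    ∃ s : ℕ, ¬ LinearIndependent ℂ (fun i : Fin (s + 1) × Fin (Nat.card (QN N) + 1) =>
      algebraMap Hol Mer jH ^ (i.1 : ℕ) * x ^ (i.2 : ℕ)) := by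
  obtain ⟨m, A, B, hA, hB, hB0, hx⟩ := hx
  set p := Nat.card (QN N) with hp
  have hp0 : 0 < p := card_QN_pos N
  refine ⟨m * p ^ 2, fun hli => ?_⟩
  set s := m * p ^ 2 with hs
  have hD : algebraMap Hol Mer (DeltaH ^ s * B ^ p) ≠ 0 := by
    have hΔ0 : DeltaH ≠ 0 := by
      intro h
      exact discriminant_ne_zero I (congrFun (congrArg Subtype.val h) I)
    have : DeltaH ^ s * B ^ p ≠ 0 := mul_ne_zero (pow_ne_zero _ hΔ0) (pow_ne_zero _ hB0)
    simpa using (IsFractionRing.injective Hol Mer).ne this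
  have h1 := hli.map' (LinearMap.mulLeft ℂ (algebraMap Hol Mer (DeltaH ^ s * B ^ p)))
    (LinearMap.ker_eq_bot.mpr (mul_right_injective₀ hD))
  have h2 : (LinearMap.mulLeft ℂ (algebraMap Hol Mer (DeltaH ^ s * B ^ p))) ∘
      (fun i : Fin (s + 1) × Fin (p + 1) =>
        algebraMap Hol Mer jH ^ (i.1 : ℕ) * x ^ (i.2 : ℕ))
      = (IsScalarTower.toAlgHom ℂ Hol Mer).toLinearMap ∘ famH A B s p := by
    ext1 i
    exact (algebraMap_famH hx s p i).symm
  rw [h2] at h1
  refine not_linearIndependent_of_isMFH N (s + m * p) (famH A B s p)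
    (isMFH_famH N m hA hB s p) ?_ h1.of_comp
  rw [Fintype.card_prod, Fintype.card_fin, Fintype.card_fin, ← hp, hs]
  nlinarith

open Polynomial in
/-- general form of `S24.exists_poly_of_not_linearIndependent` -/
theorem exists_poly_of_not_linearIndependent' {K F : Type*} [Field K] [Field F] [Algebra K F]
    {x : F} (hx : Transcendental K x) (θ : F) (s p : ℕ)
    (hs : ¬ LinearIndependent K (fun i : Fin (s + 1) × Fin (p + 1) =>
      x ^ (i.1 : ℕ) * θ ^ (i.2 : ℕ))) :
    ∃ R : Polynomial K⟮x⟯, R ≠ 0 ∧ R.natDegree ≤ p ∧ Polynomial.aeval θ R = 0 := by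
  rw [Fintype.not_linearIndependent_iff] at hs
  obtain ⟨d, hd, ⟨i₀, hi₀⟩⟩ := hs
  let γ : K⟮x⟯ := AdjoinSimple.gen K x
  let P : Fin (p + 1) → Polynomial K := fun b => ∑ a : Fin (s + 1), C (d (a, b)) * X ^ (a : ℕ)
  let R : Polynomial K⟮x⟯ := ∑ b : Fin (p + 1), C (aeval γ (P b)) * X ^ (b : ℕ)
  have hcoeffP : ∀ (b : Fin (p + 1)) (a : Fin (s + 1)), (P b).coeff a = d (a, b) := by
    intro b a
    simp only [P, finsetSum_coeff, coeff_C_mul_X_pow]
    rw [Finset.sum_eq_single a]
    · simp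
    · intro a' _ ha'
      rw [if_neg]
      intro h
      exact ha' (Fin.ext h.symm)
    · simp
  have hcoeffR : ∀ b : Fin (p + 1), R.coeff b = aeval γ (P b) := by
    intro b
    simp only [R, finsetSum_coeff, coeff_C_mul_X_pow]
    rw [Finset.sum_eq_single b]
    · simp
    · intro b' _ hb'
      rw [if_neg]
      intro h
      exact hb' (Fin.ext h.symm)
    · simp
  have hγ : ∀ Q : Polynomial K, algebraMap K⟮x⟯ F (aeval γ Q) = aeval x Q := by
    intro Q
    rw [← aeval_algebraMap_apply, AdjoinSimple.algebraMap_gen]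
  refine ⟨R, ?_, ?_, ?_⟩
  · intro hR
    have h1 : aeval γ (P i₀.2) = 0 := by rw [← hcoeffR, hR]; simp
    have h2 : aeval x (P i₀.2) = 0 := by rw [← hγ, h1, map_zero]
    have h3 : P i₀.2 = 0 := (transcendental_iff.mp hx) _ h2
    apply hi₀
    have := hcoeffP i₀.2 i₀.1
    rw [h3] at this
    simpa using this.symm
  · apply natDegree_sum_le_of_forall_le
    intro b _
    exact (natDegree_C_mul_X_pow_le _ _).trans (Nat.lt_succ_iff.mp b.2)
  · have e1 : aeval θ R = ∑ b : Fin (p + 1), aeval x (P b) * θ ^ (b : ℕ) := by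
      simp only [R, map_sum, map_mul, aeval_C, map_pow, aeval_X]
      refine Finset.sum_congr rfl fun b _ => ?_
      rw [hγ]
    rw [e1, ← hd, Fintype.sum_prod_type_right]
    refine Finset.sum_congr rfl fun b _ => ?_
    simp only [P, map_sum, map_mul, aeval_C, map_pow, aeval_X]
    rw [Finset.sum_mul]
    refine Finset.sum_congr rfl fun a _ => ?_
    rw [Algebra.smul_def]
    ring

theorem exists_poly_FT (N : ℕ) [NeZero N] (θ : FT N) :
    ∃ R : Polynomial ℂ⟮jT N⟯, R ≠ 0 ∧ R.natDegree ≤ Nat.card (QN N) ∧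
      Polynomial.aeval θ R = 0 := by
  obtain ⟨s, hs⟩ := not_linearIndependent_pow_of_isQuot N (iotaT N θ) (isQuot_iotaT N θ)
  refine exists_poly_of_not_linearIndependent' (transcendental_jT N) θ s _ fun hli => hs ?_
  let φ : FT N →ₗ[ℂ] Mer :=
    { toFun := iotaT N
      map_add' := map_add _
      map_smul' := fun c x => by
        rw [Algebra.smul_def, map_mul, iotaT_algebraMap, RingHom.id_apply, Algebra.smul_def] }
  have h1 := hli.map' φ (LinearMap.ker_eq_bot.mpr (iotaT N).injective)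
  have e : (fun i : Fin (s + 1) × Fin (Nat.card (QN N) + 1) =>
      algebraMap Hol Mer jH ^ (i.1 : ℕ) * iotaT N θ ^ (i.2 : ℕ)) =
      φ ∘ fun i : Fin (s + 1) × Fin (Nat.card (QN N) + 1) => jT N ^ (i.1 : ℕ) * θ ^ (i.2 : ℕ) := by
    ext1 i
    show _ = iotaT N (jT N ^ (i.1 : ℕ) * θ ^ (i.2 : ℕ))
    rw [map_mul, map_pow, map_pow, iotaT_jT]
  rw [e]
  exact h1

theorem finiteDimensional_FT (N : ℕ) [NeZero N] : FiniteDimensional ℂ⟮jT N⟯ (FT N) :=
  have : CharZero ℂ⟮jT N⟯ := charZero_of_injective_algebraMap (algebraMap ℂ ℂ⟮jT N⟯).injective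
  finiteDimensional_of_bounded _ (exists_poly_FT N)

/-- the conjugate embeddings -/
def sigmaT (N : ℕ) [NeZero N] (q : QN N) : FT N →+* Mer :=
  ((merAct q.out : Mer ≃+* Mer) : Mer →+* Mer).comp (iotaT N)

theorem sigmaT_apply (N : ℕ) [NeZero N] (q : QN N) (θ : FT N) :
    sigmaT N q θ = merAct q.out (iotaT N θ) := rfl

theorem sigmaT_mapFN (N : ℕ) [NeZero N] (q : QN N) (y : FN N) :
    sigmaT N q (mapFN N y) = sigma N q y := by
  rw [sigmaT_apply, iotaT_mapFN]; rfl

theorem sigmaT_injective (N : ℕ) [NeZero N] : Function.Injective (sigmaT N) := by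
  intro q q' h
  apply sigma_injective N
  ext y
  rw [← sigmaT_mapFN, ← sigmaT_mapFN, h]

theorem sigmaT_algebraMap (N : ℕ) [NeZero N] (q : QN N) (a : ℂ) :
    sigmaT N q (algebraMap ℂ (FT N) a) = algebraMap ℂ Mer a := by
  rw [sigmaT_apply, iotaT_algebraMap, merAct_const]

theorem sigmaT_jT_sub (N : ℕ) [NeZero N] (q : QN N) (c : ℂ) :
    sigmaT N q (jT N - algebraMap ℂ (FT N) c) =
      algebraMap Hol Mer (jH - algebraMap ℂ Hol c) := by
  rw [RingHom.map_sub, sigmaT_algebraMap, sigmaT_apply, iotaT_jT, merAct_algebraMap, holAct_jH,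
    RingHom.map_sub, ← IsScalarTower.algebraMap_apply ℂ Hol Mer]

theorem finrank_FT (N : ℕ) [NeZero N] :
    Module.finrank ℂ⟮jT N⟯ (FT N) = Nat.card (QN N) := by
  have : Finite (QN N) := Subgroup.finite_quotient_of_finiteIndex
  apply le_antisymm
  · exact finrank_le_of_poly (jT N) _ (finiteDimensional_FT N) (exists_poly_FT N)
  · exact card_le_finrank_of_embeddings (jT N) (finiteDimensional_FT N) (sigmaT N)
      (sigmaT_injective N) (fun i j a => by rw [sigmaT_algebraMap, sigmaT_algebraMap])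
      (fun i j => by
        rw [sigmaT_apply, sigmaT_apply, iotaT_jT, merAct_algebraMap, merAct_algebraMap, holAct_jH,
          holAct_jH])

end Fermat.Agent.S29
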