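import Fermat.Agent.S29.DDeg

/-!
# S29/DESCENT, piece D-DICT : "all orders on `ℍ` are divisible by `m`" is an algebraic, `Aut ℂ`-stable
condition

For `u ∈ FT N` put
`PD N m u :⟺ ∀ place v of FT N / ℂ, ∀ c, v(j - c) > 0 → m * v(j - c) ∣ EE c * v(u)`,
`EE 0 = 3`, `EE 1728 = 2`, `EE c = 1` otherwise.  (No elliptic points, no cusps, no characters.)

* `PD_of_dvd` [key D-DICT-a].  Let `v, c` be given, `τ₀` from `exists_point c`.
  `S24.exists_embedding (jT N - c) … (ordAt τ₀) (sigmaT N) (sigmaT_injective N) (finrank …)` (exactly as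
  in `S24.ord_jN_sub_eq_one`, `S24/Interior.lean`, incl. `adjoin_sub_const`, `transcendental_sub_const`)
  gives `q` with `v.toValuationSubring = ((ordAt τ₀).comap (sigmaT N q)).valuationSubring`.
  `S24.log_val_eq v _ hi hϖ : log (w f) = v.ord f * log (w ϖ)` for `f ≠ 0`.  With `e = - log (w ϖ)`:
  `EE c = v(j - c) * e` (`sigmaT_jT_sub`), and `log (w u) = log (ordAt (q.out⁻¹ • τ₀) (iotaT N u))`
  (`S24.ordAt_merAct`) is `m * t`.  So `EE c * v(u) = v(j-c) * e * v(u) = - v(j-c) * m * t`.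
* `dvd_of_PD` [key D-DICT-b].  `c = j(τ)`; `S24.exists_place_of_valuationSubring` gives the place `v` with
  valuation ring `((ordAt τ).comap (iotaT N)).valuationSubring` (as in the proof of
  `S24.card_zeroPlaces_eq_card_orbits`: `hex`); `log_val_eq` again: `ord_τ(j - c) = v(j-c) * e`,
  `ord_τ(u) = v(u) * e`; `EE c ∣ ord_τ (j - c)` (`EE_dvd`), say `= EE c * t`; hence
  `v(j-c) * ord_τ(u) = t * EE c * v(u)` is divisible by `t * m * v(j-c)`... so `m ∣ ord_τ u`
  (`v(j-c) > 0`; careful: from `m * v(j-c) ∣ EE c * v(u)` get `m * v(j-c) ∣ v(j-c) * ord_τ u`).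
* `PD_galT` [key D-DICT-c] : `v' = (semT N s)⁻¹ • v`, `SemilinearAut.ord_smul`, `galT_jT`,
  `galT_algebraMap`, `EE (s c) = EE c`.
-/

set_option autoImplicit false

open UpperHalfPlane ModularForm ModularFormClass ModularCurve AlgebraicCurve CongruenceSubgroup
open Fermat.Agent.S24 IntermediateField WithZero
open scoped MatrixGroups Manifold

noncomputable section

namespace Fermat.Agent.S29

/-- the ramification index of `ℍ → j`-line over `c` -/
def EE (c : ℂ) : ℤ := if c = 0 then 3 else if c = 1728 then 2 else 1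

theorem EE_pos (c : ℂ) : 0 < EE c := by
  unfold EE; split_ifs <;> norm_num

theorem EE_map (s : ℂ ≃ₐ[ℚ] ℂ) (c : ℂ) : EE (s c) = EE c := by
  have h0 : s c = 0 ↔ c = 0 := map_eq_zero_iff s s.injective
  have h1 : s c = 1728 ↔ c = 1728 := by
    constructor
    · intro h
      apply s.injective
      rw [h, map_ofNat]
    · intro h
      rw [h, map_ofNat]
  unfold EE
  simp only [h0, h1]

/-- there is a point over `c` where `j - c` vanishes to order exactly `EE c` -/
theorem exists_point (c : ℂ) :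
    ∃ τ : ℍ, holVal τ (jH - algebraMap ℂ Hol c) = exp (-(EE c)) := by
  by_cases h0 : c = 0
  · refine ⟨rho, ?_⟩
    rw [h0, map_zero, sub_zero, holVal_jH_rho]
    simp [EE]
  · by_cases h1 : c = 1728
    · refine ⟨I, ?_⟩
      rw [h1, holVal_jH_sub_I]
      simp [EE]
    · obtain ⟨τ, hτ⟩ := exists_jH_eq c
      refine ⟨τ, ?_⟩
      have := holVal_jH_sub τ (by rw [hτ]; exact h0) (by rw [hτ]; exact h1)
      rw [hτ] at this
      rw [this]
      simp [EE, h0, h1]

/-- `j - j(τ)` vanishes at `τ` to an order divisible by `EE (j τ)` -/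
theorem EE_dvd (τ : ℍ) :
    holVal τ (jH - algebraMap ℂ Hol ((jH : ℍ → ℂ) τ)) < 1 ∧
    EE ((jH : ℍ → ℂ) τ) ∣ log (holVal τ (jH - algebraMap ℂ Hol ((jH : ℍ → ℂ) τ))) := by
  constructor
  · refine lt_of_le_of_ne (holVal_le_one τ _) fun h => ?_
    rw [holVal_eq_one_iff] at h
    apply h
    show (jH : ℍ → ℂ) τ - (jH : ℍ → ℂ) τ = 0
    exact sub_self _
  · by_cases h0 : (jH : ℍ → ℂ) τ = 0
    · have h3 : holVal τ jH = holVal τ E4H ^ 3 := by
        rw [← map_pow, ← jH_mul_DeltaH, map_mul, holVal_DeltaH, mul_one]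
      rw [h0, map_zero, sub_zero, h3, WithZero.log_pow]
      exact ⟨log (holVal τ E4H), by simp [EE]⟩
    · by_cases h1 : (jH : ℍ → ℂ) τ = 1728
      · have h3 : holVal τ (jH - algebraMap ℂ Hol 1728) = holVal τ E6H ^ 2 := by
          rw [← map_pow, ← jH_sub_mul_DeltaH, map_mul, holVal_DeltaH, mul_one]
        rw [h1, h3, WithZero.log_pow]
        exact ⟨log (holVal τ E6H), by simp [EE]⟩
      · simp [EE, h0, h1]

theorem finiteDimensional_subT (N : ℕ) [NeZero N] (c : ℂ) :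
    FiniteDimensional ℂ⟮jT N - algebraMap ℂ (FT N) c⟯ (FT N) := by
  rw [adjoin_sub_const]
  exact finiteDimensional_FT N

theorem finrank_subT (N : ℕ) [NeZero N] (c : ℂ) :
    Module.finrank ℂ⟮jT N - algebraMap ℂ (FT N) c⟯ (FT N) = Nat.card (QN N) := by
  rw [adjoin_sub_const]
  exact finrank_FT N

/-- the algebraic form of "all orders on `ℍ` are divisible by `m`" -/
def PD (N m : ℕ) [NeZero N] (u : FT N) : Prop :=
  ∀ (v : Place ℂ (FT N)) (c : ℂ), 0 < v.ord (jT N - algebraMap ℂ (FT N) c) →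
    (m : ℤ) * v.ord (jT N - algebraMap ℂ (FT N) c) ∣ EE c * v.ord u

theorem PD_of_dvd (N m : ℕ) [NeZero N] (u : FT N) (hu : u ≠ 0)
    (h : ∀ τ : ℍ, (m : ℤ) ∣ log (ordAt τ (iotaT N u))) : PD N m u := by
  intro v c hv
  obtain ⟨τ₀, hτ₀⟩ := exists_point c
  have hlt : holVal τ₀ (jH - algebraMap ℂ Hol c) < 1 := by
    rw [hτ₀, ← WithZero.exp_zero, WithZero.exp_lt_exp]
    have := EE_pos c
    omega
  have hy := transcendental_sub_const (jT N) c (transcendental_jT N)
  have hy0 : jT N - algebraMap ℂ (FT N) c ≠ 0 := by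
    intro h0
    rw [h0] at hy
    exact hy isAlgebraic_zero
  obtain ⟨q, hq⟩ := exists_embedding (jT N - algebraMap ℂ (FT N) c) hy
    (finiteDimensional_subT N c) (ordAt τ₀) (sigmaT N) (sigmaT_injective N) (finrank_subT N c).symm
    (fun i j a => by rw [sigmaT_algebraMap, sigmaT_algebraMap])
    (fun i j => by rw [sigmaT_jT_sub, sigmaT_jT_sub])
    (fun i a => by rw [sigmaT_algebraMap]; exact ordAt_const _ _)
    (fun i => by rw [sigmaT_jT_sub, ordAt_algebraMap]; exact hlt) v hv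
  obtain ⟨ϖ, hϖ⟩ := IsDiscreteValuationRing.exists_irreducible v.toValuationSubring
  have h1 := log_val_eq v ((ordAt τ₀).comap (sigmaT N q)) hq hϖ hy0
  rw [Valuation.comap_apply, sigmaT_jT_sub, ordAt_algebraMap, hτ₀, log_exp] at h1
  have h2 := log_val_eq v ((ordAt τ₀).comap (sigmaT N q)) hq hϖ hu
  rw [Valuation.comap_apply, sigmaT_apply, ordAt_merAct] at h2
  obtain ⟨t, ht⟩ := h (q.out⁻¹ • τ₀)
  rw [ht] at h2
  refine ⟨-t, ?_⟩
  set e := log (((ordAt τ₀).comap (sigmaT N q)) (ϖ : FT N)) with he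
  have h3 : EE c = -(v.ord (jT N - algebraMap ℂ (FT N) c) * e) := by rw [← h1]; ring
  rw [h3]
  linear_combination (v.ord (jT N - algebraMap ℂ (FT N) c)) * h2

theorem dvd_of_PD (N m : ℕ) [NeZero N] (u : FT N) (hu : u ≠ 0) (h : PD N m u) (τ : ℍ) :
    (m : ℤ) ∣ log (ordAt τ (iotaT N u)) := by
  set c := (jH : ℍ → ℂ) τ with hc
  obtain ⟨hlt, t, ht⟩ := EE_dvd τ
  rw [← hc] at hlt ht
  have hy := transcendental_sub_const (jT N) c (transcendental_jT N)
  have hy0 : jT N - algebraMap ℂ (FT N) c ≠ 0 := by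
    intro h0
    rw [h0] at hy
    exact hy isAlgebraic_zero
  set w := (ordAt τ).comap (iotaT N) with hw
  have hwy : w (jT N - algebraMap ℂ (FT N) c) = holVal τ (jH - algebraMap ℂ Hol c) := by
    rw [hw, Valuation.comap_apply, RingHom.map_sub, iotaT_jT, iotaT_algebraMap,
      IsScalarTower.algebraMap_apply ℂ Hol Mer, ← RingHom.map_sub, ordAt_algebraMap]
  obtain ⟨v, hv⟩ := exists_place_of_valuationSubring (jT N - algebraMap ℂ (FT N) c) hy
    (finiteDimensional_subT N c) w.valuationSubring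
    (by
      intro htop
      have h1 : (jT N - algebraMap ℂ (FT N) c)⁻¹ ∈ w.valuationSubring := by
        rw [htop]; exact ValuationSubring.mem_top _
      rw [Valuation.mem_valuationSubring_iff, map_inv₀, hwy] at h1
      have h0 : holVal τ (jH - algebraMap ℂ Hol c) ≠ 0 := by
        rw [← hwy]; exact (Valuation.ne_zero_iff _).mpr hy0
      have h2 : 1 ≤ holVal τ (jH - algebraMap ℂ Hol c) := by
        have := mul_le_mul_left h1 (holVal τ (jH - algebraMap ℂ Hol c))
        rwa [inv_mul_cancel₀ h0, one_mul] at this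
      exact absurd hlt (not_lt.mpr h2))
    (fun a => by
      rw [Valuation.mem_valuationSubring_iff, hw, Valuation.comap_apply, iotaT_algebraMap]
      exact ordAt_const _ _)
    (by rw [Valuation.mem_valuationSubring_iff, hwy]; exact hlt.le)
  obtain ⟨ϖ, hϖ⟩ := IsDiscreteValuationRing.exists_irreducible v.toValuationSubring
  have he := log_val_irreducible_neg v w hv hϖ
  have h1 := log_val_eq v w hv hϖ hy0
  have h2 := log_val_eq v w hv hϖ hu
  set e := log (w (ϖ : FT N)) with hedef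
  rw [hwy, ht] at h1
  have hneg : log (holVal τ (jH - algebraMap ℂ Hol c)) < 0 := by
    have h0 : holVal τ (jH - algebraMap ℂ Hol c) ≠ 0 := by
      rw [← hwy]; exact (Valuation.ne_zero_iff _).mpr hy0
    rw [← WithZero.log_one, WithZero.log_lt_log h0 one_ne_zero]
    exact hlt
  rw [ht, h1] at hneg
  have hpos : 0 < v.ord (jT N - algebraMap ℂ (FT N) c) := by
    by_contra hle
    have : 0 ≤ v.ord (jT N - algebraMap ℂ (FT N) c) * e :=
      mul_nonneg_of_nonpos_of_nonpos (not_lt.mp hle) he.le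
    omega
  obtain ⟨s, hs⟩ := h v c hpos
  have h3 : log (ordAt τ (iotaT N u)) = v.ord u * e := h2
  rw [h3]
  refine ⟨s * t, ?_⟩
  apply mul_left_cancel₀ (EE_pos c).ne'
  linear_combination e * hs + (m : ℤ) * s * h1.symm

theorem PD_galT (N m : ℕ) [NeZero N] (s : ℂ ≃ₐ[ℚ] ℂ) (u : FT N) (h : PD N m u) :
    PD N m (galT N s u) := by
  intro v c hv
  have e1 : ∀ f : FT N, v.ord (galT N s f) = ((semT N s)⁻¹ • v).ord f := by
    intro f
    have := SemilinearAut.ord_smul (semT N s) ((semT N s)⁻¹ • v) f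
    rwa [smul_inv_smul, semT_smul] at this
  have e2 : jT N - algebraMap ℂ (FT N) c = galT N s (jT N - algebraMap ℂ (FT N) (s.symm c)) := by
    rw [map_sub, galT_jT, galT_algebraMap, AlgEquiv.apply_symm_apply]
  rw [e2, e1] at hv
  have h1 := h ((semT N s)⁻¹ • v) (s.symm c) hv
  rw [e2, e1, e1]
  have e3 : EE c = EE (s.symm c) := by
    conv_lhs => rw [← s.apply_symm_apply c]
    exact EE_map s _
  rw [e3]
  exact h1

/-- bridge between `analyticOrderAt` and `ordAt` -/
theorem dvd_analyticOrderAt_iff (m : ℕ) (F : Hol) (hF : F ≠ 0) (τ : ℍ) :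
    (m : ℕ∞) ∣ analyticOrderAt ((F : ℍ → ℂ) ∘ ofComplex) (τ : ℂ) ↔
      (m : ℤ) ∣ log (ordAt τ (algebraMap Hol Mer F)) := by
  have han := MerAux.analyticAt_hol τ F
  have hne : holOrd τ F ≠ ⊤ := fun h => hF ((holOrd_eq_top_iff τ F).mp h)
  have hord : holOrd τ F = (analyticOrderAt ((F : ℍ → ℂ) ∘ ofComplex) (τ : ℂ)).map (↑) :=
    han.meromorphicOrderAt_eq
  obtain ⟨n, hn⟩ : ∃ n : ℕ, analyticOrderAt ((F : ℍ → ℂ) ∘ ofComplex) (τ : ℂ) = n := by
    induction h : analyticOrderAt ((F : ℍ → ℂ) ∘ ofComplex) (τ : ℂ) using ENat.recTopCoe with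
    | top =>
      rw [h] at hord
      exact absurd hord hne
    | coe n => exact ⟨n, rfl⟩
  rw [hn] at hord
  rw [hn, ordAt_algebraMap, holVal_apply, MerAux.log_expNeg, hord]
  have e : ((ENat.map (Nat.cast : ℕ → ℤ) (n : ℕ∞)) : WithTop ℤ).untop₀ = (n : ℤ) := rfl
  rw [e, dvd_neg, Int.natCast_dvd_natCast]
  constructor
  · intro h
    by_cases hm : m = 0
    · subst hm
      rw [Nat.cast_zero, zero_dvd_iff] at h
      have : n = 0 := by exact_mod_cast h
      rw [this]
    · obtain ⟨c, hc⟩ := h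
      induction c using ENat.recTopCoe with
      | top =>
        rw [ENat.mul_top (by exact_mod_cast hm)] at hc
        exact absurd hc (ENat.natCast_ne_top n)
      | coe k => exact ⟨k, by exact_mod_cast hc⟩
  · rintro ⟨k, rfl⟩
    exact ⟨(k : ℕ∞), by push_cast; rfl⟩

/-- **D-DICT**: divisibility of all orders on `ℍ` is preserved by conjugation of cusp forms.
[key D-DICT-c; `G = 0` trivial; `X` from `exists_FT_of_cuspForm`; `ordAt τ (Δ ^ K) = 1`
(`S24.holVal_DeltaH`); `PD_of_dvd`, `PD_galT`, `dvd_of_PD`, `iotaT_galT_mul`.] -/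
theorem dvd_ord_conj (N : ℕ) [NeZero N] (m K : ℕ) (s : ℂ ≃ₐ[ℚ] ℂ)
    (G φ : CuspForm (Gamma0 N : Subgroup (GL (Fin 2) ℝ)) (12 * K))
    (hφ : qExpansion 1 φ = (qExpansion 1 G).map (s : ℂ →+* ℂ))
    (hG : ∀ z : ℍ, (m : ℕ∞) ∣ analyticOrderAt ((G : ℍ → ℂ) ∘ ofComplex) (z : ℂ)) :
    ∀ z : ℍ, (m : ℕ∞) ∣ analyticOrderAt ((φ : ℍ → ℂ) ∘ ofComplex) (z : ℂ) := by
  intro z
  obtain ⟨X, hX⟩ := exists_FT_of_cuspForm N K G
  have hX' := iotaT_galT_mul N s K G φ hφ X hX
  have hΔ : ∀ τ : ℍ, ordAt τ (algebraMap Hol Mer (DelH ^ K)) = 1 := by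
    intro τ
    have : holVal τ DelH = 1 := holVal_DeltaH τ
    rw [ordAt_algebraMap, map_pow, this, one_pow]
  by_cases hX0 : X = 0
  · -- then `φ = 0`
    rw [hX0, map_zero, map_zero, zero_mul] at hX'
    have hφ0 : (⟨φ, φ.holo'⟩ : Hol) = 0 :=
      (map_eq_zero_iff _ (IsFractionRing.injective Hol Mer)).mp hX'.symm
    have hφ1 : (φ : ℍ → ℂ) = 0 := congrArg Subtype.val hφ0
    have h2 : analyticOrderAt ((φ : ℍ → ℂ) ∘ ofComplex) (z : ℂ) = ⊤ := by
      rw [hφ1]
      exact analyticOrderAt_eq_top.mpr (Filter.Eventually.of_forall fun _ => rfl)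
    rw [h2]
    exact ⟨⊤, by
      by_cases hm : m = 0
      · subst hm
        exfalso
        have h3 := hG z
        rw [Nat.cast_zero, zero_dvd_iff] at h3
        have hG0 : (⟨G, G.holo'⟩ : Hol) = 0 := by
          rw [hX0, map_zero, zero_mul] at hX
          exact (map_eq_zero_iff _ (IsFractionRing.injective Hol Mer)).mp hX.symm
        have hG1 : (G : ℍ → ℂ) = 0 := congrArg Subtype.val hG0
        have h4 : analyticOrderAt ((G : ℍ → ℂ) ∘ ofComplex) (z : ℂ) = ⊤ := by
          rw [hG1]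
          exact analyticOrderAt_eq_top.mpr (Filter.Eventually.of_forall fun _ => rfl)
        rw [h4] at h3
        exact ENat.top_ne_zero h3
      · rw [ENat.mul_top (by exact_mod_cast hm)]⟩
  · have hG0 : (⟨G, G.holo'⟩ : Hol) ≠ 0 := by
      intro h0
      rw [h0, map_zero] at hX
      rcases mul_eq_zero.mp hX with h1 | h1
      · exact hX0 ((map_eq_zero (iotaT N)).mp h1)
      · have := hΔ z
        rw [h1, map_zero] at this
        exact zero_ne_one this
    have hgX0 : galT N s X ≠ 0 := fun h0 => hX0 ((map_eq_zero_iff _ (galT N s).injective).mp h0)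
    have hφ0 : (⟨φ, φ.holo'⟩ : Hol) ≠ 0 := by
      intro h0
      rw [h0, map_zero] at hX'
      rcases mul_eq_zero.mp hX' with h1 | h1
      · exact hgX0 ((map_eq_zero (iotaT N)).mp h1)
      · have := hΔ z
        rw [h1, map_zero] at this
        exact zero_ne_one this
    have h1 : ∀ τ : ℍ, (m : ℤ) ∣ log (ordAt τ (iotaT N X)) := by
      intro τ
      have h2 := (dvd_analyticOrderAt_iff m ⟨G, G.holo'⟩ hG0 τ).mp (hG τ)
      rwa [← hX, map_mul, hΔ, mul_one] at h2
    have h3 := dvd_of_PD N m _ hgX0 (PD_galT N m s X (PD_of_dvd N m X hX0 h1)) z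
    refine (dvd_analyticOrderAt_iff m ⟨φ, φ.holo'⟩ hφ0 z).mpr ?_
    rwa [← hX', map_mul, hΔ, mul_one]

end Fermat.Agent.S29
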