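import Fermat.Agent.S29.DQRel
import Fermat.Agent.IntStruct.Galois
import Fermat.Agent.S20.Basic
import Fermat.Agent.S24.DegreeUpper
import Fermat.Prelude.Def_ModularCurve_X0ModL

/-!
# S29/DESCENT, piece D-FIELD : auxiliary lemmas (helper18)
-/

set_option autoImplicit false

open UpperHalfPlane ModularForm ModularFormClass ModularCurve AlgebraicCurve CongruenceSubgroup
open Fermat.Agent.S24
open scoped MatrixGroups Manifold

noncomputable section

namespace Fermat.Agent.S29.DFieldAux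

theorem algebraMap_ne_zero {B : Hol} (hB : B ≠ 0) : algebraMap Hol Mer B ≠ 0 := fun h =>
  hB (IsFractionRing.injective Hol Mer (h.trans (map_zero _).symm))

theorem qRel_div (A B : Hol) (hA : IsQ (A : ℍ → ℂ)) (hB : IsQ (B : ℍ → ℂ)) :
    QRel (algebraMap Hol Mer A / algebraMap Hol Mer B)
      (ofPS (qExpansion 1 (A : ℍ → ℂ)) / ofPS (qExpansion 1 (B : ℍ → ℂ))) :=
  (QRel.of_isQ A hA).div (QRel.of_isQ B hB)

theorem qRel_of_mul {x : Mer} (A B : Hol) (hA : IsQ (A : ℍ → ℂ)) (hB : IsQ (B : ℍ → ℂ))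
    (hB0 : B ≠ 0) (h : x * algebraMap Hol Mer B = algebraMap Hol Mer A) :
    QRel x (ofPS (qExpansion 1 (A : ℍ → ℂ)) / ofPS (qExpansion 1 (B : ℍ → ℂ))) := by
  rw [(eq_div_iff (algebraMap_ne_zero hB0)).mpr h]
  exact qRel_div A B hA hB

theorem ofPS_injective : Function.Injective ofPS := HahnSeries.ofPowerSeries_injective

theorem map_injective (s : ℂ →+* ℂ) : Function.Injective (PowerSeries.map s) :=
  PowerSeries.map_injective s s.injective

/-- `Δ` as a function-level cusp form on `Γ₀(N)` -/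
theorem isCF_disc (N : ℕ) : S20.IsCF (Gamma0 N) 12 (discriminant : ℍ → ℂ) :=
  have h := S20.isCF_top_of_cuspForm CuspForm.discriminant
  ⟨h.holo, fun γ _ => h.inv γ trivial, h.zero⟩

theorem nice_disc : IntStruct.Nice (discriminant : ℍ → ℂ) :=
  IntStruct.nice_of_modularFormClass one_mem_strictPeriods_SL CuspForm.discriminant

theorem disc_ne_zero : (discriminant : ℍ → ℂ) ≠ 0 := fun h =>
  discriminant_ne_zero UpperHalfPlane.I (congrFun h _)

theorem qExp_disc_ne_zero : qExpansion 1 (discriminant : ℍ → ℂ) ≠ 0 := fun h =>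
  disc_ne_zero (nice_disc.eq_zero h)

/-- conjugating a modular form times `Δ` -/
theorem exists_conj_mul (N : ℕ) [NeZero N] (s : ℂ →+* ℂ) (m : ℕ)
    (F : ModularForm (Gamma0 N : Subgroup (GL (Fin 2) ℝ)) (12 * m)) :
    ∃ F' : ModularForm (Gamma0 N : Subgroup (GL (Fin 2) ℝ)) (12 * ((m + 1 : ℕ) : ℤ)),
      qExpansion 1 F' = (qExpansion 1 (discriminant : ℍ → ℂ)).map s * (qExpansion 1 F).map s := by
  have hΓ := CongruenceSubgroup.one_mem_strictPeriods_Gamma0 N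
  have h1 : S20.IsCF (Gamma0 N) (12 * ((m + 1 : ℕ) : ℤ)) ((discriminant : ℍ → ℂ) * F) :=
    ((isCF_disc N).mul_isMF (S20.isMF_of_modularForm F)).weight_cast (by push_cast; ring)
  obtain ⟨φ, hφ⟩ := IntStruct.exists_cuspForm_map N s h1.toCuspForm
  refine ⟨(S20.isCF_of_cuspForm φ).isMF.toModularForm, ?_⟩
  rw [S20.IsMF.coe_toModularForm, hφ, S20.IsCF.coe_toCuspForm,
    nice_disc.qExp_mul (IntStruct.nice_of_modularFormClass hΓ F), map_mul]

theorem ofPS_map_ne_zero (s : ℂ →+* ℂ) {p : PowerSeries ℂ} (hp : p ≠ 0) :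
    ofPS (p.map s) ≠ 0 := fun h =>
  hp (map_injective s (ofPS_injective (h.trans (map_zero _).symm) |>.trans (map_zero _).symm))

theorem exists_conj_quot (N : ℕ) [NeZero N] (s : ℂ →+* ℂ) (m : ℕ)
    (Fa Fb : ModularForm (Gamma0 N : Subgroup (GL (Fin 2) ℝ)) (12 * m)) (hb : mfHol Fb ≠ 0) :
    ∃ Fa' Fb' : ModularForm (Gamma0 N : Subgroup (GL (Fin 2) ℝ)) (12 * ((m + 1 : ℕ) : ℤ)),
      mfHol Fb' ≠ 0 ∧
      ofPS (qExpansion 1 Fa') / ofPS (qExpansion 1 Fb') =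
        coeffMap s (ofPS (qExpansion 1 Fa) / ofPS (qExpansion 1 Fb)) := by
  have hΓ := CongruenceSubgroup.one_mem_strictPeriods_Gamma0 N
  obtain ⟨Fa', ha'⟩ := exists_conj_mul N s m Fa
  obtain ⟨Fb', hb'⟩ := exists_conj_mul N s m Fb
  have hqb : qExpansion 1 Fb ≠ 0 := fun h =>
    hb (Subtype.ext ((IntStruct.nice_of_modularFormClass hΓ Fb).eq_zero h))
  refine ⟨Fa', Fb', ?_, ?_⟩
  · intro h
    have h1 : (Fb' : ℍ → ℂ) = 0 := congrArg Subtype.val h
    rw [h1, qExpansion_zero] at hb'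
    have h2 := congrArg ofPS hb'
    rw [map_zero, map_mul] at h2
    exact mul_ne_zero (ofPS_map_ne_zero s qExp_disc_ne_zero) (ofPS_map_ne_zero s hqb) h2.symm
  · rw [ha', hb', map_mul, map_mul, mul_div_mul_left _ _ (ofPS_map_ne_zero s qExp_disc_ne_zero),
      map_div₀, coeffMap_ofPowerSeries, coeffMap_ofPowerSeries]

/-- `Δ ^ K` -/
theorem qRel_DelH_pow (K : ℕ) :
    QRel (algebraMap Hol Mer (DelH ^ K)) (ofPS (delS ℂ) ^ K) := by
  rw [map_pow, ← qExpansion_DelH]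
  exact (QRel.of_isQ DelH isQ_DelH).pow K

theorem DelH_ne_zero : DelH ≠ 0 := fun h => disc_ne_zero (congrArg Subtype.val h)

theorem isMFH_DelH_pow (N : ℕ) [NeZero N] (K : ℕ) :
    IsMFH (Gamma0 N) (12 * K) (DelH ^ K) := by
  have hΔ : IsMFH (CongruenceSubgroup.Gamma0 N) 12 DelH :=
    IsMFH.of_levelOne N (CuspForm.discriminant : ModularForm 𝒮ℒ 12)
  have h := hΔ.pow K
  rwa [mul_comm] at h

theorem isQ_cuspForm (N : ℕ) [NeZero N] {k : ℤ}
    (G : CuspForm (Gamma0 N : Subgroup (GL (Fin 2) ℝ)) k) : IsQ (G : ℍ → ℂ) :=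
  isQ_of_modularForm_Gamma0 N (S20.isCF_of_cuspForm G).isMF.toModularForm

/-- `G / Δ ^ K` -/
theorem qRel_cuspForm_div (N : ℕ) [NeZero N] {k : ℤ} (K : ℕ)
    (G : CuspForm (Gamma0 N : Subgroup (GL (Fin 2) ℝ)) k) {x : Mer}
    (hx : x * algebraMap Hol Mer (DelH ^ K) = algebraMap Hol Mer ⟨G, G.holo'⟩) :
    QRel x (ofPS (qExpansion 1 G) / ofPS (delS ℂ) ^ K) := by
  rw [(eq_div_iff (algebraMap_ne_zero (pow_ne_zero K DelH_ne_zero))).mpr hx]
  exact (QRel.of_isQ ⟨G, G.holo'⟩ (isQ_cuspForm N G)).div (qRel_DelH_pow K)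

end Fermat.Agent.S29.DFieldAux
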