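import Fermat.Agent.S29.DQRel
import Fermat.Agent.IntStruct.Galois
import Fermat.Agent.S29.DFieldAux

/-!
# S29/DESCENT, piece D-FIELD : the field `FT N ⊆ ℂ((q))` of `q`-expansions of quotients of modular forms

`FT N = {X | ∃ x, IsQuot N x ∧ QRel x X}`, with the analytic realisation `iotaT N : FT N →+* Mer`
(range = `{x | IsQuot N x}`) and the coefficientwise action of `Aut ℂ`.

* `coeffMap_mem_FT` : `X = qexp a / qexp b`, `a, b` modular forms of weight `12 m` on `Γ₀(N)`; `a Δ`, `b Δ`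
  are cusp forms of weight `12 (m+1)`; `IntStruct.exists_cuspForm_map` gives cusp forms `a'`, `b'` with
  `qexp a' = s (qexp (a Δ))`, `qexp b' = s (qexp (b Δ)) ≠ 0`; `x' = a' / b'` is `IsQuot` and
  `QRel x' (coeffMap s X)` (`coeffMap s ∘ ofPS = ofPS ∘ PowerSeries.map s`).
* `iotaT_galT_mul` : same computation.
-/

set_option autoImplicit false

open UpperHalfPlane ModularForm ModularFormClass ModularCurve AlgebraicCurve CongruenceSubgroup
open Fermat.Agent.S24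
open scoped MatrixGroups Manifold

noncomputable section

namespace Fermat.Agent.S29

/-- the field of `q`-expansions of quotients of modular forms of equal weight on `Γ₀(N)` -/
def FT (N : ℕ) : IntermediateField ℂ (LaurentSeries ℂ) where
  carrier := {X | ∃ x, IsQuot N x ∧ QRel x X}
  mul_mem' := by
    rintro _ _ ⟨x, hx, hX⟩ ⟨y, hy, hY⟩
    exact ⟨x * y, hx.mul hy, hX.mul hY⟩
  add_mem' := by
    rintro _ _ ⟨x, hx, hX⟩ ⟨y, hy, hY⟩
    exact ⟨x + y, hx.add hy, hX.add hY⟩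
  algebraMap_mem' := fun c => ⟨_, IsQuot.const N c, QRel.const c⟩
  inv_mem' := by
    rintro _ ⟨x, hx, hX⟩
    exact ⟨x⁻¹, hx.inv, hX.inv⟩

theorem mem_FT {N : ℕ} {X : LaurentSeries ℂ} : X ∈ FT N ↔ ∃ x, IsQuot N x ∧ QRel x X := Iff.rfl

/-- the analytic realisation, as a function -/
def iotaFun (N : ℕ) (X : FT N) : Mer := (mem_FT.mp X.2).choose

theorem isQuot_iotaFun (N : ℕ) (X : FT N) : IsQuot N (iotaFun N X) :=
  (mem_FT.mp X.2).choose_spec.1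

theorem qRel_iotaFun (N : ℕ) (X : FT N) : QRel (iotaFun N X) (X : LaurentSeries ℂ) :=
  (mem_FT.mp X.2).choose_spec.2

/-- the analytic realisation -/
def iotaT (N : ℕ) : FT N →+* Mer where
  toFun := iotaFun N
  map_one' := (qRel_iotaFun N 1).unique_left QRel.one
  map_mul' X Y := (qRel_iotaFun N (X * Y)).unique_left ((qRel_iotaFun N X).mul (qRel_iotaFun N Y))
  map_zero' := (qRel_iotaFun N 0).unique_left QRel.zero
  map_add' X Y := (qRel_iotaFun N (X + Y)).unique_left ((qRel_iotaFun N X).add (qRel_iotaFun N Y))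

theorem isQuot_iotaT (N : ℕ) (X : FT N) : IsQuot N (iotaT N X) := isQuot_iotaFun N X

theorem qRel_iotaT (N : ℕ) (X : FT N) : QRel (iotaT N X) (X : LaurentSeries ℂ) := qRel_iotaFun N X

theorem iotaT_eq {N : ℕ} {X : FT N} {x : Mer} (h : QRel x (X : LaurentSeries ℂ)) : iotaT N X = x :=
  (qRel_iotaT N X).unique_left h

theorem iotaT_algebraMap (N : ℕ) (c : ℂ) :
    iotaT N (algebraMap ℂ (FT N) c) = algebraMap ℂ Mer c :=
  iotaT_eq (QRel.const c)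

theorem exists_of_isQuot (N : ℕ) [NeZero N] (x : Mer) (hx : IsQuot N x) :
    ∃ X : FT N, iotaT N X = x := by
  obtain ⟨X, hX⟩ := exists_qRel_of_isQuot N x hx
  exact ⟨⟨X, x, hx, hX⟩, iotaT_eq hX⟩

/-- the function field over `ℚ̄` inside `FT N` -/
def mapFN (N : ℕ) [NeZero N] : FN N →+* FT N where
  toFun y := ⟨coeffMap kappa (y : LaurentSeries Kb), iota N y, isQuot_iota N y, qRel_iota N y⟩
  map_one' := Subtype.ext (map_one (coeffMap kappa))
  map_mul' x y := Subtype.ext (map_mul (coeffMap kappa) _ _)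
  map_zero' := Subtype.ext (map_zero (coeffMap kappa))
  map_add' x y := Subtype.ext (map_add (coeffMap kappa) _ _)

theorem coe_mapFN (N : ℕ) [NeZero N] (y : FN N) :
    ((mapFN N y : FT N) : LaurentSeries ℂ) = coeffMap kappa (y : LaurentSeries Kb) := rfl

theorem iotaT_mapFN (N : ℕ) [NeZero N] (y : FN N) : iotaT N (mapFN N y) = iota N y :=
  iotaT_eq (qRel_iota N y)

/-- `j` -/
def jT (N : ℕ) [NeZero N] : FT N := mapFN N (jN N)

theorem iotaT_jT (N : ℕ) [NeZero N] : iotaT N (jT N) = algebraMap Hol Mer jH := by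
  rw [jT, iotaT_mapFN, iota_jN]

/-- `Aut ℂ` preserves `FT N` -/
theorem coeffMap_mem_FT (N : ℕ) [NeZero N] (s : ℂ ≃ₐ[ℚ] ℂ) {X : LaurentSeries ℂ} (hX : X ∈ FT N) :
    coeffMap (s : ℂ →+* ℂ) X ∈ FT N := by
  obtain ⟨x, ⟨m, a, b, ⟨Fa, rfl⟩, ⟨Fb, rfl⟩, hb0, hx⟩, hX⟩ := hX
  have h1 := DFieldAux.qRel_of_mul (mfHol Fa) (mfHol Fb) (isQ_of_modularForm_Gamma0 N Fa)
    (isQ_of_modularForm_Gamma0 N Fb) hb0 hx
  have hXe := hX.unique_right h1
  obtain ⟨Fa', Fb', hb', he⟩ := DFieldAux.exists_conj_quot N (s : ℂ →+* ℂ) m Fa Fb hb0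
  refine ⟨algebraMap Hol Mer (mfHol Fa') / algebraMap Hol Mer (mfHol Fb'),
    ⟨m + 1, mfHol Fa', mfHol Fb', ⟨Fa', rfl⟩, ⟨Fb', rfl⟩, hb',
      div_mul_cancel₀ _ (DFieldAux.algebraMap_ne_zero hb')⟩, ?_⟩
  rw [hXe]
  have h2 := DFieldAux.qRel_div (mfHol Fa') (mfHol Fb') (isQ_of_modularForm_Gamma0 N Fa')
    (isQ_of_modularForm_Gamma0 N Fb')
  exact he ▸ h2

/-- the action of `Aut ℂ` on `FT N` -/
def galT (N : ℕ) [NeZero N] (s : ℂ ≃ₐ[ℚ] ℂ) : FT N ≃+* FT N where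
  toFun x := ⟨coeffMap (s : ℂ →+* ℂ) (x : LaurentSeries ℂ), coeffMap_mem_FT N s x.2⟩
  invFun x := ⟨coeffMap (s.symm : ℂ →+* ℂ) (x : LaurentSeries ℂ), coeffMap_mem_FT N s.symm x.2⟩
  left_inv x := Subtype.ext <| by
    show coeffMap (s.symm : ℂ →+* ℂ) (coeffMap (s : ℂ →+* ℂ) (x : LaurentSeries ℂ))
      = (x : LaurentSeries ℂ)
    rw [coeffMap_coeffMap,
      coeffMap_congr (g := RingHom.id ℂ) (RingHom.ext fun a => s.symm_apply_apply a)
        (x : LaurentSeries ℂ),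
      coeffMap_id]
  right_inv x := Subtype.ext <| by
    show coeffMap (s : ℂ →+* ℂ) (coeffMap (s.symm : ℂ →+* ℂ) (x : LaurentSeries ℂ))
      = (x : LaurentSeries ℂ)
    rw [coeffMap_coeffMap,
      coeffMap_congr (g := RingHom.id ℂ) (RingHom.ext fun a => s.apply_symm_apply a)
        (x : LaurentSeries ℂ),
      coeffMap_id]
  map_mul' x y :=
    Subtype.ext (map_mul (coeffMap (s : ℂ →+* ℂ)) (x : LaurentSeries ℂ) (y : LaurentSeries ℂ))
  map_add' x y :=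
    Subtype.ext (map_add (coeffMap (s : ℂ →+* ℂ)) (x : LaurentSeries ℂ) (y : LaurentSeries ℂ))

theorem coe_galT (N : ℕ) [NeZero N] (s : ℂ ≃ₐ[ℚ] ℂ) (x : FT N) :
    ((galT N s x : FT N) : LaurentSeries ℂ) = coeffMap (s : ℂ →+* ℂ) (x : LaurentSeries ℂ) := rfl

theorem galT_algebraMap (N : ℕ) [NeZero N] (s : ℂ ≃ₐ[ℚ] ℂ) (a : ℂ) :
    galT N s (algebraMap ℂ (FT N) a) = algebraMap ℂ (FT N) (s a) :=
  Subtype.ext (coeffMap_algebraMap (s : ℂ →+* ℂ) a)

/-- the semilinear automorphism of `FT N` attached to `s` -/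
def semT (N : ℕ) [NeZero N] (s : ℂ ≃ₐ[ℚ] ℂ) : SemilinearAut ℂ (FT N) :=
  ⟨(galT N s, s.toRingEquiv), fun a => galT_algebraMap N s a⟩

theorem semT_smul (N : ℕ) [NeZero N] (s : ℂ ≃ₐ[ℚ] ℂ) (x : FT N) : semT N s • x = galT N s x := rfl

/-- `j` has rational coefficients -/
theorem galT_jT (N : ℕ) [NeZero N] (s : ℂ ≃ₐ[ℚ] ℂ) : galT N s (jT N) = jT N := by
  apply Subtype.ext
  show coeffMap (s : ℂ →+* ℂ) (coeffMap kappa (coeffMap (algebraMap ℚ Kb) (qExpand ℚ 1 jq))) =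
    coeffMap kappa (coeffMap (algebraMap ℚ Kb) (qExpand ℚ 1 jq))
  rw [coeffMap_coeffMap, coeffMap_coeffMap, coeffMap_coeffMap]
  exact coeffMap_congr (Subsingleton.elim _ _) _

/-- conjugate cusp forms give conjugate elements of `FT N` -/
theorem iotaT_galT_mul (N : ℕ) [NeZero N] (s : ℂ ≃ₐ[ℚ] ℂ) (K : ℕ)
    (G φ : CuspForm (Gamma0 N : Subgroup (GL (Fin 2) ℝ)) (12 * K))
    (hφ : qExpansion 1 φ = (qExpansion 1 G).map (s : ℂ →+* ℂ)) (X : FT N)
    (hX : iotaT N X * algebraMap Hol Mer (DelH ^ K) = algebraMap Hol Mer ⟨G, G.holo'⟩) :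
    iotaT N (galT N s X) * algebraMap Hol Mer (DelH ^ K) = algebraMap Hol Mer ⟨φ, φ.holo'⟩ := by
  have hΔ := DFieldAux.algebraMap_ne_zero (pow_ne_zero K DFieldAux.DelH_ne_zero)
  have hXe := (qRel_iotaT N X).unique_right (DFieldAux.qRel_cuspForm_div N K G hX)
  have h1 : QRel (algebraMap Hol Mer ⟨φ, φ.holo'⟩ / algebraMap Hol Mer (DelH ^ K))
      (ofPS (qExpansion 1 φ) / ofPS (delS ℂ) ^ K) :=
    DFieldAux.qRel_cuspForm_div N K φ (div_mul_cancel₀ _ hΔ)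
  have h2 : ((galT N s X : FT N) : LaurentSeries ℂ) =
      ofPS (qExpansion 1 φ) / ofPS (delS ℂ) ^ K := by
    rw [coe_galT, hXe, map_div₀, map_pow, coeffMap_ofPowerSeries, coeffMap_ofPowerSeries,
      delS_map, hφ]
  rw [iotaT_eq (h2 ▸ h1), div_mul_cancel₀ _ hΔ]

/-- `G / Δ ^ K ∈ FT N` -/
theorem exists_FT_of_cuspForm (N : ℕ) [NeZero N] (K : ℕ)
    (G : CuspForm (Gamma0 N : Subgroup (GL (Fin 2) ℝ)) (12 * K)) :
    ∃ X : FT N, iotaT N X * algebraMap Hol Mer (DelH ^ K) = algebraMap Hol Mer ⟨G, G.holo'⟩ := by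
  have hΔ := DFieldAux.algebraMap_ne_zero (pow_ne_zero K DFieldAux.DelH_ne_zero)
  obtain ⟨X, hX⟩ := exists_of_isQuot N
    (algebraMap Hol Mer ⟨G, G.holo'⟩ / algebraMap Hol Mer (DelH ^ K))
    ⟨K, ⟨G, G.holo'⟩, DelH ^ K, ⟨(S20.isCF_of_cuspForm G).isMF.toModularForm, rfl⟩,
      DFieldAux.isMFH_DelH_pow N K, pow_ne_zero K DFieldAux.DelH_ne_zero, div_mul_cancel₀ _ hΔ⟩
  exact ⟨X, by rw [hX, div_mul_cancel₀ _ hΔ]⟩

end Fermat.Agent.S29
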