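import Fermat.Agent.S29.Aut

/-!
# S29/ECH : echelon descent

`L` algebraically closed of characteristic `0`, `K ⊆ L`.  A nonzero finite dimensional subspace `V` of
`ι → L` whose conjugates `σ(V)` (`σ ∈ Aut(L/K)` acting coordinatewise) form a finite set contains a
nonzero vector all of whose coordinates are algebraic over `K`.
-/

set_option autoImplicit false

namespace Fermat.Agent.S29
namespace Aut

/-- there is `f ∈ V`, a set `Z` of indices and an index `i₀` such that `f` is the unique element of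
`V` vanishing on `Z` with `f i₀ = 1` -/
theorem exists_rigid {L ι : Type*} [Field L] (V : Submodule L (ι → L)) [FiniteDimensional L V]
    (hV : V ≠ ⊥) :
    ∃ (f : ι → L) (Z : Set ι) (i₀ : ι), f ∈ V ∧ (∀ i ∈ Z, f i = 0) ∧ f i₀ = 1 ∧
      ∀ g ∈ V, (∀ i ∈ Z, g i = 0) → g i₀ = 1 → g = f := by
  classical
  -- the subspaces `V_Z`
  let VZ : Set ι → Submodule L V := fun Z =>
    { carrier := {g | ∀ i ∈ Z, (g : ι → L) i = 0}
      add_mem' := fun {a b} ha hb i hi => by
        show (a : ι → L) i + (b : ι → L) i = 0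
        rw [ha i hi, hb i hi, add_zero]
      zero_mem' := fun i _ => rfl
      smul_mem' := fun c a ha i hi => by
        show c * (a : ι → L) i = 0
        rw [ha i hi, mul_zero] }
  let S : Set (Submodule L V) := {U | U ≠ ⊥ ∧ ∃ Z, U = VZ Z}
  have hS : S.Nonempty := by
    refine ⟨VZ ∅, ?_, ∅, rfl⟩
    intro h
    apply hV
    rw [Submodule.eq_bot_iff]
    intro x hx
    have : (⟨x, hx⟩ : V) ∈ VZ ∅ := fun i hi => absurd hi (Set.notMem_empty i)
    rw [h, Submodule.mem_bot] at this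
    exact congrArg Subtype.val this
  obtain ⟨U, ⟨hU0, Z, rfl⟩, hmin⟩ := (wellFounded_lt (α := Submodule L V)).has_min S hS
  obtain ⟨f, hf, hf0⟩ := Submodule.exists_mem_ne_zero_of_ne_bot hU0
  have hf0' : (f : ι → L) ≠ 0 := fun h => hf0 (Subtype.ext h)
  obtain ⟨i₀, hi₀⟩ := Function.ne_iff.mp hf0'
  have hi₀' : (f : ι → L) i₀ ≠ 0 := hi₀
  have hbot : VZ (insert i₀ Z) = ⊥ := by
    by_contra hne
    apply hmin (VZ (insert i₀ Z)) ⟨hne, _, rfl⟩
    refine lt_of_le_of_ne (fun g hg i hi => hg i (Set.mem_insert_of_mem _ hi)) ?_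
    intro h
    have : f ∈ VZ (insert i₀ Z) := h ▸ hf
    exact hi₀' (this i₀ (Set.mem_insert _ _))
  refine ⟨((f : ι → L) i₀)⁻¹ • (f : ι → L), Z, i₀, V.smul_mem _ f.2, ?_, ?_, ?_⟩
  · intro i hi
    show _ * (f : ι → L) i = 0
    rw [hf i hi, mul_zero]
  · show _ * (f : ι → L) i₀ = 1
    exact inv_mul_cancel₀ hi₀'
  · intro g hg hgZ hg1
    have hmem : (⟨g, hg⟩ - ((f : ι → L) i₀)⁻¹ • f : V) ∈ VZ (insert i₀ Z) := by
      intro i hi
      show g i - ((f : ι → L) i₀)⁻¹ * (f : ι → L) i = 0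
      rcases Set.mem_insert_iff.mp hi with rfl | hi
      · rw [hg1, inv_mul_cancel₀ hi₀', sub_self]
      · rw [hgZ i hi, hf i hi, mul_zero, sub_zero]
    rw [hbot, Submodule.mem_bot, sub_eq_zero] at hmem
    exact congrArg Subtype.val hmem

theorem exists_algebraic_mem {K L ι : Type*} [Field K] [CharZero K] [Field L] [Algebra K L]
    [IsAlgClosed L] (V : Submodule L (ι → L)) [FiniteDimensional L V] (hV : V ≠ ⊥)
    (hfin : (Set.range fun σ : L ≃ₐ[K] L =>
      (fun f : ι → L => fun i => σ (f i)) '' (V : Set (ι → L))).Finite) :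
    ∃ f ∈ V, f ≠ 0 ∧ ∀ i, IsAlgebraic K (f i) := by
  classical
  obtain ⟨f, Z, i₀, hfV, hfZ, hf1, huniq⟩ := exists_rigid V hV
  refine ⟨f, hfV, ?_, ?_⟩
  · intro h
    rw [h] at hf1
    exact zero_ne_one hf1
  intro i
  apply isAlgebraic_of_finite_orbit
  -- `σ (f i)` only depends on `σ(V)`
  have key : ∀ σ τ : L ≃ₐ[K] L,
      (fun f : ι → L => fun i => σ (f i)) '' (V : Set (ι → L)) =
        (fun f : ι → L => fun i => τ (f i)) '' (V : Set (ι → L)) → σ (f i) = τ (f i) := by
    intro σ τ h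
    have h1 : (fun i => σ (f i)) ∈ (fun f : ι → L => fun i => τ (f i)) '' (V : Set (ι → L)) :=
      h ▸ ⟨f, hfV, rfl⟩
    obtain ⟨g, hg, hgf⟩ := h1
    have hgi : ∀ i, τ (g i) = σ (f i) := fun i => congrFun hgf i
    have : g = f := by
      apply huniq g hg
      · intro j hj
        have := hgi j
        rw [hfZ j hj, map_zero] at this
        exact (map_eq_zero τ).mp this
      · have := hgi i₀
        rw [hf1, map_one] at this
        exact (map_eq_one_iff τ τ.injective).mp this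
    rw [← hgi i, this]
  let Φ : Set (ι → L) → L := fun S =>
    if h : ∃ σ : L ≃ₐ[K] L, (fun f : ι → L => fun i => σ (f i)) '' (V : Set (ι → L)) = S
    then h.choose (f i) else 0
  apply (hfin.image Φ).subset
  rintro _ ⟨σ, rfl⟩
  refine ⟨_, ⟨σ, rfl⟩, ?_⟩
  have h : ∃ σ' : L ≃ₐ[K] L, (fun f : ι → L => fun i => σ' (f i)) '' (V : Set (ι → L)) =
      (fun f : ι → L => fun i => σ (f i)) '' (V : Set (ι → L)) := ⟨σ, rfl⟩
  have h2 : Φ ((fun f : ι → L => fun i => σ (f i)) '' (V : Set (ι → L))) = h.choose (f i) :=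
    dif_pos h
  rw [h2]
  exact key _ _ h.choose_spec

end Aut
end Fermat.Agent.S29
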