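import Fermat.Agent.S29.DConj
import Fermat.Agent.S29.Echelon

/-!
# S29/DESCENT, piece D-ORB : a form with character `χ` and algebraic coefficients

`VV N k χ ⊆ (ℕ → ℂ)` : the coefficient vectors of the forms with character `χ`.

* `finiteDimensional_VV` [key D-ORB-FD] (Sturm): put `B = n * ψ(N) + 1`.  If `IsCh N (12 n) χ f` and the
  coefficients `0 .. B - 1` of `f` vanish, then `X ^ B ∣ qexp f`, `X ^ (m B) ∣ qexp (f ^ m)`
  (`qExpansion_pow`/`qExpansion_mul` with `IsQ.analytic`), and `f ^ m` is a modular form of weight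
  `12 (m n)` on `Γ₀(N)` (`IsCh.isCF_pow`), so `f ^ m = 0` by `S24.coeffMap_injective N (m * n)`
  (`m n ψ(N) < m B`), `f = 0`.  So the truncation `VV → (Fin B → ℂ)` is injective.
* `finite_chars` [key D-ORB-FIN]: `Γ₀(N)` is finitely generated (`Subgroup.fg_of_index_ne_zero`,
  `SL(2,ℤ) = ⟨S, T⟩`: `Matrix.SpecialLinearGroup.SL2Z_generators`), a character is determined by its values on the
  generators, which lie in the finite set `rootsOfUnity m ℂ`.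
* `exists_map_VV` [key D-ORB-MAP]: let `v₀ ≠ 0` in `VV χ`, `s v₀ ∈ VV χ'` (`exists_conj`).  For `v ∈ VV χ`:
  if `v = c v₀` fine; otherwise `s v ∈ VV χ₁`, `s (v + v₀) ∈ VV χ₂`, the forms satisfy `g₁ + g' = g₂`
  (`IsQ.eq_of_qExpansion`), apply `∣ γ`: `χ₁(γ) g₁ + χ'(γ) g' = χ₂(γ) (g₁ + g')`, `g₁, g'` independent, so
  `χ₁ = χ₂ = χ'`.  [Or: a vector space over an infinite field is not a finite union of proper subspaces.]
  So `s (VV χ) ⊆ VV χ'`; the same for `s⁻¹` and `χ'` gives `s⁻¹ (VV χ') ⊆ VV χ''`, and `χ'' = χ` by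
  `IsCh.char_unique` applied to `v₀`.
* `exists_algebraic` [key D-ORB-ALG]: `Echelon.exists_algebraic_mem` with `K = ℚ`, `L = ℂ`, `ι = ℕ`.
-/

set_option autoImplicit false

open UpperHalfPlane ModularForm ModularFormClass ModularCurve CongruenceSubgroup Fermat.Agent.S24
open scoped MatrixGroups Manifold

noncomputable section

namespace Fermat.Agent.S29

/-- the coefficient vector -/
def coeffFun (f : ℍ → ℂ) : ℕ → ℂ := fun i => (qExpansion 1 f).coeff i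

theorem coeffFun_add {f g : ℍ → ℂ} (hf : IsQ f) (hg : IsQ g) :
    coeffFun (f + g) = coeffFun f + coeffFun g := by
  funext i
  show (qExpansion 1 (f + g)).coeff i = (qExpansion 1 f).coeff i + (qExpansion 1 g).coeff i
  rw [qExpansion_add hf.analytic hg.analytic, map_add]

theorem coeffFun_smul (c : ℂ) {f : ℍ → ℂ} (hf : IsQ f) : coeffFun (c • f) = c • coeffFun f := by
  funext i
  show (qExpansion 1 (c • f)).coeff i = c • (qExpansion 1 f).coeff i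
  rw [qExpansion_smul hf.analytic, PowerSeries.coeff_smul]

theorem coeffFun_zero : coeffFun 0 = 0 := by
  funext i
  show (qExpansion 1 (0 : ℍ → ℂ)).coeff i = 0
  rw [qExpansion_zero, map_zero]

theorem coeffFun_injective {f g : ℍ → ℂ} (hf : IsQ f) (hg : IsQ g) (h : coeffFun f = coeffFun g) :
    f = g := by
  have h1 : f + (-1 : ℂ) • g = 0 := by
    apply (hf.add (hg.smul (-1))).eq_zero_of_qExpansion
    ext i
    have h2 := congrFun (coeffFun_add hf (hg.smul (-1))) i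
    rw [coeffFun_smul (-1) hg, h] at h2
    rw [map_zero]
    refine h2.trans ?_
    simp
  have h3 : f - g = 0 := by
    rw [← h1]; ext z; simp [sub_eq_add_neg]
  exact sub_eq_zero.mp h3

/-- the space of coefficient vectors of the forms with character `χ` -/
def VV (N : ℕ) (k : ℤ) (χ : Gamma0 N →* ℂˣ) : Submodule ℂ (ℕ → ℂ) where
  carrier := {v | ∃ f, IsCh N k χ f ∧ coeffFun f = v}
  add_mem' := by
    rintro _ _ ⟨f, hf, rfl⟩ ⟨g, hg, rfl⟩
    exact ⟨f + g, hf.add hg, coeffFun_add hf.isQ hg.isQ⟩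
  zero_mem' := ⟨0, IsCh.zero_fun, coeffFun_zero⟩
  smul_mem' := by
    rintro c _ ⟨f, hf, rfl⟩
    exact ⟨c • f, hf.smul c, coeffFun_smul c hf.isQ⟩

theorem mem_VV {N : ℕ} {k : ℤ} {χ : Gamma0 N →* ℂˣ} {v : ℕ → ℂ} :
    v ∈ VV N k χ ↔ ∃ f, IsCh N k χ f ∧ coeffFun f = v := Iff.rfl

theorem isQ_pow_aux {f : ℍ → ℂ} (hf : IsQ f) (m : ℕ) :
    IsQ (f ^ m) ∧ qExpansion 1 (f ^ m) = qExpansion 1 f ^ m := by
  induction m with
  | zero => 
    rw [pow_zero, pow_zero]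
    exact ⟨IsQ.one, qExpansion_one _⟩
  | succ m ih =>
    rw [pow_succ, pow_succ]
    exact ⟨ih.1.mul hf, by rw [qExpansion_mul ih.1.analytic hf.analytic, ih.2]⟩

/-- [key D-ORB-FD] -/
theorem finiteDimensional_VV (N : ℕ) [NeZero N] (m n : ℕ) (hm : m ≠ 0) (χ : Gamma0 N →* ℂˣ)
    (hχ : ∀ γ, χ γ ^ m = 1) : FiniteDimensional ℂ (VV N (12 * n) χ) := by
  set B : ℕ := n * Nat.card (QN N) + 1 with hB
  let tr : VV N (12 * n) χ →ₗ[ℂ] (Fin B → ℂ) :=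
    { toFun := fun v i => v.1 i
      map_add' := fun _ _ => rfl
      map_smul' := fun _ _ => rfl }
  have hinj : Function.Injective tr := by
    rw [← LinearMap.ker_eq_bot, LinearMap.ker_eq_bot']
    rintro ⟨v, f, hf, rfl⟩ hv
    have hdvd : (PowerSeries.X : PowerSeries ℂ) ^ B ∣ qExpansion 1 f := by
      rw [PowerSeries.X_pow_dvd_iff]
      intro i hi
      exact congrFun hv ⟨i, hi⟩
    have hdvd2 : (PowerSeries.X : PowerSeries ℂ) ^ (B * m) ∣ qExpansion 1 (f ^ m) := by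
      rw [(isQ_pow_aux hf.isQ m).2, pow_mul]
      exact pow_dvd_pow_of_dvd hdvd m
    have hw : (m : ℤ) * (12 * (n : ℤ)) = 12 * ((m * n : ℕ) : ℤ) := by push_cast; ring
    let F : ModularForm (Gamma0 N : Subgroup (GL (Fin 2) ℝ)) (12 * ((m * n : ℕ) : ℤ)) :=
      ((hf.isCF_pow hm hχ).isMF.weight_cast hw).toModularForm
    have hF : F = 0 := by
      apply coeffMap_injective N (m * n)
      rw [map_zero]
      funext i
      show (qExpansion 1 (f ^ m)).coeff (i : ℕ) = 0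
      rw [PowerSeries.X_pow_dvd_iff] at hdvd2
      apply hdvd2
      have hi := i.2
      have hm1 : 1 ≤ m := Nat.one_le_iff_ne_zero.mpr hm
      calc (i : ℕ) < m * n * Nat.card (QN N) + 1 := hi
        _ ≤ m * n * Nat.card (QN N) + m := by omega
        _ = B * m := by rw [hB]; ring
    have hfm : f ^ m = 0 := congrArg (fun G : ModularForm _ _ => (G : ℍ → ℂ)) hF
    have hf0 : f = 0 := by
      funext z
      have := congrFun hfm z
      exact pow_eq_zero_iff hm |>.mp this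
    apply Subtype.ext
    show coeffFun f = 0
    rw [hf0, coeffFun_zero]
  exact FiniteDimensional.of_injective tr hinj

/-- [key D-ORB-FIN] -/
theorem finite_chars (N : ℕ) [NeZero N] (m : ℕ) (hm : m ≠ 0) :
    {χ : Gamma0 N →* ℂˣ | ∀ γ, χ γ ^ m = 1}.Finite := by
  classical
  have : Group.FG SL(2, ℤ) := ⟨⟨{ModularGroup.S, ModularGroup.T}, by
    simpa using SpecialLinearGroup.SL2Z_generators⟩⟩
  have : Group.FG (Gamma0 N) := Subgroup.fg_of_index_ne_zero _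
  obtain ⟨S, hS⟩ := (Group.FG.out : (⊤ : Subgroup (Gamma0 N)).FG)
  have : NeZero m := ⟨hm⟩
  let ev : {χ : Gamma0 N →* ℂˣ | ∀ γ, χ γ ^ m = 1} → (S → rootsOfUnity m ℂ) :=
    fun χ s => ⟨χ.1 s, (mem_rootsOfUnity _ _).mpr (χ.2 s)⟩
  have hinj : Function.Injective ev := by
    intro χ χ' h
    apply Subtype.ext
    apply MonoidHom.eq_of_eqOn_dense hS
    intro s hs
    exact congrArg Subtype.val (congrFun h ⟨s, hs⟩)
  exact Set.finite_coe_iff.mp (Finite.of_injective ev hinj)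

/-- coefficientwise conjugation -/
theorem coeffFun_conj_aux {f f' : ℍ → ℂ} (s : ℂ ≃ₐ[ℚ] ℂ)
    (h : qExpansion 1 f' = (qExpansion 1 f).map (s : ℂ →+* ℂ)) :
    coeffFun f' = fun i => s (coeffFun f i) := by
  funext i
  show (qExpansion 1 f').coeff i = s ((qExpansion 1 f).coeff i)
  rw [h, PowerSeries.coeff_map]
  rfl

theorem map_VV_le_aux (N : ℕ) [NeZero N] (m n : ℕ) (hm : m ≠ 0) (χ : Gamma0 N →* ℂˣ)
    (hχ : ∀ γ, χ γ ^ m = 1) (h0 : VV N (12 * n) χ ≠ ⊥) (s : ℂ ≃ₐ[ℚ] ℂ) :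
    ∃ χ' : Gamma0 N →* ℂˣ, (∀ γ, χ' γ ^ m = 1) ∧
      ∀ v ∈ VV N (12 * n) χ, (fun i => s (v i)) ∈ VV N (12 * n) χ' := by
  obtain ⟨v₀, ⟨f₀, hf₀, rfl⟩, hv₀⟩ := (Submodule.ne_bot_iff _).mp h0
  obtain ⟨χ', f₀', hχ', hf₀', hq₀⟩ := exists_conj N m n hm χ hχ f₀ hf₀ s
  have hc₀ := coeffFun_conj_aux s hq₀
  have hf₀'0 : f₀' ≠ 0 := by
    rintro rfl
    apply hv₀
    funext i
    have := congrFun hc₀ i
    rw [coeffFun_zero] at this
    exact (map_eq_zero s).mp this.symm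
  refine ⟨χ', hχ', ?_⟩
  rintro _ ⟨f, hf, rfl⟩
  obtain ⟨χ₁, g₁, -, hg₁, hq₁⟩ := exists_conj N m n hm χ hχ f hf s
  obtain ⟨χ₂, g₂, -, hg₂, hq₂⟩ := exists_conj N m n hm χ hχ (f + f₀) (hf.add hf₀) s
  have hc₁ := coeffFun_conj_aux s hq₁
  have hc₂ := coeffFun_conj_aux s hq₂
  rw [← hc₁]
  suffices h : IsCh N (12 * n) χ' g₁ from ⟨g₁, h, rfl⟩
  have hsum : g₂ = g₁ + f₀' := by
    apply coeffFun_injective hg₂.isQ (hg₁.isQ.add hf₀'.isQ)
    rw [coeffFun_add hg₁.isQ hf₀'.isQ, hc₁, hc₂, hc₀, coeffFun_add hf.isQ hf₀.isQ]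
    funext i
    exact map_add s _ _
  have hrel : ∀ γ : Gamma0 N, (((χ₁ γ : ℂˣ) : ℂ) - ((χ₂ γ : ℂˣ) : ℂ)) • g₁ =
      (((χ₂ γ : ℂˣ) : ℂ) - ((χ' γ : ℂˣ) : ℂ)) • f₀' := by
    intro γ
    have h1 := hg₂.slash γ
    rw [hsum, SlashAction.add_slash, hg₁.slash γ, hf₀'.slash γ, smul_add] at h1
    rw [sub_smul, sub_smul, sub_eq_sub_iff_add_eq_add, h1, add_comm]
  by_cases hall : ∀ γ : Gamma0 N, ((χ₁ γ : ℂˣ) : ℂ) = ((χ₂ γ : ℂˣ) : ℂ)
  · have : χ₁ = χ' := by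
      ext γ
      have h1 := hrel γ
      rw [hall γ, sub_self, zero_smul] at h1
      rcases smul_eq_zero.mp h1.symm with h2 | h2
      · rw [hall γ]; exact sub_eq_zero.mp h2
      · exact absurd h2 hf₀'0
    rw [← this]; exact hg₁
  · push Not at hall
    obtain ⟨γ, hγ⟩ := hall
    have hne : ((χ₁ γ : ℂˣ) : ℂ) - ((χ₂ γ : ℂˣ) : ℂ) ≠ 0 := sub_ne_zero.mpr hγ
    have : g₁ = ((((χ₁ γ : ℂˣ) : ℂ) - ((χ₂ γ : ℂˣ) : ℂ))⁻¹ *
        (((χ₂ γ : ℂˣ) : ℂ) - ((χ' γ : ℂˣ) : ℂ))) • f₀' := by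
      rw [mul_smul, ← hrel γ, smul_smul, inv_mul_cancel₀ hne, one_smul]
    rw [this]
    exact hf₀'.smul _

/-- [key D-ORB-MAP] -/
theorem exists_map_VV (N : ℕ) [NeZero N] (m n : ℕ) (hm : m ≠ 0) (χ : Gamma0 N →* ℂˣ)
    (hχ : ∀ γ, χ γ ^ m = 1) (h0 : VV N (12 * n) χ ≠ ⊥) (s : ℂ ≃ₐ[ℚ] ℂ) :
    ∃ χ' : Gamma0 N →* ℂˣ, (∀ γ, χ' γ ^ m = 1) ∧
      (fun (v : ℕ → ℂ) i => s (v i)) '' (VV N (12 * n) χ : Set (ℕ → ℂ)) = VV N (12 * n) χ' := by
  obtain ⟨χ', hχ', hle⟩ := map_VV_le_aux N m n hm χ hχ h0 s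
  obtain ⟨v₀, hv₀m, hv₀⟩ := (Submodule.ne_bot_iff _).mp h0
  have h0' : VV N (12 * n) χ' ≠ ⊥ := by
    rw [Submodule.ne_bot_iff]
    refine ⟨_, hle v₀ hv₀m, ?_⟩
    intro h
    apply hv₀
    funext i
    exact (map_eq_zero s).mp (congrFun h i)
  obtain ⟨χ'', hχ'', hle'⟩ := map_VV_le_aux N m n hm χ' hχ' h0' s.symm
  have hχeq : χ = χ'' := by
    have h1 := hle' _ (hle v₀ hv₀m)
    simp only [AlgEquiv.symm_apply_apply] at h1
    obtain ⟨f, hf, hfv⟩ := hv₀m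
    obtain ⟨g, hg, hgv⟩ := h1
    have hfg : f = g := coeffFun_injective hf.isQ hg.isQ (hfv.trans hgv.symm)
    subst hfg
    apply hf.char_unique hg
    rintro rfl
    exact hv₀ (hfv.symm.trans coeffFun_zero)
  refine ⟨χ', hχ', Set.Subset.antisymm ?_ ?_⟩
  · rintro _ ⟨v, hv, rfl⟩
    exact hle v hv
  · intro w hw
    refine ⟨fun i => s.symm (w i), ?_, ?_⟩
    · rw [hχeq]; exact hle' w hw
    · funext i
      exact s.apply_symm_apply _

/-- [key D-ORB-ALG] -/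
theorem exists_algebraic (N : ℕ) [NeZero N] (m n : ℕ) (hm : m ≠ 0) (χ : Gamma0 N →* ℂˣ)
    (hχ : ∀ γ, χ γ ^ m = 1) (h : ∃ f, IsCh N (12 * n) χ f ∧ f ≠ 0) :
    ∃ f, IsCh N (12 * n) χ f ∧ f ≠ 0 ∧ ∀ i, IsAlgebraic ℚ ((qExpansion 1 f).coeff i) := by
  have h0 : VV N (12 * n) χ ≠ ⊥ := by
    obtain ⟨f, hf, hf0⟩ := h
    rw [Submodule.ne_bot_iff]
    refine ⟨coeffFun f, ⟨f, hf, rfl⟩, ?_⟩
    intro h
    exact hf0 (coeffFun_injective hf.isQ IsQ.zero (h.trans coeffFun_zero.symm))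
  have := finiteDimensional_VV N m n hm χ hχ
  have hfin : (Set.range fun σ : ℂ ≃ₐ[ℚ] ℂ =>
      (fun f : ℕ → ℂ => fun i => σ (f i)) '' (VV N (12 * n) χ : Set (ℕ → ℂ))).Finite := by
    refine ((finite_chars N m hm).image
      (fun χ' => (VV N (12 * n) χ' : Set (ℕ → ℂ)))).subset ?_
    rintro _ ⟨σ, rfl⟩
    obtain ⟨χ', hχ', he⟩ := exists_map_VV N m n hm χ hχ h0 σ
    exact ⟨χ', hχ', he.symm⟩
  obtain ⟨v, ⟨f, hf, rfl⟩, hv0, halg⟩ := Aut.exists_algebraic_mem (K := ℚ) _ h0 hfin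
  refine ⟨f, hf, ?_, halg⟩
  rintro rfl
  exact hv0 coeffFun_zero

end Fermat.Agent.S29
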