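import Fermat.Agent.S29.Defs
import Fermat.Prelude.Thm_CongruenceSubgroup_one_mem_strictPeriods_Gamma0
import Fermat.Prelude.Def_ModularCurve_X0ModL

/-!
# S29/DESCENT, piece D-QREL : the relation "`X ∈ ℂ((q))` is the `q`-expansion of `x ∈ Mer`"

`QRel x X` : `x = A / B` with `A, B` holomorphic, 1-periodic, bounded at `i∞` (`S24.IsQ`), `B ≠ 0`, and
`X = qexp A / qexp B`.  It is a "partial field isomorphism": compatible with `+, *, ⁻¹`, constants, and
functional in both directions (`qExpansion` is additive, multiplicative and injective on `IsQ`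
functions: `S24.IsQ.analytic`, Mathlib `qExpansion_add/mul`, `S24.IsQ.eq_zero_of_qExpansion`;
`HahnSeries.ofPowerSeries` is an injective ring hom; `Hol → Mer` is injective).

`qRel_iota` : by `S24.adjoin_jF` (or `S24.mem_of_FN`): the set of `y : FN N` with
`QRel (iota N y) (coeffMap kappa y)` is a subfield containing the constants (`iota_algebraMap`) and the
`jF N d hd` (`iota_jF`; `jHd d * Δ(dτ) = E₄(dτ)^3`, see `S24.IotaRing`: `e4B`, `deltaB`, `jHd_mul_deltaB`,
`phiS_jQ` give exactly the two identities needed).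
-/

set_option autoImplicit false

open UpperHalfPlane ModularForm ModularFormClass ModularCurve CongruenceSubgroup Fermat.Agent.S24
open scoped MatrixGroups Manifold

noncomputable section

namespace Fermat.Agent.S29

/-- `PowerSeries ℂ → ℂ((q))` -/
abbrev ofPS : PowerSeries ℂ →+* LaurentSeries ℂ := HahnSeries.ofPowerSeries ℤ ℂ

/-- `X` is the `q`-expansion of `x` -/
def QRel (x : Mer) (X : LaurentSeries ℂ) : Prop :=
  ∃ A B : Hol, IsQ (A : ℍ → ℂ) ∧ IsQ (B : ℍ → ℂ) ∧ B ≠ 0 ∧
    x * algebraMap Hol Mer B = algebraMap Hol Mer A ∧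
    X * ofPS (qExpansion 1 (B : ℍ → ℂ)) = ofPS (qExpansion 1 (A : ℍ → ℂ))

namespace QRelAux

/-- the ring of holomorphic functions with a `q`-expansion -/
def HQ : Subring Hol where
  carrier := {A | IsQ (A : ℍ → ℂ)}
  mul_mem' := fun {_ _} hA hB => IsQ.mul hA hB
  one_mem' := IsQ.one
  add_mem' := fun {_ _} hA hB => IsQ.add hA hB
  zero_mem' := IsQ.zero
  neg_mem' := fun {_} hA => IsQ.neg hA

/-- the `q`-expansion as a ring homomorphism -/
def qe : HQ →+* PowerSeries ℂ where
  toFun A := qExpansion 1 ((A : Hol) : ℍ → ℂ)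
  map_one' := qExpansion_one 1
  map_mul' A B := qExpansion_mul (IsQ.analytic A.2) (IsQ.analytic B.2)
  map_zero' := qExpansion_zero 1
  map_add' A B := qExpansion_add (IsQ.analytic A.2) (IsQ.analytic B.2)

theorem qe_injective : Function.Injective qe := by
  rw [injective_iff_map_eq_zero]
  intro A hA
  exact Subtype.ext (Subtype.ext (IsQ.eq_zero_of_qExpansion A.2 hA))

/-- its fraction field -/
abbrev QC : Type := FractionRing HQ

theorem injH : Function.Injective ((algebraMap Hol Mer).comp HQ.subtype) :=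
  (IsFractionRing.injective Hol Mer).comp Subtype.val_injective

theorem injS : Function.Injective (ofPS.comp qe) :=
  (HahnSeries.ofPowerSeries_injective).comp qe_injective

/-- to meromorphic functions -/
def fH : QC →+* Mer := IsFractionRing.lift injH

/-- to Laurent series -/
def fS : QC →+* LaurentSeries ℂ := IsFractionRing.lift injS

theorem fH_algebraMap (A : HQ) : fH (algebraMap HQ QC A) = algebraMap Hol Mer (A : Hol) :=
  IsFractionRing.lift_algebraMap _ _

theorem fS_algebraMap (A : HQ) :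
    fS (algebraMap HQ QC A) = ofPS (qExpansion 1 ((A : Hol) : ℍ → ℂ)) :=
  IsFractionRing.lift_algebraMap _ _

theorem qRel_iff {x : Mer} {X : LaurentSeries ℂ} : QRel x X ↔ ∃ z : QC, fH z = x ∧ fS z = X := by
  constructor
  · rintro ⟨A, B, hA, hB, hB0, h1, h2⟩
    have hb : algebraMap HQ QC ⟨B, hB⟩ ≠ 0 := by
      rw [Ne, IsFractionRing.to_map_eq_zero_iff]
      exact fun h => hB0 (congrArg Subtype.val h)
    refine ⟨algebraMap HQ QC ⟨A, hA⟩ / algebraMap HQ QC ⟨B, hB⟩, ?_, ?_⟩
    · rw [map_div₀, div_eq_iff ((map_ne_zero fH).mpr hb), fH_algebraMap, fH_algebraMap]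
      exact h1.symm
    · rw [map_div₀, div_eq_iff ((map_ne_zero fS).mpr hb), fS_algebraMap, fS_algebraMap]
      exact h2.symm
  · rintro ⟨z, rfl, rfl⟩
    obtain ⟨a, b, hb, rfl⟩ := IsFractionRing.div_surjective (A := HQ) z
    have hb0 : b ≠ 0 := nonZeroDivisors.ne_zero hb
    have hb1 : algebraMap HQ QC b ≠ 0 := by
      rw [Ne, IsFractionRing.to_map_eq_zero_iff]
      exact hb0
    refine ⟨a, b, a.2, b.2, fun h => hb0 (Subtype.ext h), ?_, ?_⟩
    · rw [map_div₀, ← fH_algebraMap b, div_mul_cancel₀ _ ((map_ne_zero fH).mpr hb1), fH_algebraMap]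
    · rw [map_div₀, ← fS_algebraMap b, div_mul_cancel₀ _ ((map_ne_zero fS).mpr hb1), fS_algebraMap]

end QRelAux

open QRelAux

namespace QRel

variable {x y : Mer} {X Y : LaurentSeries ℂ}

theorem of_isQ (A : Hol) (hA : IsQ (A : ℍ → ℂ)) :
    QRel (algebraMap Hol Mer A) (ofPS (qExpansion 1 (A : ℍ → ℂ))) :=
  qRel_iff.mpr ⟨algebraMap HQ QC ⟨A, hA⟩, fH_algebraMap _, fS_algebraMap _⟩

theorem const (c : ℂ) : QRel (algebraMap ℂ Mer c) (algebraMap ℂ (LaurentSeries ℂ) c) := by
  have h := of_isQ (algebraMap ℂ Hol c) (IsQ.const c)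
  have h1 : qExpansion 1 ((algebraMap ℂ Hol c : Hol) : ℍ → ℂ) = PowerSeries.C c :=
    qExpansion_const c
  rw [h1, ← IsScalarTower.algebraMap_apply ℂ Hol Mer] at h
  rw [algebraMap_laurentSeries_eq_single]
  rw [show ofPS (PowerSeries.C c) = HahnSeries.single 0 c from by
    rw [HahnSeries.ofPowerSeries_C]; rfl] at h
  exact h

theorem zero : QRel 0 0 := qRel_iff.mpr ⟨0, map_zero _, map_zero _⟩

theorem one : QRel 1 1 := qRel_iff.mpr ⟨1, map_one _, map_one _⟩

theorem add (hx : QRel x X) (hy : QRel y Y) : QRel (x + y) (X + Y) := by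
  obtain ⟨z, rfl, rfl⟩ := qRel_iff.mp hx
  obtain ⟨w, rfl, rfl⟩ := qRel_iff.mp hy
  exact qRel_iff.mpr ⟨z + w, map_add _ _ _, map_add _ _ _⟩

theorem neg (hx : QRel x X) : QRel (-x) (-X) := by
  obtain ⟨z, rfl, rfl⟩ := qRel_iff.mp hx
  exact qRel_iff.mpr ⟨-z, map_neg _ _, map_neg _ _⟩

theorem mul (hx : QRel x X) (hy : QRel y Y) : QRel (x * y) (X * Y) := by
  obtain ⟨z, rfl, rfl⟩ := qRel_iff.mp hx
  obtain ⟨w, rfl, rfl⟩ := qRel_iff.mp hy
  exact qRel_iff.mpr ⟨z * w, map_mul _ _ _, map_mul _ _ _⟩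

theorem inv (hx : QRel x X) : QRel x⁻¹ X⁻¹ := by
  obtain ⟨z, rfl, rfl⟩ := qRel_iff.mp hx
  exact qRel_iff.mpr ⟨z⁻¹, map_inv₀ _ _, map_inv₀ _ _⟩

theorem pow (hx : QRel x X) (n : ℕ) : QRel (x ^ n) (X ^ n) := by
  obtain ⟨z, rfl, rfl⟩ := qRel_iff.mp hx
  exact qRel_iff.mpr ⟨z ^ n, map_pow _ _ _, map_pow _ _ _⟩

theorem div (hx : QRel x X) (hy : QRel y Y) : QRel (x / y) (X / Y) := by
  obtain ⟨z, rfl, rfl⟩ := qRel_iff.mp hx
  obtain ⟨w, rfl, rfl⟩ := qRel_iff.mp hy
  exact qRel_iff.mpr ⟨z / w, map_div₀ _ _ _, map_div₀ _ _ _⟩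

theorem sum {ι : Type*} (s : Finset ι) (x : ι → Mer) (X : ι → LaurentSeries ℂ)
    (h : ∀ i ∈ s, QRel (x i) (X i)) : QRel (∑ i ∈ s, x i) (∑ i ∈ s, X i) := by
  classical
  induction s using Finset.induction_on with
  | empty => simpa using zero
  | insert a s ha ih =>
    rw [Finset.sum_insert ha, Finset.sum_insert ha]
    exact (h a (Finset.mem_insert_self a s)).add
      (ih fun i hi => h i (Finset.mem_insert_of_mem hi))

theorem unique_right (h : QRel x X) (h' : QRel x Y) : X = Y := by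
  obtain ⟨z, rfl, rfl⟩ := qRel_iff.mp h
  obtain ⟨w, hw, rfl⟩ := qRel_iff.mp h'
  rw [fH.injective hw]

theorem unique_left (h : QRel x X) (h' : QRel y X) : x = y := by
  obtain ⟨z, rfl, rfl⟩ := qRel_iff.mp h
  obtain ⟨w, rfl, hw⟩ := qRel_iff.mp h'
  rw [fS.injective hw]

theorem eq_zero_iff (h : QRel x X) : x = 0 ↔ X = 0 := by
  obtain ⟨z, rfl, rfl⟩ := qRel_iff.mp h
  rw [map_eq_zero, map_eq_zero]

end QRel

/-- modular forms on `Γ₀(N)` have `q`-expansions -/
theorem isQ_of_modularForm_Gamma0 (N : ℕ) [NeZero N] {k : ℤ}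
    (F : ModularForm (Gamma0 N : Subgroup (GL (Fin 2) ℝ)) k) : IsQ (F : ℍ → ℂ) :=
  ⟨F.holo', SlashInvariantFormClass.periodic_comp_ofComplex F
      (CongruenceSubgroup.one_mem_strictPeriods_Gamma0 N),
    ModularFormClass.bdd_at_infty F⟩

/-- every quotient of modular forms has a `q`-expansion -/
theorem exists_qRel_of_isQuot (N : ℕ) [NeZero N] (x : Mer) (hx : IsQuot N x) :
    ∃ X : LaurentSeries ℂ, QRel x X := by
  obtain ⟨m, a, b, ⟨F, rfl⟩, ⟨G, rfl⟩, hb0, h⟩ := hx
  exact ⟨ofPS (qExpansion 1 (mfHol F : ℍ → ℂ)) / ofPS (qExpansion 1 (mfHol G : ℍ → ℂ)),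
    mfHol F, mfHol G, isQ_of_modularForm_Gamma0 N F, isQ_of_modularForm_Gamma0 N G, hb0, h,
    div_mul_cancel₀ _ (fun h0 => hb0 (Subtype.ext (IsQ.eq_zero_of_qExpansion
      (isQ_of_modularForm_Gamma0 N G) (HahnSeries.ofPowerSeries_injective
        (h0.trans (map_zero _).symm)))))⟩

/-- the two projections of the `S24` pullback field are `QRel`-related -/
theorem qRel_phi (z : Qq) : QRel (phiH z) (coeffMap kappa (phiS z)) := by
  obtain ⟨a, b, -, rfl⟩ := IsFractionRing.div_surjective (A := Bq) z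
  have key : ∀ p : Bq, QRel (phiH (algebraMap Bq Qq p)) (coeffMap kappa (phiS (algebraMap Bq Qq p))) := by
    intro p
    rw [phiH_algebraMap, phiS_algebraMap, coeffMap_ofPowerSeries]
    have := QRel.of_isQ (prH p) p.2.1
    rw [show qExpansion 1 ((prH p : Hol) : ℍ → ℂ) = (prS p).map kappa from p.2.2] at this
    exact this
  rw [map_div₀, map_div₀, map_div₀]
  exact (key a).div (key b)

/-- the `q`-expansion of `iota N y` is `y` -/
theorem qRel_iota (N : ℕ) [NeZero N] (y : FN N) :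
    QRel (iota N y) (coeffMap kappa (y : LaurentSeries Kb)) := by
  let S : IntermediateField Kb (FN N) :=
    { carrier := {y | QRel (iota N y) (coeffMap kappa (y : LaurentSeries Kb))}
      mul_mem' := fun {a b} ha hb => by
        show QRel (iota N (a * b)) (coeffMap kappa ((a * b : FN N) : LaurentSeries Kb))
        rw [map_mul, MulMemClass.coe_mul, map_mul]
        exact QRel.mul ha hb
      add_mem' := fun {a b} ha hb => by
        show QRel (iota N (a + b)) (coeffMap kappa ((a + b : FN N) : LaurentSeries Kb))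
        rw [map_add, AddMemClass.coe_add, map_add]
        exact QRel.add ha hb
      algebraMap_mem' := fun c => by
        show QRel (iota N (algebraMap Kb (FN N) c))
          (coeffMap kappa ((algebraMap Kb (FN N) c : FN N) : LaurentSeries Kb))
        rw [iota_algebraMap]
        have h1 : ((algebraMap Kb (FN N) c : FN N) : LaurentSeries Kb) =
            algebraMap Kb (LaurentSeries Kb) c := rfl
        rw [h1, algebraMap_laurentSeries_eq_single, coeffMap_single,
          ← algebraMap_laurentSeries_eq_single]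
        exact QRel.const _
      inv_mem' := fun a ha => by
        show QRel (iota N a⁻¹) (coeffMap kappa ((a⁻¹ : FN N) : LaurentSeries Kb))
        rw [map_inv₀, show ((a⁻¹ : FN N) : LaurentSeries Kb) = (a : LaurentSeries Kb)⁻¹ from rfl,
          map_inv₀]
        exact QRel.inv ha }
  have hS : IntermediateField.adjoin Kb
      {x : FN N | ∃ (d : ℕ) (_ : NeZero d) (hd : d ∣ N), x = jF N d hd} ≤ S := by
    rw [IntermediateField.adjoin_le_iff]
    rintro _ ⟨d, _, hd, rfl⟩
    show QRel (iota N (jF N d hd)) (coeffMap kappa ((jF N d hd : FN N) : LaurentSeries Kb))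
    rw [iota_jF, ← phiH_jQ, show ((jF N d hd : FN N) : LaurentSeries Kb) =
      coeffEmb Kb (qExpand ℚ d jq) from rfl, ← phiS_jQ]
    exact qRel_phi _
  rw [adjoin_jF] at hS
  exact hS (IntermediateField.mem_top)

/-- the `q`-expansion of `Δ` -/
theorem qExpansion_DelH : qExpansion 1 (DelH : ℍ → ℂ) = delS ℂ :=
  qExpansion_discriminant

theorem isQ_DelH : IsQ (DelH : ℍ → ℂ) := isQ_discriminant

theorem delS_map {R S : Type} [CommRing R] [CommRing S] (f : R →+* S) :
    (delS R).map f = delS S := by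
  ext n
  rw [delS, delS, PowerSeries.coeff_map, PowerSeries.coeff_map, PowerSeries.coeff_map]
  simp

theorem delS_ne_zero (R : Type) [CommRing R] [Nontrivial R] : delS R ≠ 0 := by
  intro h
  have h1 := congrArg (PowerSeries.coeff 1) h
  rw [delS, PowerSeries.coeff_map, show (1 : ℕ) = 0 + 1 from rfl, PowerSeries.coeff_succ_X_mul,
    PowerSeries.coeff_zero_eq_constantCoeff, constantCoeff_dedekindEtaUnit] at h1
  simp at h1

end Fermat.Agent.S29
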