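import Mathlib
import Fermat.Prelude.Def_EllipticCurve_FrobeniusTrace
import Fermat.Prelude.Def_FLTPrelim_Ramification
import Fermat.Agent.ES.FrobGlue

/-!
# S29/FD : Frobenius' density theorem, existence form

For every finite extension `L/ℚ` inside `ℚ̄`, every `M ≠ 0` and every `g ∈ G_ℚ` there is a prime
`ℓ ∤ M`, a place `A` of `ℚ̄` over `ℓ` and a Frobenius lift `σ` at `A` such that `g` and a power of
`σ` agree on `L`.

Proved in `Fermat/Agent/ES/FrobNF.lean` (number fields) and `Fermat/Agent/ES/FrobGlue.lean` (glue).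
-/

set_option autoImplicit false

namespace Fermat.Agent.S29

abbrev Qb : Type := AlgebraicClosure ℚ
abbrev GQ : Type := Qb ≃ₐ[ℚ] Qb

theorem exists_frobenius_pow (L : IntermediateField ℚ Qb) (hL : FiniteDimensional ℚ L)
    (M : ℕ) (hM : M ≠ 0) (g : GQ) :
    ∃ (ℓ : ℕ) (A : ValuationSubring Qb) (σ : GQ) (b : ℕ),
      ℓ.Prime ∧ ¬ ℓ ∣ M ∧ A.LiesOverPrime ℓ ∧ A.IsFrobeniusAt σ ℓ ∧ ∀ x ∈ L, g x = (σ ^ b) x :=
  ES.exists_frobenius_pow L hL M hM g

end Fermat.Agent.S29
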