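import Fermat.Agent.S24.Interior
import Fermat.Agent.S24.Cusp
import Fermat.Agent.S24.Quot
import Fermat.Agent.S16.LDefs
import Fermat.Agent.S29.Frob
import Fermat.Prelude.Def_ModularCurve_ArithmeticGalois
import Fermat.Prelude.Def_ModularCurve_PeriodHomPair

/-!
# P-S29 : shared definitions (see the board / `reports` S29 for the blueprint)

Notation of S24: `Kb = ℚ̄`, `kappa : Kb →+* ℂ`, `FN N ⊆ Kb((q))` the function field of `X₀(N)` over
`ℚ̄`, `iota N : FN N →+* Mer`, `merAct g f = f ∘ g⁻¹`, `ordAt τ`, `IsQuot N`.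

* `FC N ⊆ ℂ((q))` : the function field over `ℂ` (same Prelude construction).
* `zet m n = e(n/m)`.
* `HasChar N m c h` : `h ∈ Mer` transforms under `Γ₀(N)` by the character `e(c/m)`.
* `PDiv K F m u` : `u ≠ 0` and `m ∣ ord_v u` at all places.
* `IsKummer N m c u` : `u = h ^ m` with `h` of character `e(c/m)`.
* `IsCuspQuot N n u` : `u = G / Δ ^ n`, `G` a cusp form of weight `12 n` with algebraic coefficients.
-/

set_option autoImplicit false

open UpperHalfPlane ModularForm ModularFormClass WithZero ModularCurve AlgebraicCurve CongruenceSubgroup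
open ModularCurve.Period Fermat.Agent.S24
open scoped MatrixGroups Manifold

noncomputable section

namespace Fermat.Agent.S29

/-- the function field of `X₀(N)` over `ℂ`, inside `ℂ((q))` -/
abbrev FC (N : ℕ) : Type := ↥(laurentBaseChange ℂ (modularFunctionFieldFull N))

/-- `e(n/m)` -/
def zet (m : ℕ) (n : ℤ) : ℂ := Complex.exp (2 * Real.pi * Complex.I * n / m)

/-- the lattice `Hom_par(Γ₀(N), ℤ)` -/
abbrev XN (N : ℕ) : Submodule ℤ (Additive (Gamma0 N) →+ ℤ) := parabolicHoms ℤ (Gamma0 N) ℤ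

/-- `h` transforms under `Γ₀(N)` by the character `γ ↦ e(c(γ)/m)` -/
def HasChar (N m : ℕ) (c : Additive (Gamma0 N) →+ ℤ) (h : Mer) : Prop :=
  ∀ γ : Gamma0 N, merAct (γ : SL(2, ℤ)) h =
    algebraMap ℂ Mer (zet m (c (Additive.ofMul γ))) * h

/-- the divisor of `u` is divisible by `m` -/
def PDiv (K F : Type*) [Field K] [Field F] [Algebra K F] (m : ℕ) (u : F) : Prop :=
  u ≠ 0 ∧ ∀ v : Place K F, (m : ℤ) ∣ v.ord u

/-- `u` is the Kummer element of the character `e(c/m)` -/
def IsKummer (N m : ℕ) [NeZero N] (c : Additive (Gamma0 N) →+ ℤ) (u : FN N) : Prop :=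
  ∃ h : Mer, h ≠ 0 ∧ iota N u = h ^ m ∧ HasChar N m c h

/-- `Δ` as a holomorphic function -/
def DelH : Hol := ⟨discriminant, CuspForm.discriminant.holo'⟩

/-- the `q`-expansion of `Δ`, over any ring -/
def delS (R : Type) [CommRing R] : PowerSeries R :=
  (PowerSeries.X * dedekindEtaUnit).map (Int.castRingHom R)

/-- `u = G / Δ ^ n`, `G ≠ 0` a cusp form of weight `12 n` with algebraic coefficients -/
def IsCuspQuot (N n : ℕ) (u : FN N) : Prop :=
  ∃ (G : CuspForm (Gamma0 N : Subgroup (GL (Fin 2) ℝ)) (12 * n)) (t : PowerSeries Kb),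
    qExpansion 1 G = t.map kappa ∧
    (u : LaurentSeries Kb) * HahnSeries.ofPowerSeries ℤ Kb (delS Kb ^ n) =
      HahnSeries.ofPowerSeries ℤ Kb t

/-- the Galois action on the function field -/
abbrev gal (N : ℕ) (σ : GQ) : FN N ≃+* FN N := arithmeticRingAut (modularFunctionFieldFull N) σ

/-- the action of `Aut ℂ` on the function field over `ℂ` -/
abbrev galC (N : ℕ) (σ : ℂ ≃ₐ[ℚ] ℂ) : FC N ≃+* FC N :=
  arithmeticRingAut (modularFunctionFieldFull N) σ

/-- `c'` is the image of `c` under the transfer (Hecke) operator with representatives `M` -/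
def IsTransfer (N : ℕ) {ι : Type} [Fintype ι] (M : ι → Matrix (Fin 2) (Fin 2) ℤ)
    (c c' : Additive (Gamma0 N) →+ ℤ) : Prop :=
  ∀ (γ : Gamma0 N) (D : Fermat.Agent.S16.Lower.HData N M γ),
    c' (Additive.ofMul γ) = ∑ i, c (Additive.ofMul (D.δ i))

end Fermat.Agent.S29
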