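import Fermat.Agent.S29.HolAux
import Fermat.Agent.S24.DiffGlobal
import Fermat.Agent.S24.Orbits
import Fermat.Agent.S21.DimBound

/-!
# S29/DICT : the divisor of a Kummer element is divisible by `m`

`ord_formula` : refinement of `S24.card_zeroPlaces_eq_card_orbits` (same hypotheses).  In that proof
`(π i).ord y ≤ minimalPeriod i`, `p` is surjective and `∑ orbits = ∑ places`, so the inequality is an
equality for every `i`; with `log_val_eq` this gives the formula.

`pdiv_of_isKummer` : let `v` be a place of `FN N`.  The residue field is `Kb`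
(`S24.finite_residueField`, `Kb` algebraically closed), so either `v.ord (jN N) < 0` or
`0 < v.ord (jN N - c)` for some `c : Kb`.  Apply `ord_formula` exactly as in
`S24.ord_jN_sub_eq_one` (`c ≠ 0, 1728`; `g = 1`, `E = 1`), `S24.card_zeros_aux` (`c = 1728`: `g = S`,
`E = 2`, `τ = I`; `c = 0`: `g = S T`, `E = 3`, `τ = rho`) and `S24.Cusp.card_poles_jN` (`g = T`, `E = N`,
`L = MerB N`).  Put `x = merAct q.out h`, so `sigma N q u = x ^ m`.  With `P` the minimal period of `q`
under `g`, `δ = q.out⁻¹ g^P q.out ∈ Γ₀(N)` has `trace² ≤ 4`: either `trace² = 4` and `c δ = 0` because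
`c` is parabolic, or `δ` is of finite order and `c δ = 0` because `ℤ` is torsion free.  Hence
`merAct (g ^ P) x = x` and the divisibility lemmas used for `hdiv` in S24
(`two_dvd_of_merAct_S_pow`, `three_dvd_of_merAct_ST_pow`, and the one in `Cusp`) give
`E ∣ P * log (w x)`; so `E * v.ord u = - P * m * log (w x)` is divisible by `E * m`.
At the cusps one first needs `x ∈ range (Cusp.emb N)`: `x ^ m = A / B` with `A B : HolB N`,
`(x B) ^ m = A B ^ (m-1)` is holomorphic and bounded at `i∞`, `x B` is `N`-periodic.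
-/

set_option autoImplicit false

open UpperHalfPlane ModularForm WithZero ModularCurve AlgebraicCurve CongruenceSubgroup
open IntermediateField Fermat.Agent.S24
open scoped MatrixGroups Manifold

noncomputable section

namespace Fermat.Agent.S29

theorem eq_of_sum_le {Ω : Type*} [Fintype Ω] (a b : Ω → ℕ) (hle : ∀ ω, a ω ≤ b ω)
    (hsum : ∑ ω, b ω ≤ ∑ ω, a ω) (ω : Ω) : a ω = b ω := by
  by_contra hne
  have hlt : a ω < b ω := lt_of_le_of_ne (hle ω) hne
  have : ∑ ω, a ω < ∑ ω, b ω :=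
    Finset.sum_lt_sum (fun i _ => hle i) ⟨ω, Finset.mem_univ _, hlt⟩
  omega

theorem ord_formula {K F : Type*} [Field K] [Field F] [Algebra K F] [IsAlgClosed K] [CharZero K]
    (y : F) (hy : Transcendental K y) (hfin : FiniteDimensional K⟮y⟯ F)
    {L : Type*} [Field L] (w : Valuation L ℤᵐ⁰)
    {X : Type*} [Finite X] (σ : X → F →+* L) (hσ : Function.Injective σ)
    (hcard : Nat.card X = Module.finrank K⟮y⟯ F)
    (hK : ∀ i j (a : K), σ i (algebraMap K F a) = σ j (algebraMap K F a))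
    (hy' : ∀ i j, σ i y = σ j y)
    (hwK : ∀ i (a : K), w (σ i (algebraMap K F a)) ≤ 1)
    (E : ℕ) (hE : 0 < E) (hwy : ∀ i, w (σ i y) = exp (-(E : ℤ)))
    {G : Type*} [Group G] [MulAction G X] (g : G)
    (hg : ∀ i f, w (σ (g • i) f) = w (σ i f))
    (hdiv : ∀ i f, f ≠ 0 →
      (E : ℤ) ∣ (Function.minimalPeriod (g • ·) i : ℤ) * log (w (σ i f)))
    (v : Place K F) (hv : 0 < v.ord y) :
    ∃ i, ∀ f : F, f ≠ 0 →
      (E : ℤ) * v.ord f = - ((Function.minimalPeriod (g • ·) i : ℤ) * log (w (σ i f))) := by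
  classical
  have hEZ : (0 : ℤ) < (E : ℤ) := by exact_mod_cast hE
  have hwy' : ∀ i, w (σ i y) < 1 := fun i => by
    rw [hwy i, ← WithZero.exp_zero, WithZero.exp_lt_exp]; omega
  have hy0 : y ≠ 0 := by
    rintro rfl
    exact hy isAlgebraic_zero
  have hex : ∀ i, ∃ v : Place K F, v.toValuationSubring = (w.comap (σ i)).valuationSubring :=
    fun i => exists_place_of_valuationSubring y hy hfin _
      (comap_valuationSubring_ne_top w (σ i) hy0 (hwy' i)) (hwK i) (hwy' i).le
  choose π hπ using hex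
  have := Fintype.ofFinite X
  have hperiod : ∀ i : X, Function.minimalPeriod (g • ·) i =
      Nat.card (MulAction.orbit (Subgroup.zpowers g) i) := fun i => by
    have := Fintype.ofFinite (MulAction.orbit (Subgroup.zpowers g) i)
    rw [MulAction.minimalPeriod_eq_card, Nat.card_eq_fintype_card]
  have hkey : ∀ i, 0 < (π i).ord y ∧
      (π i).ord y ≤ (Function.minimalPeriod (g • ·) i : ℤ) := by
    intro i
    obtain ⟨ϖ, hϖ⟩ := IsDiscreteValuationRing.exists_irreducible (π i).toValuationSubring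
    have hϖ0 : (ϖ : F) ≠ 0 := by
      simpa [ne_eq, ZeroMemClass.coe_eq_zero] using hϖ.ne_zero
    have h := log_val_eq (π i) (w.comap (σ i)) (hπ i) hϖ hy0
    have hc := log_val_irreducible_neg (π i) (w.comap (σ i)) (hπ i) hϖ
    rw [Valuation.comap_apply, hwy i, log_exp] at h
    rw [Valuation.comap_apply] at h hc
    set c := log (w (σ i (ϖ : F))) with hcdef
    have hpos : 0 < (π i).ord y := by
      by_contra hle
      have h1 : (π i).ord y ≤ 0 := not_lt.mp hle
      have h2 : 0 ≤ (π i).ord y * c := mul_nonneg_of_nonpos_of_nonpos h1 hc.le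
      omega
    refine ⟨hpos, ?_⟩
    have hd := hdiv i (ϖ : F) hϖ0
    rw [← hcdef] at hd
    have hd2 : (π i).ord y * c ∣ (Function.minimalPeriod (g • ·) i : ℤ) * c := by
      rw [← h]; exact (neg_dvd).mpr hd
    have hd3 : (π i).ord y ∣ (Function.minimalPeriod (g • ·) i : ℤ) :=
      (mul_dvd_mul_iff_right hc.ne).mp hd2
    refine Int.le_of_dvd ?_ hd3
    rw [hperiod i]
    have : Nonempty (MulAction.orbit (Subgroup.zpowers g) i) :=
      (MulAction.nonempty_orbit i).to_subtype
    exact_mod_cast Nat.card_pos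
  let H : Subgroup G :=
    { carrier := {h | ∀ i f, w (σ (h • i) f) = w (σ i f)}
      mul_mem' := fun {a b} ha hb i f => by rw [mul_smul, ha, hb]
      one_mem' := fun i f => by rw [one_smul]
      inv_mem' := fun {a} ha i f => by
        have := ha (a⁻¹ • i) f
        rw [smul_inv_smul] at this
        exact this.symm }
  have hH : Subgroup.zpowers g ≤ H := by
    rw [Subgroup.zpowers_le]; exact hg
  have hπinv : ∀ i j, MulAction.orbitRel (Subgroup.zpowers g) X i j → π i = π j := by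
    rintro i j ⟨k, rfl⟩
    apply Place.ext
    rw [hπ, hπ]
    ext f
    rw [Valuation.mem_valuationSubring_iff, Valuation.mem_valuationSubring_iff,
      Valuation.comap_apply, Valuation.comap_apply]
    have : w (σ ((k : G) • j) f) = w (σ j f) := hH k.2 j f
    rw [← this]
    rfl
  have : Finite {v : Place K F // 0 < v.ord y} := (finite_zeroPlaces y hy hfin).to_subtype
  have := Fintype.ofFinite {v : Place K F // 0 < v.ord y}
  have := Fintype.ofFinite (MulAction.orbitRel.Quotient (Subgroup.zpowers g) X)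
  let p : MulAction.orbitRel.Quotient (Subgroup.zpowers g) X → {v : Place K F // 0 < v.ord y} :=
    Quotient.lift (fun i => (⟨π i, (hkey i).1⟩ : {v : Place K F // 0 < v.ord y}))
      (fun i j hij => Subtype.ext (hπinv i j hij))
  have hsurj : Function.Surjective p := by
    rintro ⟨v, hv⟩
    obtain ⟨i, hi⟩ := exists_embedding y hy hfin w σ hσ hcard hK hy' hwK hwy' v hv
    refine ⟨Quotient.mk'' i, Subtype.ext ?_⟩
    apply Place.ext
    exact (hπ i).trans hi.symm
  have hle : ∀ ω : MulAction.orbitRel.Quotient (Subgroup.zpowers g) X,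
      ((p ω).1.ord y).toNat ≤ Nat.card ω.orbit := by
    intro ω
    induction ω using Quotient.inductionOn' with
    | h i =>
      rw [MulAction.orbitRel.Quotient.orbit_mk, ← hperiod i]
      have := (hkey i).2
      show ((π i).ord y).toNat ≤ _
      omega
  have h1 : ∑ ω : MulAction.orbitRel.Quotient (Subgroup.zpowers g) X, Nat.card ω.orbit =
      Nat.card X := by
    rw [Nat.card_congr (MulAction.selfEquivSigmaOrbits' (Subgroup.zpowers g) X),
      Nat.card_sigma]
  have h2 : ((∑ z : {v : Place K F // 0 < v.ord y}, (z.1.ord y).toNat : ℕ) : ℤ) =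
      (Module.finrank K⟮y⟯ F : ℤ) := by
    rw [← sum_ord_zeroPlaces y hy hfin, Nat.cast_sum, ← finsum_eq_sum_of_fintype]
    rw [← finsum_set_coe_eq_finsum_mem (f := fun v : Place K F => v.ord y)
      {v : Place K F | 0 < v.ord y}]
    refine finsum_congr fun z => ?_
    exact Int.toNat_of_nonneg z.2.le
  have h2' : ∑ z : {v : Place K F // 0 < v.ord y}, (z.1.ord y).toNat = Module.finrank K⟮y⟯ F := by
    exact_mod_cast h2
  have hinj : Function.Injective p := by
    refine injective_of_sum_le p hsurj (fun ω => Nat.card ω.orbit) (fun z => (z.1.ord y).toNat)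
      ?_ hle ?_
    · intro ω
      induction ω using Quotient.inductionOn' with
      | h i =>
        rw [MulAction.orbitRel.Quotient.orbit_mk]
        have : Nonempty (MulAction.orbit (Subgroup.zpowers g) i) :=
          (MulAction.nonempty_orbit i).to_subtype
        exact Nat.card_pos
    · rw [h1, hcard, h2']
  have h3 : ∑ ω, ((p ω).1.ord y).toNat = ∑ z : {v : Place K F // 0 < v.ord y}, (z.1.ord y).toNat :=
    Function.Bijective.sum_comp ⟨hinj, hsurj⟩ (fun z => (z.1.ord y).toNat)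
  have heq := eq_of_sum_le (fun ω => ((p ω).1.ord y).toNat) (fun ω => Nat.card ω.orbit) hle
    (by rw [h1, hcard, h3, h2'])
  obtain ⟨i, hi⟩ := exists_embedding y hy hfin w σ hσ hcard hK hy' hwK hwy' v hv
  have hvi : v = π i := Place.ext (hi.trans (hπ i).symm)
  have hP : (π i).ord y = (Function.minimalPeriod (g • ·) i : ℤ) := by
    have h4 := heq (Quotient.mk'' i)
    rw [MulAction.orbitRel.Quotient.orbit_mk, ← hperiod i] at h4
    have h5 : ((π i).ord y).toNat = Function.minimalPeriod (g • ·) i := h4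
    have := (hkey i).1
    omega
  refine ⟨i, fun f hf => ?_⟩
  obtain ⟨ϖ, hϖ⟩ := IsDiscreteValuationRing.exists_irreducible (π i).toValuationSubring
  have ha := log_val_eq (π i) (w.comap (σ i)) (hπ i) hϖ hy0
  have hb := log_val_eq (π i) (w.comap (σ i)) (hπ i) hϖ hf
  rw [Valuation.comap_apply, hwy i, log_exp, hP] at ha
  rw [Valuation.comap_apply] at hb
  rw [hvi, hb]
  have : (E : ℤ) = - ((Function.minimalPeriod (g • ·) i : ℤ) * log ((w.comap (σ i)) (ϖ : F))) := by
    linarith
  calc (E : ℤ) * (π i).ord f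
      = - ((Function.minimalPeriod (g • ·) i : ℤ) * log ((w.comap (σ i)) (ϖ : F))) * (π i).ord f := by
        rw [← this]
    _ = _ := by ring

theorem pow_minimalPeriod_smul {N : ℕ} (g : SL(2, ℤ)) (i : QN N) :
    g ^ Function.minimalPeriod (fun x : QN N => g • x) i • i = i := by
  have := Function.iterate_minimalPeriod (f := (g • · : QN N → QN N)) (x := i)
  rwa [smul_iterate] at this

/-- arithmetic core -/
theorem dvd_of_formula {E P m : ℕ} (hE : 0 < E) {o l : ℤ}
    (h1 : (E : ℤ) * o = - ((P : ℤ) * ((m : ℤ) * l))) (h2 : (E : ℤ) ∣ (P : ℤ) * l) : (m : ℤ) ∣ o := by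
  obtain ⟨t, ht⟩ := h2
  refine ⟨-t, ?_⟩
  have hE' : (E : ℤ) ≠ 0 := by exact_mod_cast hE.ne'
  apply mul_left_cancel₀ hE'
  rw [h1]
  calc -((P : ℤ) * ((m : ℤ) * l)) = - ((m : ℤ) * ((P : ℤ) * l)) := by ring
    _ = _ := by rw [ht]; ring

theorem dvd_ord_interior (N m : ℕ) [NeZero N] (c₀ : Kb) (τ : ℍ) (E : ℕ) (hE : 0 < E)
    (g : SL(2, ℤ)) (hfix : g • τ = τ)
    (hval : holVal τ (jH - algebraMap ℂ Hol (kappa c₀)) = exp (-(E : ℤ)))
    (hdiv : ∀ (h : ℕ) (x : Mer), x ≠ 0 → merAct (g ^ h) x = x →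
      (E : ℤ) ∣ (h : ℤ) * log (ordAt τ x))
    (n : ℕ) (hn : n ≠ 0) (hgn : g ^ n = 1)
    (c : Additive (Gamma0 N) →+ ℤ) (u : FN N) (hu0 : u ≠ 0) (h : Mer) (hh0 : h ≠ 0)
    (hpow : iota N u = h ^ m) (hchar : HasChar N m c h)
    (v : Place Kb (FN N)) (hv : 0 < v.ord (jN N - algebraMap Kb (FN N) c₀)) :
    (m : ℤ) ∣ v.ord u := by
  obtain ⟨i, hi⟩ := ord_formula (jN N - algebraMap Kb (FN N) c₀)
    (transcendental_sub_const _ _ (transcendental_jN N)) (finiteDimensional_sub N c₀)
    (ordAt τ) (sigma N) (sigma_injective N) (finrank_sub N c₀).symm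
    (fun i j a => by rw [sigma_algebraMap, sigma_algebraMap])
    (fun i j => by rw [sigma_jN_sub, sigma_jN_sub])
    (fun i a => by rw [sigma_algebraMap]; exact ordAt_const _ _)
    E hE (fun i => by rw [sigma_jN_sub, ordAt_algebraMap, hval]) g
    (fun i f => by
      rw [sigma_smul, ordAt_merAct]
      congr 2
      rw [inv_smul_eq_iff, hfix])
    (fun i f hf => by
      apply hdiv
      · exact (map_ne_zero _).mpr hf
      · rw [← sigma_smul, pow_minimalPeriod_smul]) v hv
  have h1 := hi u hu0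
  set P := Function.minimalPeriod (fun x : QN N => g • x) i with hP
  set x := merAct i.out h with hx
  have hx0 : x ≠ 0 := (map_ne_zero _).mpr hh0
  have h2 : sigma N i u = x ^ m := by
    rw [sigma_apply, hpow, map_pow]
  rw [h2, map_pow, WithZero.log_pow, nsmul_eq_mul] at h1
  refine dvd_of_formula hE h1 (hdiv P x hx0 ?_)
  refine merAct_fix hchar i (g ^ P) (pow_minimalPeriod_smul g i) (fun δ hδ => ?_)
  refine hom_eq_zero_of_pow c δ n hn ?_
  apply Subtype.ext
  rw [SubgroupClass.coe_pow, hδ, OneMemClass.coe_one]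
  have : (i.out⁻¹ * g ^ P * i.out) ^ n = i.out⁻¹ * (g ^ P) ^ n * i.out := by
    have := conj_pow (a := i.out⁻¹) (b := g ^ P) (i := n)
    simpa using this
  rw [this, ← pow_mul, mul_comm, pow_mul, hgn, one_pow]
  group

open Cusp in
theorem holAct_T_pow_toHol (N : ℕ) (b : HolB N) :
    holAct (ModularGroup.T ^ (N : ℤ)) (toHol N b) = toHol N b := by
  ext τ
  have h := (periodic_iff N (fn b)).mp b.2.2.1 ((ModularGroup.T ^ (N : ℤ))⁻¹ • τ)
  rw [smul_inv_smul] at h
  exact h.symm

open Cusp in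
/-- an `N`-periodic `m`-th root of an element of `MerB N` is in `MerB N` -/
theorem exists_merB_of_pow (N m : ℕ) (hm : m ≠ 0) (x : Mer) (β : MerB N)
    (hx : x ^ m = emb N β) (hper : merAct (ModularGroup.T ^ (N : ℤ)) x = x) :
    ∃ xB : MerB N, emb N xB = x := by
  obtain ⟨a, b, hb, rfl⟩ := Cusp.exists_div N β
  have hb' : algebraMap Hol Mer (toHol N b) ≠ 0 := by
    apply MerAux.algebraMap_ne_zero
    intro h
    exact hb (toHol_injective N (by rw [h, map_zero]))
  obtain ⟨m', rfl⟩ : ∃ m', m = m' + 1 := ⟨m - 1, by omega⟩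
  set z := x * algebraMap Hol Mer (toHol N b) with hz
  have hzm : z ^ (m' + 1) = algebraMap Hol Mer (toHol N (a * b ^ m')) := by
    rw [hz, mul_pow, hx, map_div₀, emb_algebraMap, emb_algebraMap, map_mul, map_mul, map_pow,
      map_pow, pow_succ]
    field_simp
  obtain ⟨z₀, hz₀⟩ := exists_hol_of_pow hm z _ hzm
  have hz₀m : z₀ ^ (m' + 1) = toHol N (a * b ^ m') := by
    apply IsFractionRing.injective Hol Mer
    rw [map_pow, hz₀, hzm]
  have hinv : holAct (ModularGroup.T ^ (N : ℤ)) z₀ = z₀ := by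
    apply IsFractionRing.injective Hol Mer
    rw [← merAct_algebraMap, hz₀, hz, map_mul, hper, merAct_algebraMap, holAct_T_pow_toHol]
  have hmem : (z₀ : ℍ → ℂ) ∈ HolB N := by
    refine ⟨z₀.2, ?_, ?_⟩
    · rw [periodic_iff]
      intro τ
      have h := congrFun (congrArg Subtype.val hinv) (ModularGroup.T ^ (N : ℤ) • τ)
      rw [holAct_apply, inv_smul_smul] at h
      exact h.symm
    · have hbd : IsBoundedAtImInfty (fn (a * b ^ m')) := (a * b ^ m').2.2.2
      rw [UpperHalfPlane.isBoundedAtImInfty_iff] at hbd ⊢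
      obtain ⟨M, A, hMA⟩ := hbd
      refine ⟨1 + M, A, fun τ hτ => ?_⟩
      have h1 : (z₀ : ℍ → ℂ) τ ^ (m' + 1) = fn (a * b ^ m') τ :=
        congrFun (congrArg Subtype.val hz₀m) τ
      have := norm_le_one_add_of_pow_eq hm h1
      linarith [hMA τ hτ]
  refine ⟨algebraMap (HolB N) (MerB N) ⟨z₀, hmem⟩ / algebraMap (HolB N) (MerB N) b, ?_⟩
  rw [map_div₀, emb_algebraMap, emb_algebraMap]
  have : toHol N ⟨(z₀ : ℍ → ℂ), hmem⟩ = z₀ := rfl
  rw [this, hz₀, hz, mul_div_assoc, div_self hb', mul_one]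

open Cusp in
theorem dvd_ord_cusp (N m : ℕ) [NeZero N] (hm : m ≠ 0)
    (c : Additive (Gamma0 N) →+ ℤ) (hc : c ∈ XN N) (u : FN N) (hu0 : u ≠ 0) (h : Mer) (hh0 : h ≠ 0)
    (hpow : iota N u = h ^ m) (hchar : HasChar N m c h)
    (v : Place Kb (FN N)) (hv : v.ord (jN N) < 0) :
    (m : ℤ) ∣ v.ord u := by
  have hy : Transcendental Kb (jN N)⁻¹ := fun h =>
    transcendental_jN N (by simpa using h.inv)
  have hfin : FiniteDimensional Kb⟮(jN N)⁻¹⟯ (FN N) := by
    rw [adjoin_inv]; exact finiteDimensional_FN N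
  have hcard : Nat.card (QN N) = Module.finrank Kb⟮(jN N)⁻¹⟯ (FN N) := by
    rw [adjoin_inv]; exact (finrank_FN N).symm
  have : Finite (QN N) := by
    apply Nat.finite_of_card_ne_zero
    rw [hcard]
    exact (Module.finrank_pos).ne'
  obtain ⟨i, hi⟩ := ord_formula (K := Kb) (F := FN N) (jN N)⁻¹ hy hfin (wB N)
    (sigmaB N) (sigmaB_injective N) hcard
    (fun i j a => by rw [sigmaB_algebraMap, sigmaB_algebraMap])
    (fun i j => by rw [map_inv₀, map_inv₀, sigmaB_jN, sigmaB_jN])
    (fun i a => by rw [sigmaB_algebraMap]; exact wB_const_le N _)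
    N (Nat.pos_of_ne_zero (NeZero.ne N))
    (fun i => by rw [map_inv₀, map_inv₀, sigmaB_jN, wB_jB, ← exp_neg])
    ModularGroup.T
    (fun i f => by
      apply wB_eq_of_merAct N 1
      rw [emb_sigmaB, emb_sigmaB, sigma_smul, zpow_one])
    (fun i f hf => by
      apply dvd_of_merAct N
      · exact (map_ne_zero _).mpr hf
      · rw [emb_sigmaB, zpow_natCast, ← sigma_smul, pow_minimalPeriod_smul]) v
    (by rw [Place.ord_inv]; omega)
  have h1 := hi u hu0
  set P := Function.minimalPeriod (fun x : QN N => ModularGroup.T • x) i with hP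
  set x := merAct i.out h with hx
  have hx0 : x ≠ 0 := (map_ne_zero _).mpr hh0
  have hpar : ∀ (k : ℤ) (δ : Gamma0 N), (δ : SL(2, ℤ)) = i.out⁻¹ * ModularGroup.T ^ k * i.out →
      c (Additive.ofMul δ) = 0 := by
    intro k δ hδ
    apply hc δ
    rw [hδ, Fermat.Agent.S21.DimBound.trace_conj_T_zpow]
    norm_num
  have hTN : ModularGroup.T ^ (N : ℤ) • i = i := by
    have h2 := conj_T_pow_mem N i.out⁻¹
    rw [inv_inv] at h2
    have h3 : ((i.out : SL(2, ℤ)) : QN N) = ((ModularGroup.T ^ (N : ℤ) * i.out : SL(2, ℤ)) : QN N) :=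
      QuotientGroup.eq.mpr (by rwa [← mul_assoc])
    have h4 : ModularGroup.T ^ (N : ℤ) • ((i.out : SL(2, ℤ)) : QN N) =
      ((ModularGroup.T ^ (N : ℤ) * i.out : SL(2, ℤ)) : QN N) := rfl
    rw [← h3, QuotientGroup.out_eq'] at h4
    exact h4
  have hper : merAct (ModularGroup.T ^ (N : ℤ)) x = x :=
    merAct_fix hchar i _ hTN (hpar _)
  have h2 : x ^ m = emb N (sigmaB N i u) := by
    rw [emb_sigmaB, sigma_apply, hpow, map_pow]
  obtain ⟨xB, hxB⟩ := exists_merB_of_pow N m hm x _ h2 hper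
  have hxB0 : xB ≠ 0 := by
    rintro rfl
    rw [map_zero] at hxB
    exact hx0 hxB.symm
  have h3 : sigmaB N i u = xB ^ m := by
    apply emb_injective N
    rw [← h2, map_pow, hxB]
  rw [h3, map_pow, WithZero.log_pow, nsmul_eq_mul] at h1
  refine dvd_of_formula (Nat.pos_of_ne_zero (NeZero.ne N)) h1 (dvd_of_merAct N P xB hxB0 ?_)
  rw [hxB]
  refine merAct_fix hchar i _ ?_ (hpar _)
  rw [zpow_natCast]
  exact pow_minimalPeriod_smul _ i

theorem pdiv_of_isKummer (N m : ℕ) [NeZero N] (c : Additive (Gamma0 N) →+ ℤ) (hc : c ∈ XN N)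
    (u : FN N) (hu : IsKummer N m c u) : PDiv Kb (FN N) m u := by
  obtain ⟨h, hh0, hpow, hchar⟩ := hu
  have hu0 : u ≠ 0 := by
    rintro rfl
    rw [map_zero] at hpow
    exact hh0 (eq_zero_of_pow_eq_zero hpow.symm)
  refine ⟨hu0, fun v => ?_⟩
  by_cases hm : m = 0
  · subst hm
    rw [pow_zero] at hpow
    have : u = 1 := (iota N).injective (by rw [hpow, map_one])
    rw [this, Place.ord_one]
    exact dvd_zero _
  by_cases hv : v.ord (jN N) < 0
  · exact dvd_ord_cusp N m hm c hc u hu0 h hh0 hpow hchar v hv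
  obtain ⟨c₀, hc₀⟩ := Diff.exists_ord_sub_pos (jN N) (transcendental_jN N) (finiteDimensional_FN N)
    v hv
  by_cases h0 : c₀ = 0
  · subst h0
    refine dvd_ord_interior N m 0 rho 3 (by norm_num) (ModularGroup.S * ModularGroup.T) ST_smul_rho
      ?_ three_dvd_of_merAct_ST_pow 6 (by norm_num) ?_ c u hu0 h hh0 hpow hchar v hc₀
    · rw [map_zero, map_zero, sub_zero, holVal_jH_rho]
      rfl
    · rw [show (6 : ℕ) = 3 * 2 by norm_num, pow_mul, ST_pow_three]
      simp
  by_cases h1 : c₀ = 1728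
  · subst h1
    refine dvd_ord_interior N m 1728 I 2 (by norm_num) ModularGroup.S S_smul_I
      ?_ two_dvd_of_merAct_S_pow 4 (by norm_num) ?_ c u hu0 h hh0 hpow hchar v hc₀
    · rw [map_ofNat, holVal_jH_sub_I]
      rfl
    · rw [show (4 : ℕ) = 2 * 2 by norm_num, pow_mul, S_pow_two]
      simp
  obtain ⟨τ, hτ⟩ := exists_jH_eq (kappa c₀)
  have hk0 : kappa c₀ ≠ 0 := (map_ne_zero kappa).mpr h0
  have hk1 : kappa c₀ ≠ 1728 := by
    intro h
    apply h1
    apply kappa.injective
    rw [h, map_ofNat]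
  have hval := holVal_jH_sub τ (by rw [hτ]; exact hk0) (by rw [hτ]; exact hk1)
  rw [hτ] at hval
  refine dvd_ord_interior N m c₀ τ 1 one_pos 1 (one_smul _ _) (by rw [hval]; rfl)
    (fun _ _ _ _ => by simp) 1 one_ne_zero (one_pow _) c u hu0 h hh0 hpow hchar v hc₀

end Fermat.Agent.S29
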