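import Fermat.Agent.S24.Embed

/-!
# S29/DICT-a : the order formula (refinement of `S24.card_zeroPlaces_eq_card_orbits`)  (helper14)
-/

set_option autoImplicit false
set_option linter.unusedSectionVars false

open AlgebraicCurve IntermediateField WithZero IsDedekindDomain Fermat.Agent.S24

namespace Fermat.Agent.S29.DictOrd

theorem eq_of_sum_eq {Ω : Type*} [Fintype Ω] (a b : Ω → ℕ) (hle : ∀ ω, a ω ≤ b ω)
    (hsum : ∑ ω, b ω ≤ ∑ ω, a ω) (ω : Ω) : a ω = b ω := by
  by_contra hne
  have hlt : a ω < b ω := lt_of_le_of_ne (hle ω) hne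
  have : ∑ ω, a ω < ∑ ω, b ω :=
    Finset.sum_lt_sum (fun i _ => hle i) ⟨ω, Finset.mem_univ _, hlt⟩
  omega

variable {K F : Type*} [Field K] [Field F] [Algebra K F] [IsAlgClosed K] [CharZero K]

theorem ord_formula
    (y : F) (hy : Transcendental K y) (hfin : FiniteDimensional K⟮y⟯ F)
    {L : Type*} [Field L] (w : Valuation L ℤᵐ⁰)
    {X : Type*} [Finite X] (σ : X → F →+* L) (hσ : Function.Injective σ)
    (hcard : Nat.card X = Module.finrank K⟮y⟯ F)
    (hK : ∀ i j (a : K), σ i (algebraMap K F a) = σ j (algebraMap K F a))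
    (hy' : ∀ i j, σ i y = σ j y)
    (hwK : ∀ i (a : K), w (σ i (algebraMap K F a)) ≤ 1)
    (E : ℕ) (hE : 0 < E) (hwy : ∀ i, w (σ i y) = exp (-(E : ℤ)))
    {G : Type*} [Group G] [MulAction G X] (g : G)
    (hg : ∀ i f, w (σ (g • i) f) = w (σ i f))
    (hdiv : ∀ i f, f ≠ 0 →
      (E : ℤ) ∣ (Function.minimalPeriod (g • ·) i : ℤ) * log (w (σ i f)))
    (v : Place K F) (hv : 0 < v.ord y) :
    ∃ i, v.toValuationSubring = (w.comap (σ i)).valuationSubring ∧ ∀ f : F, f ≠ 0 →
      (E : ℤ) * v.ord f = - ((Function.minimalPeriod (g • ·) i : ℤ) * log (w (σ i f))) := by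
  classical
  have hEZ : (0 : ℤ) < (E : ℤ) := by exact_mod_cast hE
  have hwy' : ∀ i, w (σ i y) < 1 := fun i => by
    rw [hwy i, ← WithZero.exp_zero, WithZero.exp_lt_exp]; omega
  have hy0 : y ≠ 0 := by
    rintro rfl
    exact hy isAlgebraic_zero
  have hex : ∀ i, ∃ v : Place K F, v.toValuationSubring = (w.comap (σ i)).valuationSubring :=
    fun i => exists_place_of_valuationSubring y hy hfin _
      (comap_valuationSubring_ne_top w (σ i) hy0 (hwy' i)) (hwK i) (hwy' i).le
  choose π hπ using hex
  have := Fintype.ofFinite X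
  have hperiod : ∀ i : X, Function.minimalPeriod (g • ·) i =
      Nat.card (MulAction.orbit (Subgroup.zpowers g) i) := fun i => by
    have := Fintype.ofFinite (MulAction.orbit (Subgroup.zpowers g) i)
    rw [MulAction.minimalPeriod_eq_card, Nat.card_eq_fintype_card]
  have hkey : ∀ i, 0 < (π i).ord y ∧
      (π i).ord y ≤ (Function.minimalPeriod (g • ·) i : ℤ) := by
    intro i
    obtain ⟨ϖ, hϖ⟩ := IsDiscreteValuationRing.exists_irreducible (π i).toValuationSubring
    have hϖ0 : (ϖ : F) ≠ 0 := by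
      simpa [ne_eq, ZeroMemClass.coe_eq_zero] using hϖ.ne_zero
    have h := log_val_eq (π i) (w.comap (σ i)) (hπ i) hϖ hy0
    have hc := log_val_irreducible_neg (π i) (w.comap (σ i)) (hπ i) hϖ
    rw [Valuation.comap_apply, hwy i, log_exp] at h
    rw [Valuation.comap_apply] at h hc
    set c := log (w (σ i (ϖ : F))) with hcdef
    have hpos : 0 < (π i).ord y := by
      by_contra hle
      have h1 : (π i).ord y ≤ 0 := not_lt.mp hle
      have h2 : 0 ≤ (π i).ord y * c := mul_nonneg_of_nonpos_of_nonpos h1 hc.le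
      omega
    refine ⟨hpos, ?_⟩
    have hd := hdiv i (ϖ : F) hϖ0
    rw [← hcdef] at hd
    have hd2 : (π i).ord y * c ∣ (Function.minimalPeriod (g • ·) i : ℤ) * c := by
      rw [← h]; exact (neg_dvd).mpr hd
    have hd3 : (π i).ord y ∣ (Function.minimalPeriod (g • ·) i : ℤ) :=
      (mul_dvd_mul_iff_right hc.ne).mp hd2
    refine Int.le_of_dvd ?_ hd3
    rw [hperiod i]
    have : Nonempty (MulAction.orbit (Subgroup.zpowers g) i) :=
      (MulAction.nonempty_orbit i).to_subtype
    exact_mod_cast Nat.card_pos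
  let H : Subgroup G :=
    { carrier := {h | ∀ i f, w (σ (h • i) f) = w (σ i f)}
      mul_mem' := fun {a b} ha hb i f => by rw [mul_smul, ha, hb]
      one_mem' := fun i f => by rw [one_smul]
      inv_mem' := fun {a} ha i f => by
        have := ha (a⁻¹ • i) f
        rw [smul_inv_smul] at this
        exact this.symm }
  have hH : Subgroup.zpowers g ≤ H := by
    rw [Subgroup.zpowers_le]; exact hg
  have hπinv : ∀ i j, MulAction.orbitRel (Subgroup.zpowers g) X i j → π i = π j := by
    rintro i j ⟨k, rfl⟩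
    apply Place.ext
    rw [hπ, hπ]
    ext f
    rw [Valuation.mem_valuationSubring_iff, Valuation.mem_valuationSubring_iff,
      Valuation.comap_apply, Valuation.comap_apply]
    have : w (σ ((k : G) • j) f) = w (σ j f) := hH k.2 j f
    rw [← this]
    rfl
  have : Finite {v : Place K F // 0 < v.ord y} := (finite_zeroPlaces y hy hfin).to_subtype
  have := Fintype.ofFinite {v : Place K F // 0 < v.ord y}
  have := Fintype.ofFinite (MulAction.orbitRel.Quotient (Subgroup.zpowers g) X)
  let p : MulAction.orbitRel.Quotient (Subgroup.zpowers g) X → {v : Place K F // 0 < v.ord y} :=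
    Quotient.lift (fun i => (⟨π i, (hkey i).1⟩ : {v : Place K F // 0 < v.ord y}))
      (fun i j hij => Subtype.ext (hπinv i j hij))
  have hsurj : Function.Surjective p := by
    rintro ⟨v, hv⟩
    obtain ⟨i, hi⟩ := exists_embedding y hy hfin w σ hσ hcard hK hy' hwK hwy' v hv
    refine ⟨Quotient.mk'' i, Subtype.ext ?_⟩
    apply Place.ext
    exact (hπ i).trans hi.symm
  have hcardeq := card_zeroPlaces_eq_card_orbits y hy hfin w σ hσ hcard hK hy' hwK E hE hwy g hg hdiv
  have hbij : Function.Bijective p := by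
    rw [Fintype.bijective_iff_surjective_and_card]
    refine ⟨hsurj, ?_⟩
    rw [← Nat.card_eq_fintype_card, ← Nat.card_eq_fintype_card, hcardeq]
  have h1 : ∑ ω : MulAction.orbitRel.Quotient (Subgroup.zpowers g) X, Nat.card ω.orbit =
      Nat.card X := by
    rw [Nat.card_congr (MulAction.selfEquivSigmaOrbits' (Subgroup.zpowers g) X),
      Nat.card_sigma]
  have h2 : ((∑ z : {v : Place K F // 0 < v.ord y}, (z.1.ord y).toNat : ℕ) : ℤ) =
      (Module.finrank K⟮y⟯ F : ℤ) := by
    rw [← sum_ord_zeroPlaces y hy hfin, Nat.cast_sum, ← finsum_eq_sum_of_fintype]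
    rw [← finsum_set_coe_eq_finsum_mem (f := fun v : Place K F => v.ord y)
      {v : Place K F | 0 < v.ord y}]
    refine finsum_congr fun z => ?_
    exact Int.toNat_of_nonneg z.2.le
  have h3 : ∑ ω : MulAction.orbitRel.Quotient (Subgroup.zpowers g) X, ((p ω).1.ord y).toNat =
      ∑ z : {v : Place K F // 0 < v.ord y}, (z.1.ord y).toNat :=
    Fintype.sum_bijective p hbij _ _ (fun _ => rfl)
  have hterm := eq_of_sum_eq
    (fun ω : MulAction.orbitRel.Quotient (Subgroup.zpowers g) X => ((p ω).1.ord y).toNat)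
    (fun ω => Nat.card ω.orbit)
    (by
      intro ω
      induction ω using Quotient.inductionOn' with
      | h i =>
        rw [MulAction.orbitRel.Quotient.orbit_mk, ← hperiod i]
        have := (hkey i).2
        show ((π i).ord y).toNat ≤ _
        omega)
    (by
      rw [h1, h3, hcard]
      exact le_of_eq (by exact_mod_cast h2.symm))
  obtain ⟨i, hi⟩ := exists_embedding y hy hfin w σ hσ hcard hK hy' hwK hwy' v hv
  have hvi : v = π i := Place.ext (hi.trans (hπ i).symm)
  refine ⟨i, hi, fun f hf => ?_⟩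
  have hP : v.ord y = (Function.minimalPeriod (g • ·) i : ℤ) := by
    have h4 := hterm (Quotient.mk'' i)
    rw [MulAction.orbitRel.Quotient.orbit_mk, ← hperiod i] at h4
    have h5 : ((π i).ord y).toNat = Function.minimalPeriod (g • ·) i := h4
    rw [hvi]
    have := (hkey i).1
    omega
  obtain ⟨ϖ, hϖ⟩ := IsDiscreteValuationRing.exists_irreducible v.toValuationSubring
  have hA := log_val_eq v (w.comap (σ i)) hi hϖ hy0
  have hB := log_val_eq v (w.comap (σ i)) hi hϖ hf
  rw [Valuation.comap_apply, hwy i, log_exp, hP] at hA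
  rw [Valuation.comap_apply] at hB
  rw [hB]
  set c := log ((w.comap (σ i)) (ϖ : F))
  have : (E : ℤ) = - ((Function.minimalPeriod (g • ·) i : ℤ) * c) := by linarith
  rw [this]
  ring

end Fermat.Agent.S29.DictOrd
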