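import Fermat.Agent.S29.Wiring
import Fermat.Agent.ES.AlgES
import Fermat.Agent.ES.AlgOrd

/-!
# S29/ESREL : `ES1 N m`, `ES2 N m` from (KL)

`f = T_ℓ u / (σ u · (σ⁻¹ u)^ℓ)` has divisor divisible by `m` and is `≡ 1` up to a constant
(`ES.Alg.cong_frob`), so it is an `m`-th power (`ES.Alg.KL_general`).  Same for inertia.
General exponent `m` (prime to `ℓ`).
-/

set_option autoImplicit false

open ModularCurve AlgebraicCurve
open Fermat.Agent.S24 Fermat.Agent.ES.Alg Fermat.Agent.S18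

noncomputable section

namespace Fermat.Agent.S29

section PDiv

variable {K F : Type*} [Field K] [Field F] [Algebra K F] {m : ℕ}

theorem PDiv.mul {u v : F} (hu : PDiv K F m u) (hv : PDiv K F m v) : PDiv K F m (u * v) :=
  ⟨mul_ne_zero hu.1 hv.1, fun P => by
    rw [P.ord_mul hu.1 hv.1]; exact dvd_add (hu.2 P) (hv.2 P)⟩

theorem PDiv.inv {u : F} (hu : PDiv K F m u) : PDiv K F m u⁻¹ :=
  ⟨inv_ne_zero hu.1, fun P => by rw [P.ord_inv]; exact (dvd_neg).mpr (hu.2 P)⟩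

theorem PDiv.one : PDiv K F m (1 : F) :=
  ⟨one_ne_zero, fun P => by rw [P.ord_one]; exact dvd_zero _⟩

theorem PDiv.pow {u : F} (hu : PDiv K F m u) (n : ℕ) : PDiv K F m (u ^ n) := by
  induction n with
  | zero => rw [pow_zero]; exact PDiv.one
  | succ n ih => rw [pow_succ]; exact ih.mul hu

end PDiv

/-- (KL) at all good places -/
def KLAll (N : ℕ) [NeZero N] : Prop :=
  ∀ (ℓ : ℕ) (A : ValuationSubring Kb), ℓ.Prime → ¬ ℓ ∣ N → A.LiesOverPrime ℓ → KLStatement N ℓ A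

theorem es1_of_KL (N m : ℕ) [NeZero N] (hKL : KLAll N) : ES1 N m := by
  intro ℓ hℓ hM A hA σ hσ u hu
  have : NeZero ℓ := ⟨hℓ.ne_zero⟩
  have hN : ¬ ℓ ∣ N := fun h => hM (Dvd.dvd.mul_right h m)
  have hm : ¬ ℓ ∣ m := fun h => hM (Dvd.dvd.mul_left h N)
  obtain ⟨c, hc, hcong⟩ := cong_frob hℓ hN hA hσ u hu.1
  have hf : PDiv Kb (FN N) m (Tl N ℓ u * (gal N σ u)⁻¹ * ((gal N σ⁻¹ u) ^ ℓ)⁻¹) :=
    ((PDiv.Tl N ℓ hu).mul (PDiv.gal hu σ).inv).mul ((PDiv.gal hu σ⁻¹).pow ℓ).inv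
  obtain ⟨g, hg⟩ := KL_general (hKL ℓ A hℓ hN hA) m hm _ hf c hc hcong
  refine ⟨g, ?_⟩
  have h1 : gal N σ u ≠ 0 := (PDiv.gal hu σ).1
  have h2 : (gal N σ⁻¹ u) ^ ℓ ≠ 0 := ((PDiv.gal hu σ⁻¹).pow ℓ).1
  rw [hg]
  field_simp

theorem es2_of_KL (N m : ℕ) [NeZero N] (hKL : KLAll N) : ES2 N m := by
  intro ℓ hℓ hM A hA τ hτ u hu
  have hN : ¬ ℓ ∣ N := fun h => hM (Dvd.dvd.mul_right h m)
  have hm : ¬ ℓ ∣ m := fun h => hM (Dvd.dvd.mul_left h N)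
  obtain ⟨c, hc, hcong⟩ := cong_inertia hτ u hu.1
  have hf : PDiv Kb (FN N) m (gal N τ u * u⁻¹) := (PDiv.gal hu τ).mul hu.inv
  obtain ⟨g, hg⟩ := KL_general (hKL ℓ A hℓ hN hA) m hm _ hf c hc hcong
  refine ⟨g, ?_⟩
  have h1 : u ≠ 0 := hu.1
  rw [hg]
  field_simp

end Fermat.Agent.S29
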