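import Mathlib

/-!
# S29/EIG : reduction of a system of eigenvalues (Mathlib only)

`X` a free `ℤ`-module of finite rank with commuting endomorphisms `T i`; an eigenvector in `ℂ ⊗ X`
with eigenvalues `a i` (algebraic integers) gives, for every ring homomorphism `φ : ℤ̄ → k` to a field,
a nonzero eigenvector in `k ⊗ X` with eigenvalues `φ (a i)`.

Proof 1.  `𝕋 = ℤ[T i] ⊆ End X` is a finite `ℤ`-algebra, `λ : 𝕋 → ℤ̄` the eigencharacter,
`𝔪 = ker (φ ∘ λ)`.  `𝕋` also acts faithfully on `X* = Hom(X, ℤ)`, which is finite over `𝕋`, so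
`𝔪 X* ≠ X*` (Nakayama / `Ideal` localisation at `𝔪`), and a nonzero `𝕋/𝔪`-linear form on `X*/𝔪X*`
composed with `𝕋/𝔪 → k` is an element of `Hom(X*, k) = k ⊗ X` killed by `t - φ(λ t)`.
Proof 2.  The eigenspace is defined over the number field `E = ℚ(a i)` (finitely many `T i` generate);
scale an eigenvector in `E ⊗ X` to be primitive at the prime `ker φ ∩ 𝓞_E` (localisation = DVR), reduce.
-/

set_option autoImplicit false

open TensorProduct

namespace Fermat.Agent.S29

namespace EigAux

/-- a finite faithful module over a commutative ring has a nonzero `ψ`-semilinear form, for every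
ring homomorphism `ψ` to a field. -/
theorem exists_functional {𝕋 M k : Type*} [CommRing 𝕋] [AddCommGroup M] [Module 𝕋 M]
    [Module.Finite 𝕋 M] [FaithfulSMul 𝕋 M] [Field k] (ψ : 𝕋 →+* k) :
    ∃ g : M →+ k, g ≠ 0 ∧ ∀ (t : 𝕋) (m : M), g (t • m) = ψ t * g m := by
  have hprime : (RingHom.ker ψ).IsPrime := RingHom.ker_isPrime ψ
  let p : PrimeSpectrum 𝕋 := ⟨RingHom.ker ψ, hprime⟩
  have hsupp : p ∈ Module.support 𝕋 M := by
    rw [Module.mem_support_iff_of_finite, Module.annihilator_eq_bot.mpr inferInstance]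
    exact bot_le
  have hnt : Nontrivial ((RingHom.ker ψ).ResidueField ⊗[𝕋] M) :=
    (Module.mem_support_iff_nontrivial_residueField_tensorProduct p).mp hsupp
  obtain ⟨v, hv⟩ := exists_ne (0 : (RingHom.ker ψ).ResidueField ⊗[𝕋] M)
  obtain ⟨f, hf⟩ : ∃ f : Module.Dual (RingHom.ker ψ).ResidueField
      ((RingHom.ker ψ).ResidueField ⊗[𝕋] M), f v ≠ 0 := by
    by_contra hcon
    push Not at hcon
    exact hv ((Module.forall_dual_apply_eq_zero_iff (RingHom.ker ψ).ResidueField v).mp hcon)
  let ι : (RingHom.ker ψ).ResidueField →+* k :=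
    Ideal.ResidueField.lift (RingHom.ker ψ) ψ le_rfl (fun t ht => by
      have : ψ t ≠ 0 := ht
      exact isUnit_iff_ne_zero.mpr this)
  refine ⟨⟨⟨fun m => ι (f (1 ⊗ₜ m)), by simp⟩, fun m m' => by simp [tmul_add]⟩, ?_, ?_⟩
  · intro hg
    have h0 : ∀ m : M, f (1 ⊗ₜ m) = 0 := by
      intro m
      have := DFunLike.congr_fun hg m
      simpa using this
    have h1 : ∀ w, f w = 0 := by
      intro w
      induction w using TensorProduct.induction_on with
      | zero => simp
      | tmul c m =>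
        have : c ⊗ₜ[𝕋] m = c • ((1 : (RingHom.ker ψ).ResidueField) ⊗ₜ[𝕋] m) := by
          rw [smul_tmul', smul_eq_mul, mul_one]
        rw [this, map_smul, h0, smul_zero]
      | add a b ha hb => rw [map_add, ha, hb, add_zero]
    exact hf (h1 v)
  · intro t m
    change ι (f (1 ⊗ₜ (t • m))) = ψ t * ι (f (1 ⊗ₜ m))
    have h2 : (1 : (RingHom.ker ψ).ResidueField) ⊗ₜ[𝕋] (t • m)
        = (algebraMap 𝕋 (RingHom.ker ψ).ResidueField t) • ((1 : (RingHom.ker ψ).ResidueField) ⊗ₜ[𝕋] m) := by
      rw [smul_tmul', smul_eq_mul, mul_one, tmul_smul, smul_tmul', Algebra.smul_def, mul_one]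
    rw [h2, map_smul, smul_eq_mul, map_mul]
    congr 1
    exact Ideal.ResidueField.lift_algebraMap _ _ _ _ t

/-- from a semilinear form on the dual to an eigenvector -/
theorem exists_vector {X : Type*} [AddCommGroup X] [Module.Free ℤ X] [Module.Finite ℤ X]
    {k : Type*} [Field k] (g : Module.Dual ℤ X →+ k) (hg : g ≠ 0) :
    ∃ y : k ⊗[ℤ] X, y ≠ 0 ∧ ∀ (t : Module.End ℤ X) (c : k),
      (∀ m : Module.Dual ℤ X, g (m ∘ₗ t) = c * g m) → t.baseChange k y = c • y := by
  classical
  let b := Module.Free.chooseBasis ℤ X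
  refine ⟨∑ j, g (b.coord j) ⊗ₜ[ℤ] b j, ?_, ?_⟩
  · intro hy
    apply hg
    have h1 : ∑ j, g (b.coord j) • (b.baseChange k) j = 0 := by
      rw [← hy]
      refine Finset.sum_congr rfl fun j _ => ?_
      rw [Module.Basis.baseChange_apply, smul_tmul', smul_eq_mul, mul_one]
    have h2 := Fintype.linearIndependent_iff.mp (b.baseChange k).linearIndependent _ h1
    ext m
    rw [← b.sum_dual_apply_smul_coord m, map_sum]
    simp [h2]
  · intro t c htc
    rw [map_sum, Finset.smul_sum]
    have h1 : ∀ j, t.baseChange k (g (b.coord j) ⊗ₜ[ℤ] b j)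
        = ∑ l, (((b.coord l) (t (b j))) • g (b.coord j)) ⊗ₜ[ℤ] b l := by
      intro j
      rw [LinearMap.baseChange_tmul]
      conv_lhs => rw [← b.sum_repr (t (b j))]
      rw [tmul_sum]
      refine Finset.sum_congr rfl fun l _ => ?_
      rw [tmul_smul, smul_tmul', Module.Basis.coord_apply]
    simp_rw [h1]
    rw [Finset.sum_comm]
    refine Finset.sum_congr rfl fun l _ => ?_
    rw [← sum_tmul, smul_tmul', smul_eq_mul, ← htc]
    congr 1
    rw [← b.sum_dual_apply_smul_coord ((b.coord l) ∘ₗ t), map_sum]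
    refine Finset.sum_congr rfl fun j _ => ?_
    rw [map_zsmul, LinearMap.comp_apply]

end EigAux

open EigAux

theorem exists_eigenvector_mod {X : Type} [AddCommGroup X] [Module.Free ℤ X] [Module.Finite ℤ X]
    {ι : Type} (T : ι → Module.End ℤ X) (hcomm : ∀ i j, Commute (T i) (T j))
    (a : ι → integralClosure ℤ ℂ) (x : ℂ ⊗[ℤ] X) (hx : x ≠ 0)
    (hT : ∀ i, (T i).baseChange ℂ x = ((a i : ℂ)) • x)
    {k : Type} [Field k] (φ : integralClosure ℤ ℂ →+* k) :
    ∃ y : k ⊗[ℤ] X, y ≠ 0 ∧ ∀ i, (T i).baseChange k y = φ (a i) • y := by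
  let s : Set (Module.End ℤ X × integralClosure ℤ ℂ) := Set.range fun i => (T i, a i)
  have hs : ∀ u ∈ s, ∀ v ∈ s, u * v = v * u := by
    rintro _ ⟨i, rfl⟩ _ ⟨j, rfl⟩
    exact Prod.ext (hcomm i j) (mul_comm _ _)
  have hmc : IsMulCommutative (Algebra.adjoin ℤ s) := Algebra.isMulCommutative_adjoin ℤ hs
  let _ : CommRing (Algebra.adjoin ℤ s) :=
    { (inferInstance : Ring (Algebra.adjoin ℤ s)) with mul_comm := fun u v => hmc.is_comm.comm u v }
  -- the eigen-property on the whole algebra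
  have hE : ∀ τ ∈ Algebra.adjoin ℤ s, (τ.1).baseChange ℂ x = ((τ.2 : ℂ)) • x := by
    intro τ hτ
    induction hτ using Algebra.adjoin_induction with
    | mem u hu =>
      obtain ⟨i, rfl⟩ := hu
      exact hT i
    | algebraMap r =>
      have h1 : ((algebraMap ℤ (Module.End ℤ X × integralClosure ℤ ℂ)) r).1 = r • (1 : Module.End ℤ X) := by
        simp
      have h2 : ((((algebraMap ℤ (Module.End ℤ X × integralClosure ℤ ℂ)) r).2 : integralClosure ℤ ℂ) : ℂ)
          = (r : ℂ) := by
        simp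
      rw [h1, h2, LinearMap.baseChange_smul, LinearMap.smul_apply]
      have h3 : LinearMap.baseChange ℂ (1 : Module.End ℤ X) = LinearMap.id := LinearMap.baseChange_id
      rw [h3, LinearMap.id_apply, Int.cast_smul_eq_zsmul]
    | add u v _ _ hu hv =>
      rw [Prod.fst_add, Prod.snd_add, LinearMap.baseChange_add, LinearMap.add_apply, hu, hv,
        ← add_smul]
      simp
    | mul u v _ _ hu hv =>
      rw [Prod.fst_mul, Prod.snd_mul, LinearMap.baseChange_mul, Module.End.mul_apply, hv, map_smul, hu,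
        smul_smul, mul_comm]
      simp
  let ρ : Algebra.adjoin ℤ s →+* Module.End ℤ (Module.Dual ℤ X) :=
    { toFun := fun τ => Module.Dual.transpose (R := ℤ) τ.1.1
      map_one' := by
        ext m y
        rfl
      map_mul' := fun τ σ => by
        rw [mul_comm τ σ]
        ext m y
        rfl
      map_zero' := by
        ext m y
        simp
      map_add' := fun τ σ => by
        ext m y
        simp }
  let _ : Module (Algebra.adjoin ℤ s) (Module.Dual ℤ X) := Module.compHom _ ρ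
  have hsmul : ∀ (τ : Algebra.adjoin ℤ s) (m : Module.Dual ℤ X), τ • m = m ∘ₗ τ.1.1 := fun τ m => rfl
  have hfin : Module.Finite (Algebra.adjoin ℤ s) (Module.Dual ℤ X) := by
    have htower : IsScalarTower ℤ (Algebra.adjoin ℤ s) (Module.Dual ℤ X) := by
      refine ⟨fun n τ m => ?_⟩
      rw [hsmul, hsmul]
      ext y
      simp
    exact Module.Finite.of_restrictScalars_finite ℤ _ _
  have hfaith : FaithfulSMul (Algebra.adjoin ℤ s) (Module.Dual ℤ X) := by
    refine ⟨fun {τ σ} h => ?_⟩
    have h1 : τ.1.1 = σ.1.1 := by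
      ext y
      rw [← sub_eq_zero, ← Module.forall_dual_apply_eq_zero_iff ℤ]
      intro m
      have := DFunLike.congr_fun (h m) y
      rw [hsmul, hsmul, LinearMap.comp_apply, LinearMap.comp_apply] at this
      rw [map_sub, this, sub_self]
    have h2 : τ.1.2 = σ.1.2 := by
      have h3 := hE τ.1 τ.2
      rw [h1, hE σ.1 σ.2] at h3
      have h4 : ((σ.1.2 : ℂ) - (τ.1.2 : ℂ)) • x = 0 := by rw [sub_smul, h3, sub_self]
      have h5 := (smul_eq_zero.mp h4).resolve_right hx
      exact Subtype.ext (sub_eq_zero.mp h5).symm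
    exact Subtype.ext (Prod.ext h1 h2)
  let ψ : Algebra.adjoin ℤ s →+* k :=
    (φ.comp (RingHom.snd (Module.End ℤ X) (integralClosure ℤ ℂ))).comp
      (Algebra.adjoin ℤ s).subtype
  obtain ⟨g, hg, hgψ⟩ := exists_functional (M := Module.Dual ℤ X) ψ
  obtain ⟨y, hy, hyT⟩ := exists_vector g hg
  refine ⟨y, hy, fun i => hyT (T i) (φ (a i)) fun m => ?_⟩
  exact hgψ ⟨(T i, a i), Algebra.subset_adjoin ⟨i, rfl⟩⟩ m

/-- eigenvalues on a lattice are algebraic integers -/
theorem isIntegral_of_eigenvalue {X : Type} [AddCommGroup X] [Module.Free ℤ X] [Module.Finite ℤ X]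
    (T : Module.End ℤ X) (a : ℂ) (x : ℂ ⊗[ℤ] X) (hx : x ≠ 0) (hT : T.baseChange ℂ x = a • x) :
    IsIntegral ℤ a := by
  refine ⟨T.charpoly, LinearMap.charpoly_monic T, ?_⟩
  have h1 : Module.End.HasEigenvector (T.baseChange ℂ) a x :=
    ⟨Module.End.mem_eigenspace_iff.mpr hT, hx⟩
  have h2 := Module.End.aeval_apply_of_hasEigenvector (p := (T.baseChange ℂ).charpoly) h1
  rw [LinearMap.aeval_self_charpoly, LinearMap.zero_apply, LinearMap.charpoly_baseChange] at h2
  have h3 := (smul_eq_zero.mp h2.symm).resolve_right hx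
  rwa [Polynomial.eval_map] at h3

end Fermat.Agent.S29
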