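import Fermat.Agent.S29.Defs
import Fermat.Agent.S16.LPeriod
import Fermat.Agent.S16.LData
import Fermat.Agent.S21
import Fermat.Agent.S49.QCoeff
import Fermat.Prelude.Def_FLTPrelim_Modularity
import Fermat.Prelude.Def_FLTPrelim_ModularRep
import Fermat.Prelude.Thm_CuspForm_heckeTLin_comm

/-!
# S29/HX, S29/EF : the Hecke operators on the lattice `XN N = Hom_par(Γ₀(N), ℤ)`

`exists_heckeX`.  By S21 (`Fermat.Agent.S21.result`) every `ψ ∈ parabolicHoms ℂ (Gamma0 N) ℂ` is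
`periodHomPair N (f, g)`; put `T ψ = periodHomPair N (T_ℓ f, T_ℓ g)`.  By
`S16.Lower.periodHomPair_heckeTLin`, `(T ψ) γ = ∑ i, ψ (D.δ i)` for every `HData`
(`S16.Lower.nonempty_HData_T`), so `T ψ` is `ℤ`-valued when `ψ` is.  Additivity in `c` from the formula.

`finite_free_XN`.  `Γ₀(N)` is finitely generated (finite index in `SL(2,ℤ) = ⟨S, T⟩`), so
`Additive (Gamma0 N) →+ ℤ` embeds in `ℤ ^ r`.

`exists_eigen_XN`.  `ℂ ⊗ XN N → parabolicHoms ℂ` is an isomorphism (the conditions are `ℤ`-linear);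
only surjectivity + compatibility with `T` is needed; the eigenvector is `periodHomPair N (g, 0)`,
nonzero by the injectivity part of S21.

`heckeTLin_eq_smul` (S29/EF): compare `q`-coefficients (`S49.qCoeff_heckeTLin`, `S49.eq_zero_of_qCoeff`)
using the multiplicativity relations in `IsNormalizedEigenform`.
-/

set_option autoImplicit false

open UpperHalfPlane ModularForm ModularFormClass ModularCurve CongruenceSubgroup TensorProduct
open ModularCurve.Period Fermat.Agent.S24 Fermat.Agent.S16.Lower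
open scoped MatrixGroups Manifold

noncomputable section

namespace Fermat.Agent.S29

namespace HeckeXAux

instance fg_SL2Z : Group.FG SL(2, ℤ) :=
  ⟨⟨{ModularGroup.S, ModularGroup.T}, by
    simpa using SpecialLinearGroup.SL2Z_generators⟩⟩

theorem finite_hom (G : Type) [Group G] [Group.FG G] : Module.Finite ℤ (Additive G →+ ℤ) := by
  obtain ⟨S, hS⟩ := (Group.FG.out : (⊤ : Subgroup G).FG)
  let ev : (Additive G →+ ℤ) →ₗ[ℤ] (S → ℤ) :=
    { toFun := fun φ s => φ (Additive.ofMul (s : G))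
      map_add' := fun _ _ => rfl
      map_smul' := fun _ _ => rfl }
  have hinj : Function.Injective ev := by
    rw [← LinearMap.ker_eq_bot, LinearMap.ker_eq_bot']
    intro φ hφ
    have key : ∀ g : G, φ (Additive.ofMul g) = 0 := by
      intro g
      have hg : g ∈ Subgroup.closure (S : Set G) := by rw [hS]; trivial
      induction hg using Subgroup.closure_induction with
      | mem x hx => exact congrFun hφ ⟨x, hx⟩
      | one => exact map_zero φ
      | mul x y _ _ hx hy =>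
        rw [ofMul_mul, map_add, hx, hy, add_zero]
      | inv x _ hx => rw [ofMul_inv, map_neg, hx, neg_zero]
    exact AddMonoidHom.ext fun g => key (Additive.toMul g)
  exact Module.Finite.of_injective ev hinj

/-- an integral homomorphism, viewed with complex values -/
def castC (N : ℕ) : (Additive (Gamma0 N) →+ ℤ) →ₗ[ℤ] (Additive (Gamma0 N) →+ ℂ) where
  toFun c := (Int.castAddHom ℂ).comp c
  map_add' c c' := by ext γ; simp
  map_smul' n c := by ext γ; simp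

@[simp] theorem castC_apply (N : ℕ) (c : Additive (Gamma0 N) →+ ℤ) (γ : Additive (Gamma0 N)) :
    castC N c γ = (c γ : ℂ) := rfl

theorem castC_injective (N : ℕ) : Function.Injective (castC N) := by
  intro c c' h
  refine AddMonoidHom.ext fun γ => ?_
  have := DFunLike.congr_fun h γ
  rw [castC_apply, castC_apply] at this
  exact_mod_cast this

theorem castC_mem {N : ℕ} {c : Additive (Gamma0 N) →+ ℤ} (hc : c ∈ XN N) :
    castC N c ∈ parabolicHoms ℂ (Gamma0 N) ℂ := by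
  intro γ hγ
  rw [castC_apply, hc γ hγ, Int.cast_zero]

theorem exists_pair {N : ℕ} [NeZero N] {ψ : Additive (Gamma0 N) →+ ℂ}
    (hψ : ψ ∈ parabolicHoms ℂ (Gamma0 N) ℂ) :
    ∃ f g : CuspForm (Gamma0 N) 2, periodHomPair N (f, g) = ψ := by
  rw [← (Fermat.Agent.S21.result N).2] at hψ
  obtain ⟨⟨f, g⟩, h⟩ := hψ
  exact ⟨f, g, h⟩

theorem periodHomPair_mem (N : ℕ) [NeZero N] (fg : CuspForm (Gamma0 N) 2 × CuspForm (Gamma0 N) 2) :
    periodHomPair N fg ∈ parabolicHoms ℂ (Gamma0 N) ℂ := by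
  rw [← (Fermat.Agent.S21.result N).2]
  exact ⟨fg, rfl⟩

theorem cast_sum_eq {N ℓ : ℕ} [NeZero N] (hℓ : ℓ.Prime) (hN : ¬ ℓ ∣ N)
    (c : Additive (Gamma0 N) →+ ℤ) (f g : CuspForm (Gamma0 N) 2)
    (h : periodHomPair N (f, g) = castC N c) (γ : Gamma0 N) (D : HData N (matT ℓ) γ) :
    ((∑ i, c (Additive.ofMul (D.δ i)) : ℤ) : ℂ) =
      periodHomPair N (CuspForm.heckeTLin 2 hℓ hN f, CuspForm.heckeTLin 2 hℓ hN g)
        (Additive.ofMul γ) := by
  rw [periodHomPair_heckeTLin hℓ hN f g γ D, h]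
  push_cast
  rfl

/-- a choice of Hecke data -/
def hd {N ℓ : ℕ} (hℓ : ℓ.Prime) (hN : ¬ ℓ ∣ N) (γ : Gamma0 N) : HData N (matT ℓ) γ :=
  (nonempty_HData_T hℓ hN γ).some

end HeckeXAux

open HeckeXAux

instance finite_XN (N : ℕ) [NeZero N] : Module.Finite ℤ (XN N) := by
  have := finite_hom (Gamma0 N)
  infer_instance

instance free_XN (N : ℕ) [NeZero N] : Module.Free ℤ (XN N) := by
  have : Module.IsTorsionFree ℤ (XN N) :=
    Function.Injective.moduleIsTorsionFree (N := Gamma0 N → ℤ)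
      (fun c γ => (c : Additive (Gamma0 N) →+ ℤ) (Additive.ofMul γ))
      (fun c c' h => Subtype.ext (AddMonoidHom.ext fun γ => congrFun h (Additive.toMul γ)))
      (fun _ _ => rfl)
  infer_instance

theorem exists_heckeX (N : ℕ) [NeZero N] {ℓ : ℕ} (hℓ : ℓ.Prime) (hN : ¬ ℓ ∣ N) :
    ∃ T : Module.End ℤ (XN N), ∀ c : XN N, IsTransfer N (matT ℓ) (c : Additive (Gamma0 N) →+ ℤ)
      (T c : Additive (Gamma0 N) →+ ℤ) := by
  classical
  -- the underlying function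
  let F : (Additive (Gamma0 N) →+ ℤ) → Additive (Gamma0 N) → ℤ := fun c γ =>
    ∑ i, c (Additive.ofMul ((hd hℓ hN (Additive.toMul γ)).δ i))
  have hF : ∀ c : XN N, ∃ f g : CuspForm (Gamma0 N) 2,
      periodHomPair N (f, g) = castC N (c : Additive (Gamma0 N) →+ ℤ) ∧
      ∀ γ : Additive (Gamma0 N), ((F c γ : ℤ) : ℂ) =
        periodHomPair N (CuspForm.heckeTLin 2 hℓ hN f, CuspForm.heckeTLin 2 hℓ hN g) γ := by
    intro c
    obtain ⟨f, g, h⟩ := exists_pair (castC_mem c.2)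
    exact ⟨f, g, h, fun γ => cast_sum_eq hℓ hN c f g h (Additive.toMul γ) _⟩
  have hadd : ∀ (c : XN N) (γ γ' : Additive (Gamma0 N)), F c (γ + γ') = F c γ + F c γ' := by
    intro c γ γ'
    obtain ⟨f, g, -, h⟩ := hF c
    have : ((F c (γ + γ') : ℤ) : ℂ) = ((F c γ + F c γ' : ℤ) : ℂ) := by
      rw [Int.cast_add, h, h, h, map_add]
    exact_mod_cast this
  let G : XN N → (Additive (Gamma0 N) →+ ℤ) := fun c => AddMonoidHom.mk' (F c) (hadd c)
  have hG : ∀ c : XN N, G c ∈ XN N := by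
    intro c γ hγ
    obtain ⟨f, g, -, h⟩ := hF c
    have h1 := periodHomPair_mem N
      (CuspForm.heckeTLin 2 hℓ hN f, CuspForm.heckeTLin 2 hℓ hN g) γ hγ
    have : ((F c (Additive.ofMul γ) : ℤ) : ℂ) = 0 := by rw [h, h1]
    exact_mod_cast this
  refine ⟨{ toFun := fun c => ⟨G c, hG c⟩
            map_add' := ?_
            map_smul' := ?_ }, ?_⟩
  · intro c c'
    apply Subtype.ext
    ext γ
    show F _ γ = F _ γ + F _ γ
    simp only [F, Submodule.coe_add, AddMonoidHom.add_apply, Finset.sum_add_distrib]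
  · intro n c
    apply Subtype.ext
    ext γ
    show F _ γ = n • F _ γ
    simp only [F, Submodule.coe_smul, AddMonoidHom.coe_smul, Pi.smul_apply, Finset.smul_sum]
  · intro c γ D
    obtain ⟨f, g, h0, h⟩ := hF c
    have : ((F c (Additive.ofMul γ) : ℤ) : ℂ) =
        ((∑ i, (c : Additive (Gamma0 N) →+ ℤ) (Additive.ofMul (D.δ i)) : ℤ) : ℂ) := by
      rw [h, cast_sum_eq hℓ hN c f g h0 γ D]
    exact_mod_cast this

/-- the Hecke operator `T_ℓ` on the lattice -/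
def heckeX (N : ℕ) [NeZero N] {ℓ : ℕ} (hℓ : ℓ.Prime) (hN : ¬ ℓ ∣ N) : Module.End ℤ (XN N) :=
  (exists_heckeX N hℓ hN).choose

theorem isTransfer_heckeX (N : ℕ) [NeZero N] {ℓ : ℕ} (hℓ : ℓ.Prime) (hN : ¬ ℓ ∣ N) (c : XN N) :
    IsTransfer N (matT ℓ) (c : Additive (Gamma0 N) →+ ℤ)
      (heckeX N hℓ hN c : Additive (Gamma0 N) →+ ℤ) :=
  (exists_heckeX N hℓ hN).choose_spec c

theorem HeckeXAux.castC_heckeX {N : ℕ} [NeZero N] {ℓ : ℕ} (hℓ : ℓ.Prime) (hN : ¬ ℓ ∣ N) (c : XN N)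
    (f g : CuspForm (Gamma0 N) 2)
    (h : periodHomPair N (f, g) = castC N (c : Additive (Gamma0 N) →+ ℤ)) :
    periodHomPair N (CuspForm.heckeTLin 2 hℓ hN f, CuspForm.heckeTLin 2 hℓ hN g) =
      castC N (heckeX N hℓ hN c : Additive (Gamma0 N) →+ ℤ) := by
  refine AddMonoidHom.ext fun γ => ?_
  have h1 := isTransfer_heckeX N hℓ hN c (Additive.toMul γ) (hd hℓ hN _)
  have h2 := cast_sum_eq hℓ hN c f g h (Additive.toMul γ) (hd hℓ hN _)
  rw [castC_apply]
  rw [← h1] at h2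
  exact h2.symm

theorem heckeX_commute (N : ℕ) [NeZero N] {ℓ ℓ' : ℕ} (hℓ : ℓ.Prime) (hN : ¬ ℓ ∣ N)
    (hℓ' : ℓ'.Prime) (hN' : ¬ ℓ' ∣ N) : Commute (heckeX N hℓ hN) (heckeX N hℓ' hN') := by
  refine LinearMap.ext fun c => Subtype.ext (castC_injective N ?_)
  obtain ⟨f, g, h⟩ := exists_pair (castC_mem c.2)
  have h1 := castC_heckeX hℓ hN _ _ _ (castC_heckeX hℓ' hN' c f g h)
  have h2 := castC_heckeX hℓ' hN' _ _ _ (castC_heckeX hℓ hN c f g h)
  have hc : ∀ f : CuspForm (Gamma0 N) 2,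
      CuspForm.heckeTLin 2 hℓ hN (CuspForm.heckeTLin 2 hℓ' hN' f) =
        CuspForm.heckeTLin 2 hℓ' hN' (CuspForm.heckeTLin 2 hℓ hN f) := fun f =>
    LinearMap.congr_fun (CuspForm.heckeTLin_comm 2 hℓ hN hℓ' hN').eq f
  rw [hc f, hc g] at h1
  exact h1.symm.trans h2

namespace HeckeXAux

/-- `ℂ ⊗ XN N → Hom(Γ₀(N), ℂ)` -/
def Phi (N : ℕ) : ℂ ⊗[ℤ] (XN N) →ₗ[ℂ] (Additive (Gamma0 N) →+ ℂ) :=
  LinearMap.liftBaseChange ℂ ((castC N) ∘ₗ (XN N).subtype)

theorem Phi_tmul (N : ℕ) (z : ℂ) (c : XN N) :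
    Phi N (z ⊗ₜ c) = z • castC N (c : Additive (Gamma0 N) →+ ℤ) :=
  LinearMap.liftBaseChange_tmul _ _ _ _

theorem Phi_injective (N : ℕ) [NeZero N] : Function.Injective (Phi N) := by
  classical
  obtain ⟨S, hS⟩ := (Group.FG.out : (⊤ : Subgroup (Gamma0 N)).FG)
  let ev : (XN N) →ₗ[ℤ] (S → ℤ) :=
    { toFun := fun φ s => (φ : Additive (Gamma0 N) →+ ℤ) (Additive.ofMul (s : Gamma0 N))
      map_add' := fun _ _ => rfl
      map_smul' := fun _ _ => rfl }
  have hinj : Function.Injective ev := by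
    rw [← LinearMap.ker_eq_bot, LinearMap.ker_eq_bot']
    intro φ hφ
    have key : ∀ g : Gamma0 N, (φ : Additive (Gamma0 N) →+ ℤ) (Additive.ofMul g) = 0 := by
      intro g
      have hg : g ∈ Subgroup.closure (S : Set (Gamma0 N)) := by rw [hS]; trivial
      induction hg using Subgroup.closure_induction with
      | mem x hx => exact congrFun hφ ⟨x, hx⟩
      | one => exact map_zero _
      | mul x y _ _ hx hy =>
        rw [ofMul_mul, map_add, hx, hy, add_zero]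
      | inv x _ hx => rw [ofMul_inv, map_neg, hx, neg_zero]
    exact Subtype.ext (AddMonoidHom.ext fun g => key (Additive.toMul g))
  have h1 := Module.Flat.lTensor_preserves_injective_linearMap (M := ℂ) ev hinj
  have h2 : ∀ x : ℂ ⊗[ℤ] (XN N), TensorProduct.piScalarRight ℤ ℂ ℂ S (ev.lTensor ℂ x) =
      fun s : S => Phi N x (Additive.ofMul (s : Gamma0 N)) := by
    intro x
    induction x using TensorProduct.induction_on with
    | zero => rw [map_zero, map_zero, map_zero]; rfl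
    | tmul z c =>
      rw [LinearMap.lTensor_tmul, TensorProduct.piScalarRight_apply,
        TensorProduct.piScalarRightHom_tmul, Phi_tmul]
      funext s
      simp [ev, mul_comm]
    | add x y hx hy =>
      rw [map_add, map_add, hx, hy, map_add]
      rfl
  rw [← LinearMap.ker_eq_bot, LinearMap.ker_eq_bot']
  intro x hx
  apply h1
  apply (TensorProduct.piScalarRight ℤ ℂ ℂ S).injective
  rw [h2, hx, map_zero, map_zero]
  rfl

theorem exists_Phi_eq (N : ℕ) [NeZero N] {ψ : Additive (Gamma0 N) →+ ℂ}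
    (hψ : ψ ∈ parabolicHoms ℂ (Gamma0 N) ℂ) : ∃ x, Phi N x = ψ := by
  classical
  obtain ⟨S, hS⟩ := (Group.FG.out : (⊤ : Subgroup (Gamma0 N)).FG)
  let M : Submodule ℤ ℂ :=
    Submodule.span ℤ ((fun s : Gamma0 N => ψ (Additive.ofMul s)) '' (S : Set (Gamma0 N)))
  have hfg : M.FG := Submodule.fg_span ((Finset.finite_toSet S).image _)
  have hmem : ∀ g : Gamma0 N, ψ (Additive.ofMul g) ∈ M := by
    intro g
    have hg : g ∈ Subgroup.closure (S : Set (Gamma0 N)) := by rw [hS]; trivial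
    induction hg using Subgroup.closure_induction with
    | mem x hx => exact Submodule.subset_span ⟨x, hx, rfl⟩
    | one => rw [ofMul_one, map_zero]; exact M.zero_mem
    | mul x y _ _ hx hy => rw [ofMul_mul, map_add]; exact M.add_mem hx hy
    | inv x _ hx => rw [ofMul_inv, map_neg]; exact M.neg_mem hx
  have : Module.Finite ℤ M := Module.Finite.iff_fg.mpr hfg
  let e := Module.Free.chooseBasis ℤ M
  let ψ' : Additive (Gamma0 N) →+ M := ψ.codRestrict M (fun γ => hmem (Additive.toMul γ))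
  let c : Module.Free.ChooseBasisIndex ℤ M → (Additive (Gamma0 N) →+ ℤ) := fun k =>
    (e.coord k).toAddMonoidHom.comp ψ'
  have hc : ∀ k, c k ∈ XN N := by
    intro k γ hγ
    have h0 : ψ' (Additive.ofMul γ) = 0 := Subtype.ext (hψ γ hγ)
    show e.coord k (ψ' (Additive.ofMul γ)) = 0
    rw [h0, map_zero]
  refine ⟨∑ k, ((e k : M) : ℂ) ⊗ₜ[ℤ] (⟨c k, hc k⟩ : XN N), ?_⟩
  refine AddMonoidHom.ext fun γ => ?_
  have h1 := congrArg (Subtype.val) (e.sum_repr (ψ' γ))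
  rw [map_sum]
  simp only [Phi_tmul]
  rw [AddMonoidHom.finsetSum_apply]
  have h2 : ((ψ' γ : M) : ℂ) = ψ γ := rfl
  rw [← h2, ← h1]
  rw [AddSubmonoidClass.coe_finsetSum]
  refine Finset.sum_congr rfl fun k _ => ?_
  show ((e k : M) : ℂ) * ((e.coord k (ψ' γ) : ℤ) : ℂ) = _
  rw [Submodule.coe_smul, zsmul_eq_mul, mul_comm]
  rfl

theorem Phi_baseChange {N : ℕ} [NeZero N] {ℓ : ℕ} (hℓ : ℓ.Prime) (hN : ¬ ℓ ∣ N)
    (x : ℂ ⊗[ℤ] (XN N)) (γ : Gamma0 N) (D : HData N (matT ℓ) γ) :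
    Phi N ((heckeX N hℓ hN).baseChange ℂ x) (Additive.ofMul γ) =
      ∑ i, Phi N x (Additive.ofMul (D.δ i)) := by
  induction x using TensorProduct.induction_on with
  | zero => simp
  | tmul z c =>
    rw [LinearMap.baseChange_tmul, Phi_tmul]
    simp only [Phi_tmul]
    show z * ((heckeX N hℓ hN c : Additive (Gamma0 N) →+ ℤ) (Additive.ofMul γ) : ℂ) =
      ∑ i, z * (((c : Additive (Gamma0 N) →+ ℤ) (Additive.ofMul (D.δ i)) : ℤ) : ℂ)
    rw [isTransfer_heckeX N hℓ hN c γ D, ← Finset.mul_sum]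
    push_cast
    rfl
  | add x y hx hy =>
    simp only [map_add, AddMonoidHom.add_apply, hx, hy, Finset.sum_add_distrib]

theorem Phi_heckeX {N : ℕ} [NeZero N] {ℓ : ℕ} (hℓ : ℓ.Prime) (hN : ¬ ℓ ∣ N)
    (x : ℂ ⊗[ℤ] (XN N)) (f g : CuspForm (Gamma0 N) 2) (h : Phi N x = periodHomPair N (f, g)) :
    Phi N ((heckeX N hℓ hN).baseChange ℂ x) =
      periodHomPair N (CuspForm.heckeTLin 2 hℓ hN f, CuspForm.heckeTLin 2 hℓ hN g) := by
  refine AddMonoidHom.ext fun γ => ?_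
  have h1 := Phi_baseChange hℓ hN x (Additive.toMul γ) (hd hℓ hN _)
  have h2 := periodHomPair_heckeTLin hℓ hN f g (Additive.toMul γ) (hd hℓ hN _)
  rw [← h] at h2
  exact h1.trans h2.symm

end HeckeXAux

/-- an eigenform gives an eigenvector in `ℂ ⊗ XN N` -/
theorem exists_eigen_XN (N : ℕ) [NeZero N] (g : CuspForm (Gamma0 N) 2) (hg : g ≠ 0) (μ : ℕ → ℂ)
    (hT : ∀ (ℓ : ℕ) (hℓ : ℓ.Prime) (hN : ¬ ℓ ∣ N), CuspForm.heckeTLin 2 hℓ hN g = μ ℓ • g) :
    ∃ x : ℂ ⊗[ℤ] (XN N), x ≠ 0 ∧ ∀ (ℓ : ℕ) (hℓ : ℓ.Prime) (hN : ¬ ℓ ∣ N),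
      (heckeX N hℓ hN).baseChange ℂ x = μ ℓ • x := by
  obtain ⟨x, hx⟩ := exists_Phi_eq N (periodHomPair_mem N (g, 0))
  refine ⟨x, ?_, ?_⟩
  · rintro rfl
    rw [map_zero] at hx
    have := (Fermat.Agent.S21.result N).1 (hx.symm.trans (map_zero (periodHomPair N)).symm)
    exact hg (congrArg Prod.fst this)
  · intro ℓ hℓ hN
    apply Phi_injective N
    rw [Phi_heckeX hℓ hN x g 0 hx, map_smul, hx, hT ℓ hℓ hN, map_zero, ← map_smul]
    congr 1
    simp

/-- S29/EF -/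
theorem heckeTLin_eq_smul {N : ℕ} [NeZero N] {g : CuspForm (Gamma0 N) 2}
    (hg : g.IsNormalizedEigenform) {ℓ : ℕ} (hℓ : ℓ.Prime) (hN : ¬ ℓ ∣ N) :
    CuspForm.heckeTLin 2 hℓ hN g = qCoeff g ℓ • g := by
  have key : ∀ n : ℕ, qCoeff g (n * ℓ) + (if ℓ ∣ n then (ℓ : ℂ) ^ ((2 : ℤ) - 1) * qCoeff g (n / ℓ)
      else 0) = qCoeff g ℓ * qCoeff g n := by
    intro n
    have h21 : (ℓ : ℂ) ^ ((2 : ℤ) - 1) = ℓ := by norm_num
    rw [h21]
    rcases Nat.eq_zero_or_pos n with rfl | hn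
    · simp [Fermat.Agent.S49.qCoeff_zero_index]
    obtain ⟨r, m, hm, rfl⟩ := Nat.exists_eq_pow_mul_and_not_dvd hn.ne' ℓ hℓ.ne_one
    have hcop : ∀ k : ℕ, (ℓ ^ k).Coprime m := fun k =>
      Nat.Coprime.pow_left k ((Nat.Prime.coprime_iff_not_dvd hℓ).2 hm)
    rcases r with _ | s
    · have h1 : ¬ ℓ ∣ ℓ ^ 0 * m := by simpa using hm
      rw [if_neg h1, add_zero, pow_zero, one_mul, mul_comm m ℓ]
      have := hg.qCoeff_mul_of_coprime ℓ m (by simpa using hcop 1)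
      exact this
    · have h1 : ℓ ∣ ℓ ^ (s + 1) * m := Dvd.dvd.mul_right (dvd_pow_self ℓ (Nat.succ_ne_zero s)) m
      have h2 : ℓ ^ (s + 1) * m / ℓ = ℓ ^ s * m := by
        rw [pow_succ, mul_assoc, mul_comm ℓ m, ← mul_assoc]
        exact Nat.mul_div_cancel _ hℓ.pos
      have h3 : ℓ ^ (s + 1) * m * ℓ = ℓ ^ (s + 2) * m := by ring
      rw [if_pos h1, h2, h3, hg.qCoeff_mul_of_coprime _ _ (hcop _),
        hg.qCoeff_mul_of_coprime _ _ (hcop _), hg.qCoeff_mul_of_coprime _ _ (hcop _),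
        hg.qCoeff_prime_pow_of_not_dvd ℓ s hℓ hN]
      ring
  have h0 : CuspForm.heckeTLin 2 hℓ hN g + (-(qCoeff g ℓ)) • g = 0 := by
    apply Fermat.Agent.S49.eq_zero_of_qCoeff
    intro n
    rw [Fermat.Agent.S49.qCoeff_add, Fermat.Agent.S49.qCoeff_smul,
      Fermat.Agent.S49.qCoeff_heckeTLin, key n]
    ring
  rw [_root_.neg_smul, ← sub_eq_add_neg, sub_eq_zero] at h0
  exact h0

theorem ne_zero_of_isNormalizedEigenform {N : ℕ} {g : CuspForm (Gamma0 N) 2}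
    (hg : g.IsNormalizedEigenform) : g ≠ 0 :=
  hg.ne_zero

end Fermat.Agent.S29
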