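import Fermat.Agent.S29.Defs
import Fermat.Agent.IntStruct.Division

/-!
# P-S29 : auxiliary lemmas on `Hol`, `Mer` (shared)

* `exists_hol_of_pow` : `Hol` is "root closed" in `Mer`.
* `merAct_fix` : invariance of the translates of a function with character.
-/

set_option autoImplicit false

open UpperHalfPlane ModularForm WithZero ModularCurve AlgebraicCurve CongruenceSubgroup
open Fermat.Agent.S24
open scoped MatrixGroups Manifold

noncomputable section

namespace Fermat.Agent.S29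

theorem norm_le_one_add_of_pow_eq {m : ℕ} (hm : m ≠ 0) {t s : ℂ} (h : t ^ m = s) :
    ‖t‖ ≤ 1 + ‖s‖ := by
  by_cases h1 : ‖t‖ ≤ 1
  · linarith [norm_nonneg s]
  · have h2 : 1 ≤ ‖t‖ := (not_le.mp h1).le
    have h3 : ‖t‖ ≤ ‖t‖ ^ m := le_self_pow₀ h2 hm
    rw [← norm_pow, h] at h3
    linarith

/-- an element of `Mer` with a holomorphic `m`-th power is holomorphic -/
theorem exists_hol_of_pow {m : ℕ} (hm : m ≠ 0) (z : Mer) (F : Hol)
    (hz : z ^ m = algebraMap Hol Mer F) : ∃ z₀ : Hol, algebraMap Hol Mer z₀ = z := by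
  obtain ⟨p, q, hq, rfl⟩ := MerAux.exists_div z
  have hq' := MerAux.algebraMap_ne_zero hq
  have h1 : p ^ m = F * q ^ m := by
    apply IsFractionRing.injective Hol Mer
    rw [map_pow, map_mul, map_pow, ← hz, div_pow, div_mul_cancel₀ _ (pow_ne_zero _ hq')]
  have h2 : ∀ τ : ℍ, (p : ℍ → ℂ) τ ^ m = (F : ℍ → ℂ) τ * (q : ℍ → ℂ) τ ^ m := fun τ =>
    congrFun (congrArg Subtype.val h1) τ
  have hq0 : (q : ℍ → ℂ) ≠ 0 := fun h => hq (Subtype.ext h)
  obtain ⟨G, hG, hGq⟩ := Fermat.Agent.IntStruct.Division.exists_mdiff_mul_eq p.2 q.2 hq0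
    (fun τ => 1 + ‖(F : ℍ → ℂ) τ‖)
    (continuous_const.add (F.2.continuous.norm))
    (fun τ hτ => norm_le_one_add_of_pow_eq hm (by
      rw [div_pow, h2 τ, mul_div_assoc, div_self (pow_ne_zero _ hτ), mul_one]))
  refine ⟨⟨G, hG⟩, ?_⟩
  rw [eq_div_iff hq', ← map_mul]
  congr 1
  ext τ
  show G τ * (q : ℍ → ℂ) τ = (p : ℍ → ℂ) τ
  rw [mul_comm, hGq τ]

theorem zet_zero (m : ℕ) : zet m 0 = 1 := by simp [zet]

/-- if `γ` fixes the coset `q` and `c` kills the corresponding element of `Γ₀(N)`, then `γ` fixes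
the translate `merAct q.out h`. -/
theorem merAct_fix {N m : ℕ} {c : Additive (Gamma0 N) →+ ℤ} {h : Mer} (hchar : HasChar N m c h)
    (q : QN N) (γ : SL(2, ℤ)) (hq : γ • q = q)
    (hc0 : ∀ δ : Gamma0 N, (δ : SL(2, ℤ)) = q.out⁻¹ * γ * q.out → c (Additive.ofMul δ) = 0) :
    merAct γ (merAct q.out h) = merAct q.out h := by
  have hmem : q.out⁻¹ * γ * q.out ∈ Gamma0 N := by
    have h1 : ((γ * q.out : SL(2, ℤ)) : QN N) = (q.out : QN N) := by
      have : γ • ((q.out : SL(2, ℤ)) : QN N) = ((γ * q.out : SL(2, ℤ)) : QN N) := rfl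
      rw [← this, QuotientGroup.out_eq', hq]
    have h2 := QuotientGroup.eq.mp h1.symm
    rwa [← mul_assoc] at h2
  have h3 := hchar ⟨_, hmem⟩
  rw [hc0 ⟨_, hmem⟩ rfl, zet_zero, map_one, one_mul] at h3
  have h4 : γ * q.out = q.out * (q.out⁻¹ * γ * q.out) := by group
  rw [← merAct_mul, h4, merAct_mul]
  exact congrArg _ h3

/-- a homomorphism to `ℤ` kills torsion -/
theorem hom_eq_zero_of_pow {N : ℕ} (c : Additive (Gamma0 N) →+ ℤ) (δ : Gamma0 N) (n : ℕ)
    (hn : n ≠ 0) (h : δ ^ n = 1) : c (Additive.ofMul δ) = 0 := by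
  have h1 : n • c (Additive.ofMul δ) = 0 := by
    rw [← map_nsmul, ← ofMul_pow, h, ofMul_one, map_zero]
  rcases smul_eq_zero.mp h1 with h2 | h2
  · exact absurd h2 hn
  · exact h2

end Fermat.Agent.S29
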