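import Fermat.Agent.ES.AlgDeg
import Fermat.Agent.S16.LPeriod
import Fermat.Agent.S16.LData
import Fermat.Prelude.Thm_ModularCurve_coeffMap_qExpand

set_option autoImplicit false

open UpperHalfPlane ModularForm ModularCurve AlgebraicCurve CongruenceSubgroup
open Fermat.Agent.S24 Fermat.Agent.S16.Lower Fermat.Agent.ES.Alg
open Matrix.SpecialLinearGroup (mapGL)
open scoped MatrixGroups Manifold

noncomputable section

namespace Fermat.Agent.S29.K3

/-- `f ↦ f ∘ A` on `Hol` -/
def holGL (A : GL (Fin 2) ℝ) (hA : 0 < A.det.val) : Hol →ₐ[ℂ] Hol :=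
  holComp (fun τ => A • τ) (UpperHalfPlane.mdifferentiable_smul hA)

@[simp] theorem holGL_apply (A : GL (Fin 2) ℝ) (hA : 0 < A.det.val) (f : Hol) (τ : ℍ) :
    (holGL A hA f : ℍ → ℂ) τ = (f : ℍ → ℂ) (A • τ) := rfl

theorem holGL_injective (A : GL (Fin 2) ℝ) (hA : 0 < A.det.val) :
    Function.Injective (holGL A hA : Hol →+* Hol) := by
  rw [injective_iff_map_eq_zero]
  intro f hf
  ext τ
  have := congrFun (congrArg Subtype.val hf) (A⁻¹ • τ)
  simpa using this

/-- `f ↦ f ∘ A` on `Mer` -/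
def merGL (A : GL (Fin 2) ℝ) (hA : 0 < A.det.val) : Mer →+* Mer :=
  IsFractionRing.map (holGL_injective A hA)

theorem merGL_algebraMap (A : GL (Fin 2) ℝ) (hA : 0 < A.det.val) (f : Hol) :
    merGL A hA (algebraMap Hol Mer f) = algebraMap Hol Mer (holGL A hA f) :=
  IsLocalization.map_eq (M := nonZeroDivisors Hol) (T := nonZeroDivisors Hol) (S := Mer) (Q := Mer)
    (nonZeroDivisors_le_comap_nonZeroDivisors_of_injective _ (holGL_injective A hA)) f

theorem mer_hom_ext {φ ψ : Mer →+* Mer}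
    (h : ∀ f : Hol, φ (algebraMap Hol Mer f) = ψ (algebraMap Hol Mer f)) : φ = ψ :=
  IsLocalization.ringHom_ext (nonZeroDivisors Hol) (RingHom.ext h)

theorem merGL_const (A : GL (Fin 2) ℝ) (hA : 0 < A.det.val) (c : ℂ) :
    merGL A hA (algebraMap ℂ Mer c) = algebraMap ℂ Mer c := by
  rw [IsScalarTower.algebraMap_apply ℂ Hol Mer, merGL_algebraMap, AlgHom.commutes]

theorem merGL_mul (A B : GL (Fin 2) ℝ) (hA : 0 < A.det.val) (hB : 0 < B.det.val)
    (hAB : 0 < (A * B).det.val) (x : Mer) :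
    merGL (A * B) hAB x = merGL B hB (merGL A hA x) := by
  have : merGL (A * B) hAB = (merGL B hB).comp (merGL A hA) := by
    apply mer_hom_ext
    intro f
    rw [RingHom.comp_apply, merGL_algebraMap, merGL_algebraMap, merGL_algebraMap]
    congr 1
    ext τ
    simp [mul_smul]
  rw [this]; rfl

theorem merGL_congr {A B : GL (Fin 2) ℝ} (h : A = B) (hA : 0 < A.det.val) (hB : 0 < B.det.val)
    (x : Mer) : merGL A hA x = merGL B hB x := by
  subst h; rfl

theorem det_SL_pos (g : SL(2, ℤ)) : 0 < (mapGL ℝ g).det.val := by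
  simp

theorem merAct_eq (g : SL(2, ℤ)) (x : Mer) :
    merAct g x = merGL (mapGL ℝ g⁻¹) (det_SL_pos _) x := by
  have : (merAct g).toRingHom = merGL (mapGL ℝ g⁻¹) (det_SL_pos _) := by
    apply mer_hom_ext
    intro f
    rw [merGL_algebraMap]
    exact merAct_algebraMap g f
  exact RingHom.congr_fun this x

theorem FN_hom_ext (N : ℕ) [NeZero N] {φ ψ : FN N →+* Mer}
    (hc : ∀ a : Kb, φ (algebraMap Kb (FN N) a) = ψ (algebraMap Kb (FN N) a))
    (hj : ∀ (d : ℕ) [NeZero d] (hd : d ∣ N), φ (jF N d hd) = ψ (jF N d hd)) : φ = ψ := by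
  ext θ
  have hθ : θ ∈ IntermediateField.adjoin Kb
      {x : FN N | ∃ (d : ℕ) (_ : NeZero d) (hd : d ∣ N), x = jF N d hd} := by
    rw [adjoin_jF]; trivial
  induction hθ using IntermediateField.adjoin_induction with
  | mem x hx =>
    obtain ⟨d, hd0, hd, rfl⟩ := hx
    exact hj d hd
  | algebraMap a => exact hc a
  | add x y _ _ hx hy => rw [map_add, map_add, hx, hy]
  | inv x _ hx => rw [map_inv₀, map_inv₀, hx]
  | mul x y _ _ hx hy => rw [map_mul, map_mul, hx, hy]

variable (N ℓ : ℕ) [NeZero N] [NeZero ℓ]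

theorem iota_alpha (x : FN N) : iota (N * ℓ) (heckeAlphaBar Kb N ℓ x) = iota N x := by
  have : (iota (N * ℓ)).comp (heckeAlphaBar Kb N ℓ : FN N →+* FN (N * ℓ)) = iota N := by
    apply FN_hom_ext
    · intro a
      rw [RingHom.comp_apply, RingHom.coe_coe, AlgHom.commutes, iota_algebraMap, iota_algebraMap]
    · intro d _ hd
      have h1 : heckeAlphaBar Kb N ℓ (jF N d hd) = jF (N * ℓ) d (hd.mul_right ℓ) :=
        Subtype.ext rfl
      rw [RingHom.comp_apply, RingHom.coe_coe, h1, iota_jF, iota_jF]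
  exact RingHom.congr_fun this x

omit [NeZero ℓ] in
theorem glT_det_pos' (i : Option (Fin ℓ)) : 0 < (PeriodAux.glT ℓ i).det.val := by
  have := PeriodAux.glT_det_pos ℓ i
  rwa [← Matrix.GeneralLinearGroup.val_det_apply] at this

theorem iota_beta (x : FN N) :
    iota (N * ℓ) (heckeBetaBar Kb N ℓ x) =
      merGL (PeriodAux.glT ℓ none) (glT_det_pos' ℓ none) (iota N x) := by
  have : (iota (N * ℓ)).comp (heckeBetaBar Kb N ℓ : FN N →+* FN (N * ℓ)) =
      (merGL (PeriodAux.glT ℓ none) (glT_det_pos' ℓ none)).comp (iota N) := by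
    apply FN_hom_ext
    · intro a
      rw [RingHom.comp_apply, RingHom.coe_coe, AlgHom.commutes, iota_algebraMap,
        RingHom.comp_apply, iota_algebraMap, merGL_const]
    · intro d _ hd
      have h1 : heckeBetaBar Kb N ℓ (jF N d hd) = jF (N * ℓ) (ℓ * d)
          (by rw [mul_comm]; exact Nat.mul_dvd_mul_right hd ℓ) := by
        apply Subtype.ext
        show qExpand Kb ℓ (coeffEmb Kb (qExpand ℚ d jq)) = coeffEmb Kb (qExpand ℚ (ℓ * d) jq)
        rw [← qExpand_qExpand]
        exact (coeffMap_qExpand _ ℓ _).symm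
      rw [RingHom.comp_apply, RingHom.coe_coe, h1, iota_jF, RingHom.comp_apply, iota_jF,
        merGL_algebraMap]
      congr 1
      ext τ
      show (jH : ℍ → ℂ) (scaleH (ℓ * d) τ) = (jH : ℍ → ℂ) (scaleH d (PeriodAux.glT ℓ none • τ))
      have h2 : PeriodAux.glT ℓ none • τ = scaleH ℓ τ := heckeDiagMatrix_smul ℓ τ
      have h3 : scaleH (ℓ * d) τ = scaleH d (scaleH ℓ τ) := by
        apply UpperHalfPlane.ext
        show ((ℓ * d : ℕ) : ℂ) * (τ : ℂ) = (d : ℂ) * ((ℓ : ℂ) * (τ : ℂ))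
        push_cast
        ring
      rw [h2, h3]
  exact RingHom.congr_fun this x

end Fermat.Agent.S29.K3
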