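import Fermat.Agent.S29.Wiring
import Fermat.Agent.S29.K3

/-! # S29/K3 in the exact shape of `Wiring.lean` -/

namespace Fermat.Agent.S29

theorem k3_holds (N p : ℕ) [NeZero N] : K3 N p :=
  fun ℓ hℓ hN _c _c' _u _ hu hc => @K3.isKummer_Tl N p ℓ _ ⟨hℓ.ne_zero⟩ hℓ hN _ _ _ hu hc

end Fermat.Agent.S29
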