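import Fermat.Agent.S29.Defs
import Fermat.Agent.ES.Root
import Fermat.Agent.S24.Degree

/-!
# S29/K2 : auxiliary lemmas for `Unique.lean`

* `exists_hol_of_pow` : `Hol` is closed under `m`-th roots in `Mer`.
* `isQuot_of_pow` : a `Γ₀(N)`-invariant `m`-th root of an element of the function field is a quotient
  of two modular forms.
* `exists_map_of_pow` : an `m`-th root (in `L⟦X⟧`) of a power series with coefficients in an
  algebraically closed subfield has coefficients in that subfield (Euler operator recursion).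
* `exists_Qq_of_pow` : a `T`-invariant `m`-th root of an element of `phiH Qq` lies in `phiH Qq`.
* `phiH_linearIndependent` : the `q`-expansion principle on `Qq`.
* `surjective_of_not_li` : the degree count.
* `exists_root_of_invariant'` : the assembly.
-/

set_option autoImplicit false

open UpperHalfPlane ModularForm WithZero ModularCurve AlgebraicCurve CongruenceSubgroup
open Fermat.Agent.S24 Fermat.Agent.S24.MerAux
open scoped MatrixGroups Manifold

noncomputable section

namespace Fermat.Agent.S29.K2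

theorem analyticOrderAt_hol_ne_top (z : ℍ) {b : Hol} (hb : b ≠ 0) :
    analyticOrderAt ((b : ℍ → ℂ) ∘ ofComplex) (z : ℂ) ≠ ⊤ := by
  intro h
  apply hb
  rw [← holOrd_eq_top_iff z, holOrd, (analyticAt_hol z b).meromorphicOrderAt_eq, h]
  rfl

/-- `Hol` is closed under `m`-th roots in `Mer` -/
theorem exists_hol_of_pow (m : ℕ) (hm : m ≠ 0) (y : Mer) (g : Hol)
    (h : y ^ m = algebraMap Hol Mer g) : ∃ f : Hol, algebraMap Hol Mer f = y := by
  obtain ⟨a, b, hb, rfl⟩ := exists_div y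
  have hb' := algebraMap_ne_zero hb
  have h1 : a ^ m = g * b ^ m := by
    apply IsFractionRing.injective Hol Mer
    rw [map_mul, map_pow, map_pow, ← h, div_pow]
    field_simp
  by_cases ha : a = 0
  · exact ⟨0, by simp [ha]⟩
  have hg : g ≠ 0 := by
    rintro rfl
    rw [zero_mul] at h1
    exact ha (pow_eq_zero_iff hm |>.mp h1)
  have hord : ∀ z : ℍ, (m : ℕ∞) ∣ analyticOrderAt ((g : ℍ → ℂ) ∘ ofComplex) z := by
    intro z
    have ea := analyticAt_hol z a
    have eb := analyticAt_hol z b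
    have eg := analyticAt_hol z g
    have h2 : ((a : ℍ → ℂ) ∘ ofComplex) ^ m =
        ((g : ℍ → ℂ) ∘ ofComplex) * ((b : ℍ → ℂ) ∘ ofComplex) ^ m := by
      funext w
      exact congrFun (congrArg Subtype.val h1) (ofComplex w)
    have h3 : analyticOrderAt (((a : ℍ → ℂ) ∘ ofComplex) ^ m) (z : ℂ) =
        analyticOrderAt (((g : ℍ → ℂ) ∘ ofComplex) * ((b : ℍ → ℂ) ∘ ofComplex) ^ m) (z : ℂ) := by
      rw [h2]
    rw [analyticOrderAt_pow ea, analyticOrderAt_mul eg (eb.pow m), analyticOrderAt_pow eb] at h3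
    obtain ⟨α, hα⟩ := ENat.ne_top_iff_exists.mp (analyticOrderAt_hol_ne_top z ha)
    obtain ⟨β, hβ⟩ := ENat.ne_top_iff_exists.mp (analyticOrderAt_hol_ne_top z hb)
    obtain ⟨γ, hγ⟩ := ENat.ne_top_iff_exists.mp (analyticOrderAt_hol_ne_top z hg)
    rw [← hα, ← hβ, ← hγ] at h3
    rw [← hγ]
    have h4 : m * α = γ + m * β := by
      have : ((m * α : ℕ) : ℕ∞) = ((γ + m * β : ℕ) : ℕ∞) := by
        push_cast
        simpa [nsmul_eq_mul] using h3
      exact_mod_cast this
    have h5 : m ∣ γ := by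
      have : m ∣ γ + m * β := ⟨α, h4.symm⟩
      exact (Nat.dvd_add_left (dvd_mul_right m β)).mp this
    obtain ⟨k, rfl⟩ := h5
    exact ⟨k, by push_cast; rfl⟩
  obtain ⟨f0, hf0, hf0m⟩ := ES.exists_root m hm g g.2 hord
  have h6 : (a : ℍ → ℂ) ^ m = (f0 * (b : ℍ → ℂ)) ^ m := by
    rw [mul_pow, hf0m]
    exact congrArg Subtype.val h1
  obtain ⟨ζ, -, hζ⟩ := ES.eq_smul_of_pow_eq m hm a (f0 * b) a.2 (hf0.mul b.2) h6
  refine ⟨ζ • ⟨f0, hf0⟩, ?_⟩
  rw [eq_div_iff hb', ← map_mul]
  congr 1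
  apply Subtype.ext
  rw [hζ]
  funext w
  simp

theorem isBoundedAtImInfty_of_pow {f : ℍ → ℂ} (m : ℕ) (hm : m ≠ 0)
    (h : IsBoundedAtImInfty (f ^ m)) : IsBoundedAtImInfty f := by
  rw [UpperHalfPlane.isBoundedAtImInfty_iff] at h ⊢
  obtain ⟨M, A, hMA⟩ := h
  refine ⟨max M 1, A, fun z hz => ?_⟩
  have h1 := hMA z hz
  rw [Pi.pow_apply, norm_pow] at h1
  by_contra hcon
  rw [not_le, max_lt_iff] at hcon
  have h2 : ‖f z‖ ≤ ‖f z‖ ^ m := le_self_pow₀ hcon.2.le hm
  linarith [hcon.1]

open Matrix.SpecialLinearGroup in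
/-- a `Γ₀(N)`-invariant `m`-th root of an element of the function field is a quotient of modular
forms -/
theorem isQuot_of_pow (N m : ℕ) [NeZero N] (hm : m ≠ 0) (v : FN N) (x : Mer)
    (hx : x ^ m = iota N v) (hinv : ∀ γ : Gamma0 N, merAct (γ : SL(2, ℤ)) x = x) :
    IsQuot N x := by
  obtain ⟨n, A, B, hB, hAB⟩ := exists_quot N v
  have hBH : mfHol B ≠ 0 := by
    intro h
    apply hB
    ext τ
    exact congrFun (congrArg Subtype.val h) τ
  have hBM := algebraMap_ne_zero hBH
  obtain ⟨m', rfl⟩ : ∃ m', m = m' + 1 := Nat.exists_eq_succ_of_ne_zero hm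
  have hy : (x * algebraMap Hol Mer (mfHol B)) ^ (m' + 1) =
      algebraMap Hol Mer (mfHol A * mfHol B ^ m') := by
    rw [mul_pow, hx, pow_succ' (algebraMap Hol Mer (mfHol B)), ← mul_assoc, hAB, map_mul, map_pow]
  obtain ⟨f, hf⟩ := exists_hol_of_pow _ hm _ _ hy
  have hfm : f ^ (m' + 1) = mfHol A * mfHol B ^ m' := by
    apply IsFractionRing.injective Hol Mer
    rw [map_pow, hf, hy]
  have hxf : x = algebraMap Hol Mer f / algebraMap Hol Mer (mfHol B) := by
    rw [hf, mul_div_cancel_right₀ _ hBM]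
  have hinv' : ∀ g ∈ Gamma0 N, ∀ τ : ℍ, (f : ℍ → ℂ) (g • τ) * B τ = (f : ℍ → ℂ) τ * B (g • τ) := by
    intro g hg τ
    have h1 := hinv ⟨g⁻¹, inv_mem hg⟩
    have hBM' : algebraMap Hol Mer (holAct g⁻¹ (mfHol B)) ≠ 0 := by
      apply algebraMap_ne_zero
      intro h
      exact hBH ((holAct g⁻¹).injective (by rw [h, map_zero]))
    rw [hxf, map_div₀, merAct_algebraMap, merAct_algebraMap, div_eq_div_iff hBM' hBM, ← map_mul,
      ← map_mul] at h1
    have h2 := IsFractionRing.injective Hol Mer h1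
    have h3 : (f : ℍ → ℂ) ((g⁻¹)⁻¹ • τ) * B τ = (f : ℍ → ℂ) τ * B ((g⁻¹)⁻¹ • τ) :=
      congrFun (congrArg Subtype.val h2) τ
    rwa [inv_inv] at h3
  obtain ⟨G, hG⟩ := (show IsMFH (Gamma0 N) (12 * n) (mfHol A) from ⟨A, rfl⟩).mul
    ((show IsMFH (Gamma0 N) (12 * n) (mfHol B) from ⟨B, rfl⟩).pow m')
  have hGf : ∀ τ : ℍ, G τ = (f : ℍ → ℂ) τ ^ (m' + 1) := by
    intro τ
    have := congrFun (congrArg Subtype.val (hG.trans hfm.symm)) τ
    exact this
  let F : ModularForm (Gamma0 N : Subgroup (GL (Fin 2) ℝ)) (12 * n) :=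
    { toFun := f
      slash_action_eq' := by
        rintro γ ⟨g, hg, rfl⟩
        have hBg : ⇑B ∣[(12 * n : ℤ)] (mapGL ℝ g) = ⇑B := B.slash_action_eq' _ ⟨g, hg, rfl⟩
        let f' : Hol := ⟨(f : ℍ → ℂ) ∣[(12 * n : ℤ)] (mapGL ℝ g), f.2.slash _ _⟩
        have h1 : f' * mfHol B = f * mfHol B := by
          ext τ
          show ((f : ℍ → ℂ) ∣[(12 * n : ℤ)] g) τ * B τ = (f : ℍ → ℂ) τ * B τ
          have h2 : (⇑B ∣[(12 * n : ℤ)] g) τ = B τ := congrFun hBg τ
          rw [SL_slash_apply] at h2 ⊢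
          rw [← h2]
          have h3 := hinv' g hg τ
          rw [← h2] at h3
          linear_combination (denom g τ ^ (-(12 * n : ℤ))) * h3
        exact congrArg Subtype.val (mul_right_cancel₀ hBH h1)
      holo' := f.2
      bdd_at_cusps' := fun {c} hc => by
        have hc' := hc
        rw [Subgroup.IsArithmetic.isCusp_iff_isCusp_SL2Z] at hc'
        rw [OnePoint.isBoundedAt_iff_forall_SL2Z hc']
        intro γ hγ
        have h1 : IsBoundedAtImInfty (⇑G ∣[(12 * n + m' * (12 * n) : ℤ)] γ) :=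
          G.bdd_at_cusps' hc (mapGL ℝ γ) hγ
        apply isBoundedAtImInfty_of_pow (m' + 1) hm
        convert h1 using 1
        funext τ
        rw [Pi.pow_apply, SL_slash_apply, SL_slash_apply, hGf, mul_pow,
          ← zpow_natCast (denom _ _ ^ _), ← zpow_mul]
        congr 2
        push_cast
        ring }
  exact ⟨n, f, mfHol B, ⟨F, rfl⟩, ⟨B, rfl⟩, hBH, hf.symm⟩

section PS

open PowerSeries Finset

theorem coeff_X_mul_derivative {R : Type*} [CommRing R] (f : R⟦X⟧) (n : ℕ) :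
    coeff n (X * d⁄dX R f) = n * coeff n f := by
  cases n with
  | zero => simp
  | succ n =>
    rw [coeff_succ_X_mul, coeff_derivative]
    push_cast
    ring

theorem euler_identity {R : Type*} [CommRing R] (Y : R⟦X⟧) (m : ℕ) (hm : m ≠ 0) :
    m • (Y ^ m * (X * d⁄dX R Y)) = (X * d⁄dX R (Y ^ m)) * Y := by
  obtain ⟨m', rfl⟩ := Nat.exists_eq_succ_of_ne_zero hm
  rw [derivative_pow, nsmul_eq_mul, Nat.succ_sub_one, pow_succ]
  ring

theorem sum_identity {R : Type*} [CommRing R] (Y : R⟦X⟧) (m : ℕ) (hm : m ≠ 0) (n : ℕ) :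
    ∑ p ∈ antidiagonal n, ((m : R) * p.2 - p.1) * (coeff p.1 (Y ^ m) * coeff p.2 Y) = 0 := by
  have h := congrArg (coeff n) (euler_identity Y m hm)
  rw [map_nsmul, coeff_mul, coeff_mul, nsmul_eq_mul, Finset.mul_sum, ← sub_eq_zero,
    ← Finset.sum_sub_distrib] at h
  rw [← h]
  refine Finset.sum_congr rfl fun p _ => ?_
  rw [coeff_X_mul_derivative, coeff_X_mul_derivative]
  ring

theorem coeff_mem_of_pow {L : Type*} [Field L] [CharZero L] (R : Subfield L)
    (hR : ∀ a : L, ∀ m : ℕ, m ≠ 0 → a ^ m ∈ R → a ∈ R) (m : ℕ) (hm : m ≠ 0) (Y : L⟦X⟧)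
    (h : ∀ i, coeff i (Y ^ m) ∈ R) : ∀ j, coeff j Y ∈ R := by
  by_cases hY : Y = 0
  · intro j
    rw [hY]
    simp
  set k := Y.order.toNat with hk
  have hYU : X ^ k * divXPowOrder Y = Y := X_pow_order_mul_divXPowOrder
  have hyk : coeff k Y ≠ 0 := by
    rw [← constantCoeff_divXPowOrder]
    exact fun h0 => hY (constantCoeff_divXPowOrder_eq_zero_iff.mp h0)
  have hZ : Y ^ m = X ^ (k * m) * (divXPowOrder Y) ^ m := by
    conv_lhs => rw [← hYU]
    rw [mul_pow, ← pow_mul]
  have hz_lt : ∀ i < k * m, coeff i (Y ^ m) = 0 := by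
    intro i hi
    rw [hZ, coeff_X_pow_mul', if_neg (not_le.mpr hi)]
  have hz_e : coeff (k * m) (Y ^ m) = coeff k Y ^ m := by
    rw [hZ, coeff_X_pow_mul', if_pos le_rfl, Nat.sub_self, coeff_zero_eq_constantCoeff_apply,
      map_pow, constantCoeff_divXPowOrder]
  intro j
  induction j using Nat.strong_induction_on with
  | _ j ih =>
    rcases lt_trichotomy j k with hj | hj | hj
    · rw [← hYU, coeff_X_pow_mul', if_neg (not_le.mpr hj)]
      exact R.zero_mem
    · rw [hj]
      exact hR _ m hm (by rw [← hz_e]; exact h _)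
    · have hs := sum_identity Y m hm (k * m + j)
      have hmem : (k * m, j) ∈ antidiagonal (k * m + j) := by simp
      rw [← Finset.add_sum_erase _ _ hmem] at hs
      have hS : ∑ p ∈ (antidiagonal (k * m + j)).erase (k * m, j),
          ((m : L) * p.2 - p.1) * (coeff p.1 (Y ^ m) * coeff p.2 Y) ∈ R := by
        refine R.sum_mem fun p hp => ?_
        rw [Finset.mem_erase, HasAntidiagonal.mem_antidiagonal] at hp
        rcases lt_trichotomy p.1 (k * m) with h1 | h1 | h1
        · rw [hz_lt _ h1]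
          simp
        · exfalso
          apply hp.1
          ext
          · exact h1
          · simp only
            omega
        · have h2 : p.2 < j := by omega
          exact R.mul_mem (R.sub_mem (R.mul_mem (natCast_mem R m) (natCast_mem R _))
            (natCast_mem R _)) (R.mul_mem (h _) (ih _ h2))
      set S := ∑ p ∈ (antidiagonal (k * m + j)).erase (k * m, j),
          ((m : L) * p.2 - p.1) * (coeff p.1 (Y ^ m) * coeff p.2 Y) with hSdef
      simp only at hs
      have hc : ((m : L) * j - ((k * m : ℕ) : L)) * coeff (k * m) (Y ^ m) ≠ 0 := by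
        apply mul_ne_zero
        · obtain ⟨d, rfl⟩ : ∃ d, j = k + (d + 1) := ⟨j - k - 1, by omega⟩
          have : (m : L) * ((k + (d + 1) : ℕ) : L) - ((k * m : ℕ) : L) = ((m * (d + 1) : ℕ) : L) := by
            push_cast
            ring
          rw [this]
          exact_mod_cast Nat.mul_ne_zero hm (Nat.succ_ne_zero d)
        · rw [hz_e]
          exact pow_ne_zero m hyk
      have hcR : ((m : L) * j - ((k * m : ℕ) : L)) * coeff (k * m) (Y ^ m) ∈ R :=
        R.mul_mem (R.sub_mem (R.mul_mem (natCast_mem R m) (natCast_mem R _)) (natCast_mem R _)) (h _)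
      have : coeff j Y = - S / (((m : L) * j - ((k * m : ℕ) : L)) * coeff (k * m) (Y ^ m)) := by
        rw [eq_div_iff hc]
        linear_combination hs
      rw [this]
      exact R.div_mem (R.neg_mem hS) hcR

theorem exists_map_of_pow {K L : Type*} [Field K] [Field L] [CharZero L] [IsAlgClosed K]
    (κ : K →+* L) (m : ℕ) (hm : m ≠ 0) (Y : L⟦X⟧) (s : K⟦X⟧) (h : Y ^ m = s.map κ) :
    ∃ t : K⟦X⟧, t.map κ = Y := by
  have hR : ∀ a : L, ∀ m : ℕ, m ≠ 0 → a ^ m ∈ κ.fieldRange → a ∈ κ.fieldRange := by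
    intro a m hm ha
    obtain ⟨b, hb⟩ := ha
    let _ : Algebra K L := κ.toAlgebra
    have hint : IsIntegral K a := by
      refine ⟨Polynomial.X ^ m - Polynomial.C b, Polynomial.monic_X_pow_sub_C b hm, ?_⟩
      simp only [Polynomial.eval₂_sub, Polynomial.eval₂_pow, Polynomial.eval₂_X,
        Polynomial.eval₂_C]
      rw [sub_eq_zero]
      exact hb.symm
    have hdeg := IsAlgClosed.degree_eq_one_of_irreducible K (minpoly.irreducible hint)
    obtain ⟨c, hc⟩ := minpoly.mem_range_of_degree_eq_one K a hdeg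
    exact ⟨c, hc⟩
  have hmem := coeff_mem_of_pow κ.fieldRange hR m hm Y (fun i => by
    rw [h, coeff_map]
    exact ⟨_, rfl⟩)
  choose t ht using hmem
  refine ⟨PowerSeries.mk t, ?_⟩
  ext j
  rw [coeff_map, coeff_mk, ht]

end PS

theorem ofComplex_add_one (τ : ℍ) : ofComplex ((τ : ℂ) + 1) = ModularGroup.T • τ := by
  have h1 : 0 < ((τ : ℂ) + 1).im := by simpa using τ.im_pos
  rw [ofComplex_apply_of_im_pos h1]
  ext
  rw [UpperHalfPlane.modular_T_smul, UpperHalfPlane.coe_vadd]
  simp [add_comm]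

theorem periodic_iff (f : ℍ → ℂ) :
    Function.Periodic (f ∘ ofComplex) 1 ↔ ∀ τ : ℍ, f (ModularGroup.T • τ) = f τ := by
  constructor
  · intro h τ
    have := h (τ : ℂ)
    simpa [Function.comp_apply, ofComplex_add_one] using this
  · intro h z
    by_cases hz : 0 < z.im
    · have := h ⟨z, hz⟩
      rw [← ofComplex_add_one] at this
      simpa [Function.comp_apply, ofComplex_apply_of_im_pos hz] using this
    · have hz1 : ¬ 0 < (z + 1).im := by simpa using hz
      simp only [Function.comp_apply, ofComplex_apply_of_im_nonpos (not_lt.mp hz),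
        ofComplex_apply_of_im_nonpos (not_lt.mp hz1)]

theorem isQ_pow {f : ℍ → ℂ} (hf : IsQ f) (n : ℕ) :
    IsQ (f ^ n) ∧ qExpansion 1 (f ^ n) = qExpansion 1 f ^ n := by
  induction n with
  | zero =>
    rw [pow_zero, pow_zero]
    exact ⟨IsQ.one, qExpansion_one 1⟩
  | succ n ih =>
    rw [pow_succ, pow_succ]
    exact ⟨ih.1.mul hf, by rw [qExpansion_mul ih.1.analytic hf.analytic, ih.2]⟩

/-- a `T`-invariant `m`-th root of an element with algebraic `q`-expansion has an algebraic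
`q`-expansion -/
theorem exists_Qq_of_pow (m : ℕ) (hm : m ≠ 0) (w : Qq) (x : Mer) (hx : x ^ m = phiH w)
    (hT : merAct (ModularGroup.T)⁻¹ x = x) : ∃ x' : Qq, phiH x' = x := by
  obtain ⟨a, b, hb, rfl⟩ := IsFractionRing.div_surjective Bq w
  have hb0 : b ≠ 0 := nonZeroDivisors.ne_zero hb
  have hbH : prH b ≠ 0 := fun h => hb0 (prH_injective (by rw [h, map_zero]))
  have hbM := algebraMap_ne_zero hbH
  obtain ⟨m', rfl⟩ : ∃ m', m = m' + 1 := Nat.exists_eq_succ_of_ne_zero hm
  have hy : (x * algebraMap Hol Mer (prH b)) ^ (m' + 1) =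
      algebraMap Hol Mer (prH (a * b ^ m')) := by
    rw [mul_pow, hx, map_div₀, phiH_algebraMap, phiH_algebraMap, map_mul, map_mul, map_pow,
      map_pow, pow_succ]
    field_simp
  obtain ⟨f, hf⟩ := exists_hol_of_pow _ hm _ _ hy
  have hfm : f ^ (m' + 1) = prH (a * b ^ m') := by
    apply IsFractionRing.injective Hol Mer
    rw [map_pow, hf, hy]
  have hxf : x = algebraMap Hol Mer f / algebraMap Hol Mer (prH b) := by
    rw [hf, mul_div_cancel_right₀ _ hbM]
  have hbper : ∀ τ : ℍ, b.1.1 (ModularGroup.T • τ) = b.1.1 τ := (periodic_iff _).mp b.2.1.per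
  have hbT : holAct (ModularGroup.T)⁻¹ (prH b) = prH b := by
    ext τ
    show b.1.1 (((ModularGroup.T)⁻¹)⁻¹ • τ) = b.1.1 τ
    rw [inv_inv, hbper]
  have hfT : holAct (ModularGroup.T)⁻¹ f = f := by
    rw [hxf, map_div₀, merAct_algebraMap, merAct_algebraMap, hbT, div_left_inj' hbM] at hT
    exact IsFractionRing.injective Hol Mer hT
  have hQ : IsQ (f : ℍ → ℂ) := by
    refine ⟨f.2, (periodic_iff _).mpr fun τ => ?_, ?_⟩
    · have : (f : ℍ → ℂ) (((ModularGroup.T)⁻¹)⁻¹ • τ) = (f : ℍ → ℂ) τ :=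
        congrFun (congrArg Subtype.val hfT) τ
      rwa [inv_inv] at this
    · apply isBoundedAtImInfty_of_pow (m' + 1) hm
      have : (f : ℍ → ℂ) ^ (m' + 1) = (a * b ^ m').1.1 := congrArg Subtype.val hfm
      rw [this]
      exact (a * b ^ m').2.1.bdd
  have hq : qExpansion 1 (f : ℍ → ℂ) ^ (m' + 1) = ((a * b ^ m').1.2).map kappa := by
    rw [← (isQ_pow hQ _).2, ← (a * b ^ m').2.2]
    congr 1
    exact congrArg Subtype.val hfm
  obtain ⟨t, ht⟩ := exists_map_of_pow kappa _ hm _ _ hq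
  let y' : Bq := ⟨((f : ℍ → ℂ), t), hQ, ht.symm⟩
  refine ⟨algebraMap Bq Qq y' / algebraMap Bq Qq b, ?_⟩
  rw [map_div₀, phiH_algebraMap, phiH_algebraMap, hxf]
  rfl

/-- the `q`-expansion principle on `Qq` -/
theorem phiH_linearIndependent_fin (n : ℕ) (w : Fin n → Qq)
    (hw : ∀ l : Fin n → Kb, ∑ i, HahnSeries.C (l i) * phiS (w i) = 0 → ∀ i, l i = 0) :
    LinearIndependent ℂ (fun i => phiH (w i)) := by
  rw [Fintype.linearIndependent_iff]
  intro c hc
  obtain ⟨b, hb⟩ := IsLocalization.exist_integer_multiples_of_finite (nonZeroDivisors Bq) w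
  choose a ha using hb
  have hb0 : algebraMap Bq Qq (b : Bq) ≠ 0 := by
    rw [Ne, IsFractionRing.to_map_eq_zero_iff]
    exact nonZeroDivisors.ne_zero b.2
  have ha' : ∀ i, algebraMap Bq Qq (a i) = algebraMap Bq Qq (b : Bq) * w i := by
    intro i
    rw [ha i, Algebra.smul_def]
  have h1 : ∑ i, c i • prH (a i) = 0 := by
    apply IsFractionRing.injective Hol Mer
    rw [map_zero, map_sum]
    have : ∀ i, algebraMap Hol Mer (c i • prH (a i)) =
        phiH (algebraMap Bq Qq (b : Bq)) * (c i • phiH (w i)) := by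
      intro i
      rw [Algebra.smul_def, map_mul, ← phiH_algebraMap, ha' i, map_mul, Algebra.smul_def,
        ← IsScalarTower.algebraMap_apply ℂ Hol Mer]
      ring
    simp only [this]
    rw [← Finset.mul_sum, hc, mul_zero]
  have h2 : ∑ i, c i • (a i).1.1 = 0 := by
    have := congrArg Subtype.val h1
    simp only [AddSubmonoidClass.coe_finsetSum, SetLike.val_smul, ZeroMemClass.coe_zero] at this
    exact this
  have h3 : ∑ i, c i • ((a i).1.2).map kappa = 0 := by
    have := (isQ_sum_smul Finset.univ c (fun i => (a i).1.1) (fun i => (a i).2.1)).2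
    rw [h2, qExpansion_zero] at this
    rw [this]
    exact Finset.sum_congr rfl fun i _ => by rw [(a i).2.2]
  refine linearIndependent_aux n (fun i => (a i).1.2) ?_ c h3
  intro l hl
  apply hw
  have hB : phiS (algebraMap Bq Qq (b : Bq)) ≠ 0 := (map_ne_zero phiS).mpr hb0
  apply mul_left_cancel₀ hB
  have h4 := congrArg (HahnSeries.ofPowerSeries ℤ Kb) hl
  rw [map_sum, map_zero] at h4
  rw [mul_zero, ← h4, Finset.mul_sum]
  refine Finset.sum_congr rfl fun i _ => ?_
  have h5 : HahnSeries.ofPowerSeries ℤ Kb (a i).1.2 =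
      phiS (algebraMap Bq Qq (b : Bq)) * phiS (w i) := by
    rw [← map_mul, ← ha' i, phiS_algebraMap]
    rfl
  rw [map_mul, h5, HahnSeries.ofPowerSeries_C]
  ring

/-- the `q`-expansion principle on `Qq` -/
theorem phiH_linearIndependent {ι : Type*} [Fintype ι] (w : ι → Qq)
    (hw : ∀ l : ι → Kb, ∑ i, HahnSeries.C (l i) * phiS (w i) = 0 → ∀ i, l i = 0) :
    LinearIndependent ℂ (fun i => phiH (w i)) := by
  let e := Fintype.equivFin ι
  have h1 := phiH_linearIndependent_fin _ (w ∘ e.symm) (by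
    intro l hl k
    have h2 := hw (l ∘ e) (by
      rw [← hl, ← Equiv.sum_comp e]
      simp) (e.symm k)
    simpa using h2)
  have h3 := (linearIndependent_equiv e).mpr h1
  convert h3 using 1
  ext1 i
  simp

theorem iota_eq (N : ℕ) [NeZero N] (θ : FN N) : iota N θ = phiH (iotaQ N θ) := by
  have hθ : θ ∈ IntermediateField.adjoin Kb
      {x : FN N | ∃ (d : ℕ) (_ : NeZero d) (hd : d ∣ N), x = jF N d hd} := by
    rw [adjoin_jF]; trivial
  induction hθ using IntermediateField.adjoin_induction with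
  | mem x hx =>
    obtain ⟨d, hd0, hd, rfl⟩ := hx
    rw [iota_jF, iotaQ_eq N _ _ (phiS_jQ d), phiH_jQ]
  | algebraMap a =>
    rw [iota_algebraMap, iotaQ_eq N _ _ (phiS_cstB a), phiH_cstB]
  | add x y _ _ hx hy => rw [RingHom.map_add, RingHom.map_add, RingHom.map_add, hx, hy]
  | inv x _ hx => rw [map_inv₀ (iota N), map_inv₀ (iotaQ N), map_inv₀ phiH, hx]
  | mul x y _ _ hx hy => rw [RingHom.map_mul, RingHom.map_mul, RingHom.map_mul, hx, hy]

section Deg

open Polynomial IntermediateField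

theorem exists_poly_of_not_li {K F E : Type*} [Field K] [Field F] [Field E] [Algebra K F]
    [Algebra F E] [Algebra K E] [IsScalarTower K F E] (j : F) (hj : Transcendental K j) (z : E)
    (s p : ℕ)
    (hs : ¬ LinearIndependent K (fun i : Fin (s + 1) × Fin (p + 1) =>
      algebraMap F E j ^ (i.1 : ℕ) * z ^ (i.2 : ℕ))) :
    ∃ R : Polynomial K⟮j⟯, R ≠ 0 ∧ R.natDegree ≤ p ∧ Polynomial.aeval z R = 0 := by
  rw [Fintype.not_linearIndependent_iff] at hs
  obtain ⟨d, hd, ⟨i₀, hi₀⟩⟩ := hs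
  let γ : K⟮j⟯ := AdjoinSimple.gen K j
  let P : Fin (p + 1) → Polynomial K := fun b => ∑ a : Fin (s + 1), C (d (a, b)) * X ^ (a : ℕ)
  let R : Polynomial K⟮j⟯ := ∑ b : Fin (p + 1), C (aeval γ (P b)) * X ^ (b : ℕ)
  have hcoeffP : ∀ (b : Fin (p + 1)) (a : Fin (s + 1)), (P b).coeff a = d (a, b) := by
    intro b a
    simp only [P, finsetSum_coeff, coeff_C_mul_X_pow]
    rw [Finset.sum_eq_single a]
    · simp
    · intro a' _ ha'
      rw [if_neg]
      intro h
      exact ha' (Fin.ext h.symm)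
    · simp
  have hcoeffR : ∀ b : Fin (p + 1), R.coeff b = aeval γ (P b) := by
    intro b
    simp only [R, finsetSum_coeff, coeff_C_mul_X_pow]
    rw [Finset.sum_eq_single b]
    · simp
    · intro b' _ hb'
      rw [if_neg]
      intro h
      exact hb' (Fin.ext h.symm)
    · simp
  have hγ : ∀ Q : Polynomial K, algebraMap K⟮j⟯ F (aeval γ Q) = aeval j Q := by
    intro Q
    rw [← aeval_algebraMap_apply, AdjoinSimple.algebraMap_gen]
  have hγ' : ∀ Q : Polynomial K, algebraMap K⟮j⟯ E (aeval γ Q) = aeval (algebraMap F E j) Q := by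
    intro Q
    rw [IsScalarTower.algebraMap_apply K⟮j⟯ F E, hγ, aeval_algebraMap_apply]
  refine ⟨R, ?_, ?_, ?_⟩
  · intro hR
    have h1 : aeval γ (P i₀.2) = 0 := by rw [← hcoeffR, hR]; simp
    have h2 : aeval j (P i₀.2) = 0 := by rw [← hγ, h1, map_zero]
    have h3 : P i₀.2 = 0 := (transcendental_iff.mp hj) _ h2
    apply hi₀
    have := hcoeffP i₀.2 i₀.1
    rw [h3] at this
    simpa using this.symm
  · apply natDegree_sum_le_of_forall_le
    intro b _
    exact (natDegree_C_mul_X_pow_le _ _).trans (Nat.lt_succ_iff.mp b.2)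
  · have e1 : aeval z R = ∑ b : Fin (p + 1), aeval (algebraMap F E j) (P b) * z ^ (b : ℕ) := by
      simp only [R, map_sum, map_mul, aeval_C, map_pow, aeval_X]
      refine Finset.sum_congr rfl fun b _ => ?_
      rw [hγ']
    rw [e1, ← hd, Fintype.sum_prod_type_right]
    refine Finset.sum_congr rfl fun b _ => ?_
    simp only [P, map_sum, map_mul, aeval_C, map_pow, aeval_X]
    rw [Finset.sum_mul]
    refine Finset.sum_congr rfl fun a _ => ?_
    rw [Algebra.smul_def]
    ring

theorem surjective_of_degree_le {K₀ F E : Type*} [Field K₀] [Field F] [Field E] [CharZero K₀]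
    [Algebra K₀ F] [Algebra F E] [Algebra K₀ E] [IsScalarTower K₀ F E] [FiniteDimensional K₀ F]
    [FiniteDimensional F E]
    (h : ∀ z : E, ∃ R : Polynomial K₀, R ≠ 0 ∧ R.natDegree ≤ Module.finrank K₀ F ∧
      Polynomial.aeval z R = 0) :
    Function.Surjective (algebraMap F E) := by
  have : FiniteDimensional K₀ E := FiniteDimensional.trans K₀ F E
  obtain ⟨z, hz⟩ := Field.exists_primitive_element K₀ E
  obtain ⟨R, hR0, hRd, hRz⟩ := h z
  have hint : IsIntegral K₀ z := Algebra.IsIntegral.isIntegral z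
  have h1 : Module.finrank K₀ E = (minpoly K₀ z).natDegree := by
    rw [← IntermediateField.adjoin.finrank hint, hz, IntermediateField.finrank_top']
  have h2 : (minpoly K₀ z).natDegree ≤ R.natDegree :=
    natDegree_le_of_dvd (minpoly.dvd K₀ z hRz) hR0
  have h3 := Module.finrank_mul_finrank K₀ F E
  have h4 : 0 < Module.finrank K₀ F := Module.finrank_pos
  have h5 : 0 < Module.finrank F E := Module.finrank_pos
  have h6 : Module.finrank F E = 1 := by
    by_contra hne
    have : 2 ≤ Module.finrank F E := by omega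
    nlinarith
  have h7 : (⊥ : Subalgebra F E) = ⊤ := Subalgebra.bot_eq_top_of_finrank_eq_one h6
  exact Algebra.surjective_algebraMap_iff.mpr h7.symm

theorem surjective_of_not_li {K F E : Type*} [Field K] [Field F] [Field E] [CharZero K]
    [Algebra K F] [Algebra F E] [Algebra K E] [IsScalarTower K F E] (j : F)
    (hj : Transcendental K j) [FiniteDimensional K⟮j⟯ F] [FiniteDimensional F E]
    (h : ∀ z : E, ∃ s : ℕ, ¬ LinearIndependent K
      (fun i : Fin (s + 1) × Fin (Module.finrank K⟮j⟯ F + 1) =>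
        algebraMap F E j ^ (i.1 : ℕ) * z ^ (i.2 : ℕ))) :
    Function.Surjective (algebraMap F E) := by
  have : CharZero K⟮j⟯ := charZero_of_injective_algebraMap (algebraMap K K⟮j⟯).injective
  apply surjective_of_degree_le (K₀ := K⟮j⟯)
  intro z
  obtain ⟨s, hs⟩ := h z
  exact exists_poly_of_not_li j hj z s _ hs

theorem mem_of_not_li {K M : Type*} [Field K] [CharZero K] [Field M] [Algebra K M]
    (F : IntermediateField K M) (j : F) (hj : Transcendental K j) [FiniteDimensional K⟮j⟯ F]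
    (X : M) (hX : IsIntegral F X)
    (h : ∀ z ∈ F⟮X⟯, ∃ s : ℕ, ∃ l : Fin (s + 1) × Fin (Module.finrank K⟮j⟯ F + 1) → K,
      ∑ i, algebraMap K M (l i) * ((j : M) ^ (i.1 : ℕ) * z ^ (i.2 : ℕ)) = 0 ∧ ∃ i, l i ≠ 0) :
    X ∈ F := by
  have : FiniteDimensional F F⟮X⟯ := adjoin.finiteDimensional hX
  have hsurj : Function.Surjective (algebraMap F F⟮X⟯) := by
    apply surjective_of_not_li (K := K) j hj
    intro z
    obtain ⟨s, l, hl, hl0⟩ := h z z.2
    refine ⟨s, ?_⟩
    rw [Fintype.not_linearIndependent_iff]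
    refine ⟨l, ?_, hl0⟩
    apply (algebraMap F⟮X⟯ M).injective
    rw [map_zero, ← hl, map_sum]
    refine Finset.sum_congr rfl fun i _ => ?_
    have e1 : algebraMap F⟮X⟯ M (algebraMap K F⟮X⟯ (l i)) = algebraMap K M (l i) := rfl
    rw [Algebra.smul_def, map_mul, map_mul, map_pow, map_pow, e1,
      ← IsScalarTower.algebraMap_apply F F⟮X⟯ M]
    rfl
  obtain ⟨r, hr⟩ := hsurj ⟨X, mem_adjoin_simple_self _ _⟩
  have : (r : M) = X := congrArg Subtype.val hr
  rw [← this]
  exact r.2

end Deg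

theorem not_linearIndependent_pow_of_isQuot (N : ℕ) [NeZero N] (x : Mer) (hxQ : IsQuot N x) :
    ∃ s : ℕ, ¬ LinearIndependent ℂ (fun i : Fin (s + 1) × Fin (Nat.card (QN N) + 1) =>
      algebraMap Hol Mer jH ^ (i.1 : ℕ) * x ^ (i.2 : ℕ)) := by
  obtain ⟨m, A, B, hA, hB, hB0, hx⟩ := hxQ
  set p := Nat.card (QN N) with hp
  have hp0 : 0 < p := card_QN_pos N
  refine ⟨m * p ^ 2, fun hli => ?_⟩
  set s := m * p ^ 2 with hs
  have hD : algebraMap Hol Mer (DeltaH ^ s * B ^ p) ≠ 0 := by
    have hΔ0 : DeltaH ≠ 0 := by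
      intro h
      exact discriminant_ne_zero I (congrFun (congrArg Subtype.val h) I)
    exact algebraMap_ne_zero (mul_ne_zero (pow_ne_zero _ hΔ0) (pow_ne_zero _ hB0))
  have h1 := hli.map' (LinearMap.mulLeft ℂ (algebraMap Hol Mer (DeltaH ^ s * B ^ p)))
    (LinearMap.ker_eq_bot.mpr (mul_right_injective₀ hD))
  have h2 : (LinearMap.mulLeft ℂ (algebraMap Hol Mer (DeltaH ^ s * B ^ p))) ∘
      (fun i : Fin (s + 1) × Fin (p + 1) =>
        algebraMap Hol Mer jH ^ (i.1 : ℕ) * x ^ (i.2 : ℕ))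
      = (IsScalarTower.toAlgHom ℂ Hol Mer).toLinearMap ∘ famH A B s p := by
    ext1 i
    exact (algebraMap_famH hx s p i).symm
  rw [h2] at h1
  refine not_linearIndependent_of_isMFH N (s + m * p) (famH A B s p)
    (isMFH_famH N m hA hB s p) ?_ h1.of_comp
  rw [Fintype.card_prod, Fintype.card_fin, Fintype.card_fin, ← hp, hs]
  nlinarith

theorem T_inv_mem_Gamma0 (N : ℕ) : (ModularGroup.T)⁻¹ ∈ Gamma0 N := by
  apply inv_mem
  rw [Gamma0_mem]
  simp [ModularGroup.T]

open IntermediateField in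
/-- a `Γ₀(N)`-invariant `m`-th root of an element of the function field is in the function field -/
theorem exists_root_of_invariant' (N m : ℕ) [NeZero N] (hm : m ≠ 0) (v : FN N) (x : Mer)
    (hx : x ^ m = iota N v) (hinv : ∀ γ : Gamma0 N, merAct (γ : SL(2, ℤ)) x = x) :
    ∃ r : FN N, iota N r = x := by
  have hQ : IsQuot N x := isQuot_of_pow N m hm v x hx hinv
  obtain ⟨x', hx'⟩ := exists_Qq_of_pow m hm (iotaQ N v) x (by rw [hx, iota_eq])
    (hinv ⟨_, T_inv_mem_Gamma0 N⟩)
  have hXm : phiS x' ^ m = (v : LaurentSeries Kb) := by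
    rw [← phiS_iotaQ, ← map_pow]
    congr 1
    apply phiH.injective
    rw [map_pow, hx', hx, iota_eq]
  have hint : IsIntegral (FN N) (phiS x') := by
    refine ⟨Polynomial.X ^ m - Polynomial.C v, Polynomial.monic_X_pow_sub_C v hm, ?_⟩
    simp only [Polynomial.eval₂_sub, Polynomial.eval₂_pow, Polynomial.eval₂_X,
      Polynomial.eval₂_C]
    rw [sub_eq_zero]
    exact hXm
  have := finiteDimensional_FN N
  have hgood : ∀ z ∈ (FN N)⟮phiS x'⟯, ∃ w : Qq, phiS w = z ∧ IsQuot N (phiH w) := by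
    intro z hz
    induction hz using IntermediateField.adjoin_induction with
    | mem z hz =>
      rw [Set.mem_singleton_iff] at hz
      subst hz
      exact ⟨x', rfl, hx' ▸ hQ⟩
    | algebraMap θ =>
      exact ⟨iotaQ N θ, phiS_iotaQ N θ, by rw [← iota_eq]; exact isQuot_iota N θ⟩
    | add a b _ _ ha hb =>
      obtain ⟨wa, ha1, ha2⟩ := ha
      obtain ⟨wb, hb1, hb2⟩ := hb
      exact ⟨wa + wb, by rw [RingHom.map_add, ha1, hb1], by rw [RingHom.map_add]; exact ha2.add hb2⟩
    | inv a _ ha =>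
      obtain ⟨wa, ha1, ha2⟩ := ha
      exact ⟨wa⁻¹, by rw [map_inv₀ phiS, ha1], by rw [map_inv₀ phiH]; exact ha2.inv⟩
    | mul a b _ _ ha hb =>
      obtain ⟨wa, ha1, ha2⟩ := ha
      obtain ⟨wb, hb1, hb2⟩ := hb
      exact ⟨wa * wb, by rw [RingHom.map_mul, ha1, hb1], by rw [RingHom.map_mul]; exact ha2.mul hb2⟩
  have hmem : phiS x' ∈ modularFunctionFieldBar N := by
    apply mem_of_not_li (modularFunctionFieldBar N) (jN N) (transcendental_jN N) (phiS x') hint
    intro z hz
    obtain ⟨w, hw, hwQ⟩ := hgood z hz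
    obtain ⟨s, hs⟩ := not_linearIndependent_pow_of_isQuot N _ hwQ
    rw [finrank_FN]
    refine ⟨s, ?_⟩
    by_contra hcon
    push Not at hcon
    apply hs
    have h2 := phiH_linearIndependent
      (fun i : Fin (s + 1) × Fin (Nat.card (QN N) + 1) => jQ 1 ^ (i.1 : ℕ) * w ^ (i.2 : ℕ)) (by
        intro l hl
        apply hcon l
        rw [← hl]
        refine Finset.sum_congr rfl fun i _ => ?_
        rw [RingHom.map_mul, RingHom.map_pow, RingHom.map_pow, hw, phiS_jQ,
          algebraMap_laurentSeries_eq_single]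
        rfl)
    convert h2 using 1
    ext1 i
    simp only [RingHom.map_mul, RingHom.map_pow, phiH_jQ, jHd_one]
  refine ⟨⟨phiS x', hmem⟩, ?_⟩
  rw [iota_eq, ← hx']
  congr 1
  apply phiS.injective
  rw [phiS_iotaQ]

end Fermat.Agent.S29.K2
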