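import Fermat.Agent.S29.Defs
import Fermat.Agent.S29.UniqueAux

/-!
# S29/K2 : uniqueness of the Kummer element, injectivity of `c ↦ [u_c]`

`isKummer_unique`.  `x = h / h'` is `Γ₀(N)`-invariant and `x ^ m = iota N (u / u') = A / B`
(`S24.exists_quot`).  `(x B) ^ m = A B ^ (m-1)` is a modular form, so `x B` is holomorphic
(orders `≥ 0`), of weight `12 n` for `Γ₀(N)`, bounded at all cusps: `IsQuot N x`.
Every `IsQuot N x` is of degree `≤ ψ(N)` over `ℂ(j)` (proof of `S24.not_linearIndependent_pow`), the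
`IsQuot` elements form a field, `ℂ(j)·iota(FN N)` has degree `ψ(N)` (`iota_linearIndependent`), so
`x = (∑ a_i iota θ_i) / (∑ b_i iota θ'_i)` with `a_i b_i : ℂ`.  The `q`-expansion of `x` is a root of
`X ^ m = u / u'` in `ℂ((q))`, so it is `ζ ·` (a series with coefficients in `kappa Kb`).
A `ℂ`-linear relation between series with coefficients in `Kb` comes from `Kb`-linear ones
(`S24.linearIndependent_aux`), hence that series lies in `FN N`.
-/

set_option autoImplicit false

open UpperHalfPlane ModularForm WithZero ModularCurve AlgebraicCurve CongruenceSubgroup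
open Fermat.Agent.S24
open scoped MatrixGroups Manifold

noncomputable section

namespace Fermat.Agent.S29

/-- a `Γ₀(N)`-invariant `m`-th root of an element of the function field is in the function field -/
theorem exists_root_of_invariant (N m : ℕ) [NeZero N] (hm : m ≠ 0) (v : FN N) (x : Mer)
    (hx : x ^ m = iota N v) (hinv : ∀ γ : Gamma0 N, merAct (γ : SL(2, ℤ)) x = x) :
    ∃ r : FN N, iota N r = x :=
  K2.exists_root_of_invariant' N m hm v x hx hinv

theorem zet_ne_zero (m : ℕ) (n : ℤ) : zet m n ≠ 0 := Complex.exp_ne_zero _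

theorem algebraMap_zet_ne_zero (m : ℕ) (n : ℤ) : algebraMap ℂ Mer (zet m n) ≠ 0 :=
  (map_ne_zero _).mpr (zet_ne_zero m n)

theorem zet_add (m : ℕ) (a b : ℤ) : zet m (a + b) = zet m a * zet m b := by
  rw [zet, zet, zet, ← Complex.exp_add]
  congr 1
  push_cast
  ring

theorem dvd_of_zet_eq_one (m : ℕ) (hm : m ≠ 0) (n : ℤ) (h : zet m n = 1) : (m : ℤ) ∣ n := by
  rw [zet, Complex.exp_eq_one_iff] at h
  obtain ⟨k, hk⟩ := h
  have hm' : (m : ℂ) ≠ 0 := by exact_mod_cast hm
  have hpi : (2 * Real.pi * Complex.I : ℂ) ≠ 0 := Complex.two_pi_I_ne_zero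
  have h1 : (n : ℂ) = k * m := by
    rw [div_eq_iff hm'] at hk
    apply mul_left_cancel₀ hpi
    rw [hk]
    ring
  refine ⟨k, ?_⟩
  have h2 : (n : ℂ) = ((m * k : ℤ) : ℂ) := by
    rw [h1]
    push_cast
    ring
  exact_mod_cast h2

theorem isKummer_unique (N m : ℕ) [NeZero N] (hm : m ≠ 0) (c : Additive (Gamma0 N) →+ ℤ)
    (u u' : FN N) (hu : IsKummer N m c u) (hu' : IsKummer N m c u') :
    ∃ r : FN N, u = u' * r ^ m := by
  obtain ⟨h, h0, hum, hc⟩ := hu
  obtain ⟨h', h0', hum', hc'⟩ := hu'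
  obtain ⟨r, hr⟩ := exists_root_of_invariant N m hm (u / u') (h / h')
    (by rw [div_pow, map_div₀, hum, hum'])
    (fun γ => by rw [map_div₀, hc γ, hc' γ, mul_div_mul_left _ _ (algebraMap_zet_ne_zero _ _)])
  refine ⟨r, (iota N).injective ?_⟩
  rw [map_mul, map_pow, hr, div_pow, hum, hum']
  have : h' ^ m ≠ 0 := pow_ne_zero m h0'
  field_simp

theorem isKummer_mul (N m : ℕ) [NeZero N] (c c' : Additive (Gamma0 N) →+ ℤ)
    (u u' : FN N) (hu : IsKummer N m c u) (hu' : IsKummer N m c' u') :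
    IsKummer N m (c + c') (u * u') := by
  obtain ⟨h, h0, hum, hc⟩ := hu
  obtain ⟨h', h0', hum', hc'⟩ := hu'
  refine ⟨h * h', mul_ne_zero h0 h0', by rw [map_mul, hum, hum', mul_pow], fun γ => ?_⟩
  rw [map_mul, hc γ, hc' γ, AddMonoidHom.add_apply, zet_add, map_mul]
  ring

/-- injectivity of `XN N / m → W_m` -/
theorem dvd_of_isKummer_pow (N m : ℕ) [NeZero N] (hm : m ≠ 0) (c : Additive (Gamma0 N) →+ ℤ)
    (r : FN N) (hu : IsKummer N m c (r ^ m)) :
    ∀ γ : Gamma0 N, (m : ℤ) ∣ c (Additive.ofMul γ) := by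
  obtain ⟨h, h0, hum, hc⟩ := hu
  intro γ
  have hr0 : iota N r ≠ 0 := by
    intro h1
    rw [map_pow, h1, zero_pow hm] at hum
    exact h0 (pow_eq_zero_iff hm |>.mp hum.symm)
  -- `h / iota r` is a constant root of unity
  have h1 : (h / iota N r) ^ m = 1 := by
    rw [div_pow, ← hum, map_pow, div_self (pow_ne_zero m hr0)]
  have hprim : IsPrimitiveRoot (algebraMap ℂ Mer (Complex.exp (2 * Real.pi * Complex.I / m))) m :=
    (Complex.isPrimitiveRoot_exp m hm).map_of_injective (algebraMap ℂ Mer).injective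
  have : NeZero m := ⟨hm⟩
  obtain ⟨i, -, hi⟩ := hprim.eq_pow_of_pow_eq_one h1
  have h2 : h = algebraMap ℂ Mer (Complex.exp (2 * Real.pi * Complex.I / m) ^ i) * iota N r := by
    rw [map_pow, hi, div_mul_cancel₀ _ hr0]
  have h3 := hc γ
  have h4 : merAct (γ : SL(2, ℤ)) h = h := by
    rw [h2, map_mul, merAct_const, merAct_iota_of_mem N γ.2]
  rw [h4] at h3
  have h5 : algebraMap ℂ Mer (zet m (c (Additive.ofMul γ))) = 1 := by
    have := mul_right_cancel₀ h0 (h3.symm.trans (one_mul h).symm)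
    exact this
  apply dvd_of_zet_eq_one m hm
  apply (algebraMap ℂ Mer).injective
  rw [h5, map_one]

end Fermat.Agent.S29
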