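import Fermat.Agent.S29.Assemble
import Fermat.Agent.S29.Abstract
import Fermat.Agent.S29.Eig
import Fermat.Agent.S29.HeckeX
import Fermat.Agent.S29.Unique
import Fermat.Agent.S29.Dict
import Fermat.Agent.ES.AlgGal

/-!
# S29/ASM-b : the final wiring

`WW N p = (FN N)ˣ / p`-th powers (written additively), with the Galois action `actW`, and
`Θ : XN N → WW N p`, `c ↦ [u_c]`.
The remaining inputs are hypotheses of `main`:
* `Desc N p`  : existence of Kummer elements (S29/DESCENT),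
* `K3 N p`    : compatibility with `T_ℓ` (S29/K3),
* `ES1 N p`, `ES2 N p` : Eichler–Shimura relation and triviality of inertia on classes (ES/ALG + KL).
-/

set_option autoImplicit false

open UpperHalfPlane ModularForm ModularFormClass ModularCurve AlgebraicCurve CongruenceSubgroup
open TensorProduct Polynomial
open ModularCurve.Period Fermat.Agent.S24 Fermat.Agent.S16.Lower Fermat.Agent.ES.Alg
open scoped MatrixGroups Manifold

noncomputable section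

namespace Fermat.Agent.S29

/-- S29/DESCENT -/
def Desc (N p : ℕ) [NeZero N] : Prop :=
  ∀ c : Additive (Gamma0 N) →+ ℤ, c ∈ XN N → ∃ u : FN N, IsKummer N p c u

/-- S29/K3 -/
def K3 (N p : ℕ) [NeZero N] : Prop :=
  ∀ (ℓ : ℕ) (hℓ : ℓ.Prime), ¬ ℓ ∣ N → ∀ (c c' : Additive (Gamma0 N) →+ ℤ) (u : FN N),
    c ∈ XN N → IsKummer N p c u → IsTransfer N (matT ℓ) c c' →
      IsKummer N p c' (@Tl N ℓ _ ⟨hℓ.ne_zero⟩ u)

/-- Eichler–Shimura on classes -/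
def ES1 (N p : ℕ) [NeZero N] : Prop :=
  ∀ (ℓ : ℕ) (hℓ : ℓ.Prime), ¬ ℓ ∣ N * p → ∀ A : ValuationSubring Qb, A.LiesOverPrime ℓ →
    ∀ σ : GQ, A.IsFrobeniusAt σ ℓ → ∀ u : FN N, PDiv Kb (FN N) p u →
      ∃ r : FN N, @Tl N ℓ _ ⟨hℓ.ne_zero⟩ u = gal N σ u * (gal N σ⁻¹ u) ^ ℓ * r ^ p

/-- inertia acts trivially on classes -/
def ES2 (N p : ℕ) [NeZero N] : Prop :=
  ∀ (ℓ : ℕ), ℓ.Prime → ¬ ℓ ∣ N * p → ∀ A : ValuationSubring Qb, A.LiesOverPrime ℓ →
    ∀ τ ∈ A.inertiaSubgroupIn ℚ, ∀ u : FN N, PDiv Kb (FN N) p u →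
      ∃ r : FN N, gal N τ u = u * r ^ p

section WW

variable (N p : ℕ)

/-- the subgroup of `p`-th powers -/
def powSub : Subgroup (FN N)ˣ := (powMonoidHom p : (FN N)ˣ →* (FN N)ˣ).range

/-- `(FN N)ˣ / p`-th powers, additively -/
abbrev WW : Type := Additive ((FN N)ˣ ⧸ powSub N p)

variable {N p}

/-- the class of a unit -/
def cls (u : (FN N)ˣ) : WW N p := Additive.ofMul (QuotientGroup.mk u)

theorem cls_mul (u v : (FN N)ˣ) : (cls (u * v) : WW N p) = cls u + cls v := rfl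

theorem cls_pow (u : (FN N)ˣ) (n : ℕ) : (cls (u ^ n) : WW N p) = n • cls u := rfl

theorem cls_eq_zero_iff (u : (FN N)ˣ) : (cls u : WW N p) = 0 ↔ ∃ r : (FN N)ˣ, r ^ p = u := by
  show (QuotientGroup.mk u : (FN N)ˣ ⧸ powSub N p) = 1 ↔ _
  rw [QuotientGroup.eq_one_iff]
  rfl

theorem cls_pow_self (r : (FN N)ˣ) : (cls (r ^ p) : WW N p) = 0 :=
  (cls_eq_zero_iff _).mpr ⟨r, rfl⟩

theorem cls_surjective (w : WW N p) : ∃ u, cls u = w := by
  obtain ⟨u, hu⟩ := QuotientGroup.mk_surjective (Additive.toMul w)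
  exact ⟨u, congrArg Additive.ofMul hu⟩

theorem nsmul_WW (w : WW N p) : p • w = 0 := by
  obtain ⟨u, rfl⟩ := cls_surjective w
  rw [← cls_pow, cls_pow_self]

theorem gal_mul (σ τ : GQ) (x : FN N) : gal N (σ * τ) x = gal N σ (gal N τ x) := by
  have h := congrArg (fun g => SemilinearAut.toRingAut g x)
    (map_mul (arithmeticGalois (L := Qb) (modularFunctionFieldFull N)) σ τ)
  exact h

theorem gal_one (x : FN N) : gal N 1 x = x := by
  have h := congrArg (fun g => SemilinearAut.toRingAut g x)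
    (map_one (arithmeticGalois (L := Qb) (modularFunctionFieldFull N)))
  exact h

/-- the Galois action on units -/
def galU (σ : GQ) : (FN N)ˣ →* (FN N)ˣ := Units.map ((gal N σ : FN N →+* FN N) : FN N →* FN N)

@[simp] theorem coe_galU (σ : GQ) (u : (FN N)ˣ) : ((galU σ u : (FN N)ˣ) : FN N) = gal N σ u := rfl

theorem powSub_le_comap (σ : GQ) : powSub N p ≤ (powSub N p).comap (galU σ) := by
  rintro _ ⟨r, rfl⟩
  exact ⟨galU σ r, (map_pow (galU σ) r p).symm⟩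

variable (N p)

/-- the Galois action on classes -/
def actW : GQ →* AddMonoid.End (WW N p) where
  toFun σ := MonoidHom.toAdditive (QuotientGroup.map _ _ (galU σ) (powSub_le_comap σ))
  map_one' := by
    ext w
    obtain ⟨u, rfl⟩ := cls_surjective w
    show cls (galU 1 u) = cls u
    have : galU 1 u = u := Units.ext (gal_one _)
    rw [this]
  map_mul' σ τ := by
    ext w
    obtain ⟨u, rfl⟩ := cls_surjective w
    show cls (galU (σ * τ) u) = cls (galU σ (galU τ u))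
    have : galU (σ * τ) u = galU σ (galU τ u) := Units.ext (gal_mul _ _ _)
    rw [this]

variable {N p}

theorem actW_cls (σ : GQ) (u : (FN N)ˣ) : actW N p σ (cls u) = cls (galU σ u) := rfl

/-- classes of nonzero elements -/
def cl (u : FN N) (hu : u ≠ 0) : WW N p := cls (Units.mk0 u hu)

theorem cl_eq_of_eq_mul (hp : p ≠ 0) {u v r : FN N} (hu : u ≠ 0) (hv : v ≠ 0)
    (h : u = v * r ^ p) : (cl u hu : WW N p) = cl v hv := by
  have hr : r ≠ 0 := by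
    rintro rfl
    rw [zero_pow hp, mul_zero] at h
    exact hu h
  have : Units.mk0 u hu = Units.mk0 v hv * (Units.mk0 r hr) ^ p := Units.ext h
  rw [cl, this, cls_mul, cls_pow_self]
  exact add_zero (cls (Units.mk0 v hv) : WW N p)

theorem cl_mul {u v : FN N} (hu : u ≠ 0) (hv : v ≠ 0) :
    (cl (u * v) (mul_ne_zero hu hv) : WW N p) = cl u hu + cl v hv := by
  have : Units.mk0 (u * v) (mul_ne_zero hu hv) = Units.mk0 u hu * Units.mk0 v hv := Units.ext rfl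
  rw [cl, this, cls_mul]
  rfl

theorem cl_pow {u : FN N} (hu : u ≠ 0) (n : ℕ) :
    (cl (u ^ n) (pow_ne_zero n hu) : WW N p) = n • cl u hu := by
  have : Units.mk0 (u ^ n) (pow_ne_zero n hu) = Units.mk0 u hu ^ n := Units.ext rfl
  rw [cl, this, cls_pow]
  rfl

theorem actW_cl (σ : GQ) {u : FN N} (hu : u ≠ 0) :
    actW N p σ (cl u hu) = cl (gal N σ u) ((_root_.map_ne_zero _).mpr hu) := by
  rw [cl, actW_cls]
  have : galU σ (Units.mk0 u hu) = Units.mk0 (gal N σ u) ((_root_.map_ne_zero _).mpr hu) := Units.ext rfl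
  rw [this]
  rfl

theorem cl_congr {u v : FN N} (hu : u ≠ 0) (h : u = v) :
    (cl u hu : WW N p) = cl v (h ▸ hu) := by
  subst h; rfl

theorem cl_eq_zero {u : FN N} (hu : u ≠ 0) (h : (cl u hu : WW N p) = 0) :
    ∃ r : FN N, u = r ^ p := by
  obtain ⟨r, hr⟩ := (cls_eq_zero_iff _).mp h
  exact ⟨r, by rw [← Units.val_pow_eq_pow_val, hr]; rfl⟩

end WW

section Theta

variable {N p : ℕ} [NeZero N]

theorem IsKummer.ne_zero {c : Additive (Gamma0 N) →+ ℤ} {u : FN N} (h : IsKummer N p c u) :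
    u ≠ 0 := by
  obtain ⟨h, hh0, hpow, -⟩ := h
  rintro rfl
  rw [map_zero] at hpow
  exact hh0 (eq_zero_of_pow_eq_zero hpow.symm)

/-- a chosen Kummer element -/
def uK (hD : Desc N p) (c : XN N) : FN N := (hD c c.2).choose

theorem isKummer_uK (hD : Desc N p) (c : XN N) : IsKummer N p c (uK hD c) := (hD c c.2).choose_spec

theorem uK_ne_zero (hD : Desc N p) (c : XN N) : uK hD c ≠ 0 := (isKummer_uK hD c).ne_zero

/-- `c ↦ [u_c]` -/
def Theta (hp : p ≠ 0) (hD : Desc N p) : XN N →+ WW N p :=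
  AddMonoidHom.mk' (fun c => cl (uK hD c) (uK_ne_zero hD c)) (fun c c' => by
    obtain ⟨r, hr⟩ := isKummer_unique N p hp _ _ _ (isKummer_uK hD (c + c'))
      (isKummer_mul N p _ _ _ _ (isKummer_uK hD c) (isKummer_uK hD c'))
    rw [cl_eq_of_eq_mul hp (uK_ne_zero hD (c + c'))
      (mul_ne_zero (uK_ne_zero hD c) (uK_ne_zero hD c')) hr, cl_mul])

theorem Theta_apply (hp : p ≠ 0) (hD : Desc N p) (c : XN N) :
    Theta hp hD c = cl (uK hD c) (uK_ne_zero hD c) := rfl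

/-- `Θ c` is the class of any Kummer element of `c` -/
theorem Theta_eq (hp : p ≠ 0) (hD : Desc N p) (c : XN N) {u : FN N} (hu : IsKummer N p c u) :
    Theta hp hD c = cl u hu.ne_zero := by
  obtain ⟨r, hr⟩ := isKummer_unique N p hp _ _ _ (isKummer_uK hD c) hu
  rw [Theta_apply, cl_eq_of_eq_mul hp _ hu.ne_zero hr]

omit [NeZero N] in
theorem exists_div_XN (hp : p ≠ 0) (c : XN N)
    (h : ∀ γ : Gamma0 N, (p : ℤ) ∣ (c : Additive (Gamma0 N) →+ ℤ) (Additive.ofMul γ)) :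
    ∃ c' : XN N, c = p • c' := by
  have hp' : (p : ℤ) ≠ 0 := by exact_mod_cast hp
  let c₀ : Additive (Gamma0 N) →+ ℤ :=
    { toFun := fun x => (c : Additive (Gamma0 N) →+ ℤ) x / p
      map_zero' := by simp
      map_add' := fun x y => by
        rw [map_add]
        exact Int.add_ediv_of_dvd_left (h (Additive.toMul x)) }
  have hc₀ : c₀ ∈ XN N := by
    intro γ hγ
    show (c : Additive (Gamma0 N) →+ ℤ) (Additive.ofMul γ) / p = 0
    rw [c.2 γ hγ, Int.zero_ediv]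
  refine ⟨⟨c₀, hc₀⟩, Subtype.ext (AddMonoidHom.ext fun x => ?_)⟩
  show (c : Additive (Gamma0 N) →+ ℤ) x = p • ((c : Additive (Gamma0 N) →+ ℤ) x / p)
  rw [nsmul_eq_mul]
  exact (Int.mul_ediv_cancel' (h (Additive.toMul x))).symm

theorem Theta_ker (hp : p ≠ 0) (hD : Desc N p) (c : XN N) (h : Theta hp hD c = 0) :
    ∃ c' : XN N, c = p • c' := by
  obtain ⟨r, hr⟩ := cl_eq_zero _ h
  have h1 := isKummer_uK hD c
  rw [hr] at h1
  exact exists_div_XN hp c (dvd_of_isKummer_pow N p hp _ r h1)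

theorem Theta_level (hp : p ≠ 0) (hD : Desc N p) (c : XN N) :
    ∃ L : IntermediateField ℚ Qb, FiniteDimensional ℚ L ∧
      ∀ g : GQ, (∀ x ∈ L, g x = x) → actW N p g (Theta hp hD c) = Theta hp hD c := by
  obtain ⟨L, hL, h⟩ := exists_level (uK hD c)
  refine ⟨L, hL, fun g hg => ?_⟩
  rw [Theta_apply, actW_cl]
  exact cl_congr _ (h g hg)

/-- the Hecke operators indexed by `ℕ` -/
def TX (N : ℕ) [NeZero N] (ℓ : ℕ) : Module.End ℤ (XN N) :=
  if h : ℓ.Prime ∧ ¬ ℓ ∣ N then heckeX N h.1 h.2 else 0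

theorem TX_eq {ℓ : ℕ} (hℓ : ℓ.Prime) (hN : ¬ ℓ ∣ N) : TX N ℓ = heckeX N hℓ hN :=
  dif_pos ⟨hℓ, hN⟩

theorem Theta_ES (hp : p ≠ 0) (hD : Desc N p) (h3 : K3 N p) (h1 : ES1 N p)
    (ℓ : ℕ) (hℓ : ℓ.Prime) (hM : ¬ ℓ ∣ N * p) (A : ValuationSubring Qb) (hA : A.LiesOverPrime ℓ)
    (σ : GQ) (hσ : A.IsFrobeniusAt σ ℓ) (g : GQ) (c : XN N) :
    actW N p g (Theta hp hD (TX N ℓ c)) =
      actW N p σ (actW N p g (Theta hp hD c)) + ℓ • actW N p σ⁻¹ (actW N p g (Theta hp hD c)) := by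
  have hN : ¬ ℓ ∣ N := fun h => hM (Dvd.dvd.mul_right h p)
  have : NeZero ℓ := ⟨hℓ.ne_zero⟩
  have hk := h3 ℓ hℓ hN c (heckeX N hℓ hN c) (uK hD c) c.2 (isKummer_uK hD c)
    (isTransfer_heckeX N hℓ hN c)
  have hu0 := uK_ne_zero hD c
  have hP : PDiv Kb (FN N) p (gal N g (uK hD c)) :=
    PDiv.gal (pdiv_of_isKummer N p c c.2 _ (isKummer_uK hD c)) g
  obtain ⟨r, hr⟩ := h1 ℓ hℓ hM A hA σ hσ _ hP
  rw [TX_eq hℓ hN, Theta_eq hp hD _ hk, Theta_apply, actW_cl, actW_cl, actW_cl, actW_cl,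
    ← cl_pow, ← cl_mul]
  rw [cl_congr _ (gal_Tl N ℓ g (uK hD c))]
  exact cl_eq_of_eq_mul hp _ _ hr

theorem Theta_inertia (hp : p ≠ 0) (hD : Desc N p) (h2 : ES2 N p)
    (ℓ : ℕ) (hℓ : ℓ.Prime) (hM : ¬ ℓ ∣ N * p) (A : ValuationSubring Qb) (hA : A.LiesOverPrime ℓ)
    (τ : GQ) (hτ : τ ∈ A.inertiaSubgroupIn ℚ) (g : GQ) (c : XN N) :
    actW N p τ (actW N p g (Theta hp hD c)) = actW N p g (Theta hp hD c) := by
  have hP : PDiv Kb (FN N) p (gal N g (uK hD c)) :=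
    PDiv.gal (pdiv_of_isKummer N p c c.2 _ (isKummer_uK hD c)) g
  obtain ⟨r, hr⟩ := h2 ℓ hℓ hM A hA τ hτ _ hP
  rw [Theta_apply, actW_cl, actW_cl]
  exact cl_eq_of_eq_mul hp _ _ hr

end Theta

section Main

theorem main_algClosed {N : ℕ} [NeZero N] {g : CuspForm (Gamma0 N) 2}
    (hg : g.IsNormalizedEigenform) {p : ℕ} (hp : p.Prime) {k : Type} [Field k] [IsAlgClosed k]
    [CharP k p] (φ : integralClosure ℤ ℂ →+* k)
    (hD : Desc N p) (h3 : K3 N p) (h1 : ES1 N p) (h2 : ES2 N p) :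
    ∃ (a : ℕ → integralClosure ℤ ℂ) (r : ResidualGaloisRep k),
      (∀ ℓ : ℕ, ℓ.Prime → ¬ ℓ ∣ N → (a ℓ : ℂ) = qCoeff g ℓ) ∧
      (∀ ℓ : ℕ, ℓ.Prime → ¬ ℓ ∣ N * p → ∀ A : ValuationSubring Qb, A.LiesOverPrime ℓ →
        ∀ σ : GQ, A.IsFrobeniusAt σ ℓ →
          LinearMap.charpoly (r.ρ σ) = X ^ 2 - C (φ (a ℓ)) * X + C ((ℓ : k))) ∧
      (∀ ℓ : ℕ, ℓ.Prime → ¬ ℓ ∣ N * p → r.IsUnramifiedAt ℓ) := by
  classical
  obtain ⟨x, hx0, hx⟩ := exists_eigen_XN N g (ne_zero_of_isNormalizedEigenform hg)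
    (fun ℓ => qCoeff g ℓ) (fun ℓ hℓ hN => heckeTLin_eq_smul hg hℓ hN)
  have hint : ∀ ℓ : ℕ, ℓ.Prime → ¬ ℓ ∣ N → IsIntegral ℤ (qCoeff g ℓ) := fun ℓ hℓ hN =>
    isIntegral_of_eigenvalue (heckeX N hℓ hN) _ x hx0 (hx ℓ hℓ hN)
  let a : ℕ → integralClosure ℤ ℂ := fun ℓ =>
    if h : IsIntegral ℤ (qCoeff g ℓ) then ⟨qCoeff g ℓ, h⟩ else 0
  have ha : ∀ ℓ : ℕ, ℓ.Prime → ¬ ℓ ∣ N → (a ℓ : ℂ) = qCoeff g ℓ := fun ℓ hℓ hN => by
    simp only [a, dif_pos (hint ℓ hℓ hN)]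
  obtain ⟨y, hy0, hy⟩ := exists_eigenvector_mod
    (ι := {ℓ : ℕ // ℓ.Prime ∧ ¬ ℓ ∣ N}) (fun i => heckeX N i.2.1 i.2.2)
    (fun i j => heckeX_commute N i.2.1 i.2.2 j.2.1 j.2.2) (fun i => a i.1) x hx0
    (fun i => by rw [ha i.1 i.2.1 i.2.2]; exact hx i.1 i.2.1 i.2.2) φ
  have hp0 : p ≠ 0 := hp.ne_zero
  obtain ⟨W, i1, i2, i3, i4, ρ, hfin, hES, hur⟩ := exists_ES_module hp (WW N p) nsmul_WW (actW N p)
    (XN N) (Theta hp0 hD) (Theta_ker hp0 hD) (Theta_level hp0 hD) (N * p) (TX N)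
    (fun ℓ => φ (a ℓ)) y hy0
    (fun ℓ hℓ hM => by
      have hN : ¬ ℓ ∣ N := fun h => hM (Dvd.dvd.mul_right h p)
      rw [TX_eq hℓ hN]
      exact hy ⟨ℓ, hℓ, hN⟩)
    (Theta_ES hp0 hD h3 h1) (Theta_inertia hp0 hD h2)
  obtain ⟨r, hr1, hr2⟩ := exists_residualRep hp (N * p) (mul_ne_zero (NeZero.ne N) hp0)
    (Dvd.intro_left N rfl) W ρ hfin (fun ℓ => φ (a ℓ)) hES hur
  exact ⟨a, r, ha, hr1, hr2⟩

/-- the trivial two dimensional representation -/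
def trivRep (k : Type) [Field k] : ResidualGaloisRep k where
  V := Fin 2 → k
  finrank_eq := by simp
  ρ := 1
  factorsThroughFiniteLevel := ⟨⊥, inferInstance, fun _ _ => rfl⟩

theorem main {N : ℕ} [NeZero N] {g : CuspForm (Gamma0 N) 2}
    (hg : g.IsNormalizedEigenform) {p : ℕ} (hp : p.Prime) {k : Type} [Field k]
    [CharP k p] (φ : integralClosure ℤ ℂ →+* k)
    (hD : Desc N p) (h3 : K3 N p) (h1 : ES1 N p) (h2 : ES2 N p) :
    ∃ ρ : ResidualGaloisRep k, ρ.IsAttachedTo g φ ∧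
      ∀ ℓ : ℕ, ℓ.Prime → ¬ ℓ ∣ N * p → ρ.IsUnramifiedAt ℓ := by
  obtain ⟨k₀, hk₀, hcl⟩ := isAlgClosed_fieldRange φ
  have : CharP k₀ p := (RingHom.charP_iff k₀.subtype k₀.subtype.injective p).mpr inferInstance
  let φ₀ : integralClosure ℤ ℂ →+* k₀ := φ.codRestrict k₀ hk₀
  obtain ⟨a, r, ha, hr1, hr2⟩ := main_algClosed hg hp φ₀ hD h3 h1 h2
  refine ⟨r.baseChange k, ?_, ?_⟩
  · intro ℓ hℓ hN hℓk A hA σ hσ
    have hM : ¬ ℓ ∣ N * p := by
      intro h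
      rcases (Nat.Prime.dvd_mul hℓ).mp h with h | h
      · exact hN h
      · have : ℓ = p := (Nat.prime_dvd_prime_iff_eq hℓ hp).mp h
        apply hℓk
        rw [this]
        exact CharP.cast_eq_zero k p
    refine ⟨a ℓ, ha ℓ hℓ hN, ?_⟩
    show LinearMap.charpoly ((r.ρ σ).baseChange k) = _
    rw [LinearMap.charpoly_baseChange, hr1 ℓ hℓ hM A hA σ hσ]
    simp only [Polynomial.map_add, Polynomial.map_sub, Polynomial.map_mul, Polynomial.map_pow,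
      Polynomial.map_X, Polynomial.map_C, map_natCast]
    rw [Polynomial.map_natCast]
    rfl
  · intro ℓ hℓ hM A hA σ hσ
    show (r.ρ σ).baseChange k = 1
    rw [hr2 ℓ hℓ hM A hA σ hσ, LinearMap.baseChange_one]

theorem main_zero {g : CuspForm (Gamma0 0) 2} {p : ℕ} {k : Type} [Field k]
    (φ : integralClosure ℤ ℂ →+* k) :
    ∃ ρ : ResidualGaloisRep k, ρ.IsAttachedTo g φ ∧
      ∀ ℓ : ℕ, ℓ.Prime → ¬ ℓ ∣ 0 * p → ρ.IsUnramifiedAt ℓ :=
  ⟨trivRep k, fun ℓ _ h => absurd (dvd_zero ℓ) h, fun ℓ _ h => absurd (by simp) h⟩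

end Main

end Fermat.Agent.S29
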